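import Mathlib.RingTheory.AlgebraicIndependent.TranscendenceBasis
import Mathlib.RingTheory.AlgebraicIndependent.AlgebraicClosure
import Mathlib.Combinatorics.Matroid.Rank.ENat
import Mathlib.FieldTheory.IntermediateField.Adjoin.Algebra

/-!
# The transcendence degree of subsets of a field extension
-/

set_option autoImplicit false
set_option linter.style.haveILetI false

noncomputable section

namespace FLTAgent.AV

open Set IntermediateField

universe u

variable {E L : Type u} [Field E] [Field L] [Algebra E L]

/-- The transcendence degree of a set over a subfield. -/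
def tdim (E : Type u) {L : Type u} [Field E] [Field L] [Algebra E L] (S : Set L) : ℕ∞ :=
  (AlgebraicIndependent.matroid E L).eRk S

theorem tdim_mono (E : Type u) {L : Type u} [Field E] [Field L] [Algebra E L] {S T : Set L} (h : S ⊆ T) : tdim E S ≤ tdim E T :=
  (AlgebraicIndependent.matroid E L).eRk_mono h

theorem tdim_union_le (E : Type u) {L : Type u} [Field E] [Field L] [Algebra E L] (S T : Set L) :
    tdim E (S ∪ T) ≤ tdim E S + tdim E T :=
  Matroid.eRk_union_le_eRk_add_eRk _ S T

/-- The elements algebraic over the field generated by `T` over `E`. -/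
def talg (E : Type u) {L : Type u} [Field E] [Field L] [Algebra E L] (T : Set L) : IntermediateField E L :=
  (algebraicClosure (IntermediateField.adjoin E T) L).restrictScalars E

theorem subset_talg (E : Type u) {L : Type u} [Field E] [Field L] [Algebra E L] (T : Set L) : T ⊆ talg E T := fun x hx => by
  show x ∈ algebraicClosure (IntermediateField.adjoin E T) L
  rw [mem_algebraicClosure_iff]
  exact isAlgebraic_algebraMap (⟨x, subset_adjoin E T hx⟩ : IntermediateField.adjoin E T)

theorem tdim_le_of_subset {S T : Set L} (h : S ⊆ talg E T) :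
    tdim E S ≤ tdim E T := by
  rw [tdim, tdim, ← (AlgebraicIndependent.matroid E L).eRk_closure_eq T]
  refine Matroid.eRk_mono _ fun x hx => ?_
  rw [AlgebraicIndependent.matroid_closure_eq]
  have hx' : IsAlgebraic (IntermediateField.adjoin E T) x := mem_algebraicClosure_iff.1 (h hx)
  rw [SetLike.mem_coe, Subalgebra.mem_algebraicClosure]
  exact isAlgebraic_adjoin_iff.1 hx'

theorem tdim_adjoin (E : Type u) {L : Type u} [Field E] [Field L] [Algebra E L] (S : Set L) :
    tdim E (IntermediateField.adjoin E S : Set L) = tdim E S :=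
  le_antisymm (tdim_le_of_subset fun x hx => by
    have : IntermediateField.adjoin E S ≤ talg E S := adjoin_le_iff.2 (subset_talg E S)
    exact this hx) (tdim_mono E (subset_adjoin E S))

theorem tdim_le_encard (E : Type u) {L : Type u} [Field E] [Field L] [Algebra E L] (S : Set L) : tdim E S ≤ S.encard :=
  Matroid.eRk_le_encard _ S

theorem tdim_map {L' : Type u} [Field L'] [Algebra E L'] (σ : L →ₐ[E] L') (S : Set L) :
    tdim E (σ '' S) = tdim E S := by
  refine le_antisymm ?_ ?_ <;> obtain ⟨I, hI⟩ := (AlgebraicIndependent.matroid E L).exists_isBasis S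
  · obtain ⟨-, -, halg⟩ := AlgebraicIndependent.matroid_isBasis_iff.1 hI
    rw [show tdim E S = I.encard from hI.eRk_eq_encard, ← σ.toRingHom.injective.encard_image I]
    refine (tdim_le_of_subset (T := σ '' I) ?_).trans (tdim_le_encard E _)
    rintro _ ⟨x, hx, rfl⟩
    have hx' : IsAlgebraic (IntermediateField.adjoin E I) x := isAlgebraic_adjoin_iff.2 (halg x hx)
    have h2 : (IntermediateField.adjoin E I).map σ = IntermediateField.adjoin E (σ '' I) :=
      adjoin_map _ _ _
    obtain ⟨p, hp0, hp⟩ := hx'
    have hle : ∀ y : IntermediateField.adjoin E I, σ y ∈ IntermediateField.adjoin E (σ '' I) :=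
      fun y => h2 ▸ ⟨y, y.2, rfl⟩
    let τ : IntermediateField.adjoin E I →+* IntermediateField.adjoin E (σ '' I) :=
      (σ.comp (IntermediateField.adjoin E I).val).toRingHom.codRestrict
        (IntermediateField.adjoin E (σ '' I)).toSubfield hle
    show σ x ∈ algebraicClosure (IntermediateField.adjoin E (σ '' I)) L'
    rw [mem_algebraicClosure_iff]
    refine ⟨p.map τ, (Polynomial.map_ne_zero_iff τ.injective).2 hp0, ?_⟩
    have hp' := congrArg σ hp
    rw [Polynomial.aeval_def, ← AlgHom.coe_toRingHom, Polynomial.hom_eval₂, map_zero] at hp'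
    rw [Polynomial.aeval_def, Polynomial.eval₂_map]
    exact hp'
  · rw [show tdim E S = I.encard from hI.eRk_eq_encard, ← σ.toRingHom.injective.encard_image I]
    have h1 := (AlgebraicIndependent.matroid_indep_iff.1 hI.indep).map' (f := σ)
      σ.toRingHom.injective
    refine Matroid.le_eRk_iff.2 ⟨σ '' I, Set.image_mono hI.subset, ?_, rfl⟩
    refine AlgebraicIndependent.matroid_indep_iff.2 ?_
    have := h1.to_subtype_range
    rw [Set.range_comp, show Set.range (fun x : I => id (x : L)) = I from Subtype.range_coe] at this
    exact this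

theorem le_trdeg_iff {S : Set L} {m : ℕ} :
    (m : Cardinal) ≤ Algebra.trdeg E (IntermediateField.adjoin E S) ↔ (m : ℕ∞) ≤ tdim E S := by
  constructor
  · intro h
    obtain ⟨s, hs⟩ := exists_isTranscendenceBasis E (IntermediateField.adjoin E S)
    rw [← hs.cardinalMk_eq_trdeg] at h
    obtain ⟨t, ht, htc⟩ := Cardinal.le_mk_iff_exists_subset.1 h
    rw [← tdim_adjoin]
    have hti := (hs.1.mono ht).map' (f := (IntermediateField.adjoin E S).val) Subtype.val_injective
    refine Matroid.le_eRk_iff.2 ⟨Subtype.val '' t, ?_, ?_, ?_⟩
    · rintro _ ⟨y, -, rfl⟩; exact y.2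
    · refine AlgebraicIndependent.matroid_indep_iff.2 ?_
      have := hti.to_subtype_range
      rw [show Set.range ((IntermediateField.adjoin E S).val ∘ (Subtype.val : t → _)) =
        Subtype.val '' t by rw [Set.range_comp, Subtype.range_coe]; rfl] at this
      exact this
    · rw [Subtype.val_injective.encard_image, ← Set.toENat_cardinalMk, htc, map_natCast]
  · intro h
    obtain ⟨I, hIS, hI, hc⟩ := Matroid.le_eRk_iff.1 h
    have hI' : AlgebraicIndependent E
        (fun i : I => (⟨(i : L), subset_adjoin E S (hIS i.2)⟩ : IntermediateField.adjoin E S)) :=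
      AlgebraicIndependent.of_comp (IntermediateField.adjoin E S).val hI
    refine le_of_eq_of_le ?_ hI'.cardinalMk_le_trdeg
    have hfin : I.Finite := Set.finite_of_encard_eq_coe hc
    haveI := hfin.to_subtype
    have hcard : Nat.card I = m := by
      rw [Nat.card_coe_set_eq]
      exact_mod_cast hfin.cast_ncard_eq.trans hc
    rw [← hcard, Nat.cast_card]

end FLTAgent.AV
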