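import Fermat.Agent.AV.Interface
import Fermat.Agent.AV.Curve.Dim

/-!
# Points of an abelian variety: elementary lemmas
-/

set_option autoImplicit false
set_option linter.style.haveILetI false

noncomputable section

namespace FLTAgent.AV

open IntermediateField

universe u

variable {K : Type u} [Field K] {g : ℕ} {V : Space K g}
variable {L L' L'' : Type u} [Field L] [Algebra K L] [Field L'] [Algebra K L'] [Field L'']
  [Algebra K L'']

namespace Space.Pt

theorem map_map (σ : L →ₐ[K] L') (τ : L' →ₐ[K] L'') (p : V.Pt L) :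
    (p.map σ).map τ = p.map (τ.comp σ) := rfl

theorem map_id' (p : V.Pt L) : p.map (AlgHom.id K L) = p := rfl

/-- The coordinates of a point. -/
def vals (p : V.Pt L) : Set L := Set.range p.φ

theorem vals_map (σ : L →ₐ[K] L') (p : V.Pt L) : (p.map σ).vals = σ '' p.vals := by
  rw [vals, vals, ← Set.range_comp]; rfl

/-- The point restricted to a subfield containing its coordinates. -/
def restrict (p : V.Pt L) (E : IntermediateField K L) (h : p.vals ⊆ E) : V.Pt E where
  q := p.q
  φ := p.φ.codRestrict E.toSubalgebra fun a => h ⟨a, rfl⟩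
  isUnit_of_ne_zero a ha := p.isUnit_of_ne_zero a fun h0 => ha (Subtype.ext h0)

theorem map_restrict (p : V.Pt L) (E : IntermediateField K L) (h : p.vals ⊆ E) :
    (p.restrict E h).map E.val = p := rfl

theorem vals_subset_of_map (E : IntermediateField K L) (p : V.Pt E) :
    (p.map E.val).vals ⊆ E := by
  rintro _ ⟨a, rfl⟩
  exact (p.φ a).2

theorem eval_of_mem (p : V.Pt L) {h : V.N} (hh : h ∈ V.O p.q) : p.eval h = p.φ ⟨h, hh⟩ := by
  rw [Space.Pt.eval]; exact dif_pos hh

theorem eval_map (σ : L →ₐ[K] L') (p : V.Pt L) (h : V.N) :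
    (p.map σ).eval h = σ (p.eval h) := by
  rw [Space.Pt.eval, Space.Pt.eval]
  by_cases hh : h ∈ V.O p.q
  · rw [dif_pos hh, dif_pos (show h ∈ V.O (p.map σ).q from hh)]; rfl
  · rw [dif_neg hh, dif_neg (show ¬ h ∈ V.O (p.map σ).q from hh), map_zero]

theorem mem_O_gen (h : V.N) : h ∈ V.O V.gen := (SetLike.ext_iff.1 V.O_gen h).2 Algebra.mem_top

/-- At the generic point the value is a field embedding. -/
def evalHom (p : V.Pt L) (hp : p.q = V.gen) : V.N →ₐ[K] L :=
  p.φ.comp ((AlgHom.id K V.N).codRestrict _ fun h => hp.symm ▸ mem_O_gen h)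

theorem evalHom_apply (p : V.Pt L) (hp : p.q = V.gen) (h : V.N) :
    p.evalHom hp h = p.eval h := by
  rw [eval_of_mem p (hp.symm ▸ mem_O_gen h)]; rfl

theorem eval_mem_vals (p : V.Pt L) {h : V.N} (hh : h ∈ V.O p.q) : p.eval h ∈ p.vals :=
  ⟨_, (eval_of_mem p hh).symm⟩

theorem eval_ne_zero (p : V.Pt L) (hp : p.q = V.gen) {h : V.N} (hh : h ≠ 0) : p.eval h ≠ 0 := by
  rw [← evalHom_apply p hp]
  exact (map_ne_zero _).2 hh

/-- A unit of the local ring of a point has nonzero value there. -/
theorem eval_ne_zero_of_inv_mem (p : V.Pt L) {h : V.N} (h0 : h ≠ 0) (hh : h ∈ V.O p.q)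
    (hi : h⁻¹ ∈ V.O p.q) : p.eval h ≠ 0 := fun e => by
  rw [eval_of_mem p hh] at e
  have h1 : p.φ ⟨h, hh⟩ * p.φ ⟨h⁻¹, hi⟩ = 1 := by
    rw [← map_mul, ← map_one p.φ]
    exact congrArg p.φ (Subtype.ext (mul_inv_cancel₀ h0))
  rw [e, zero_mul] at h1
  exact zero_ne_one h1

theorem inv_mem_of_eval_ne_zero (p : V.Pt L) {h : V.N} (hh : h ∈ V.O p.q) (he : p.eval h ≠ 0) :
    h⁻¹ ∈ V.O p.q := by
  rw [eval_of_mem p hh] at he
  obtain ⟨u, hu⟩ := p.isUnit_of_ne_zero _ he
  have h1 : h * ((u⁻¹ : (V.O p.q)ˣ) : V.O p.q).1 = 1 := by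
    have h2 : ((u : V.O p.q) * ((u⁻¹ : (V.O p.q)ˣ) : V.O p.q) : V.O p.q) = 1 := u.mul_inv
    rw [hu] at h2
    exact congrArg Subtype.val h2
  rw [← eq_inv_of_mul_eq_one_right h1]
  exact SetLike.coe_mem _

theorem dimGE_of_tdim {E : Type u} [Field E] [Algebra K E] [Algebra E L] [IsScalarTower K E L]
    (p : V.Pt L) {m : ℕ} (h : (m : ℕ∞) ≤ tdim E p.vals) : p.DimGE m := by
  obtain ⟨I, hIS, hI, hc⟩ := Matroid.le_eRk_iff.1 h
  have hK : AlgebraicIndependent K (fun i : I => (i : L)) :=
    (AlgebraicIndependent.matroid_indep_iff.1 hI).restrictScalars (algebraMap K E).injective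
  have hI' : AlgebraicIndependent K
      (fun i : I => (⟨(i : L), IntermediateField.subset_adjoin K _ (hIS i.2)⟩ : p.field)) :=
    AlgebraicIndependent.of_comp p.field.val hK
  refine le_of_eq_of_le ?_ hI'.cardinalMk_le_trdeg
  have hfin : I.Finite := Set.finite_of_encard_eq_coe hc
  haveI := hfin.to_subtype
  have hcard : Nat.card I = m := by
    rw [Nat.card_coe_set_eq]
    exact_mod_cast hfin.cast_ncard_eq.trans hc
  rw [← hcard, Nat.cast_card]

theorem genericOver_iff {E : Type u} [Field E] [Algebra K E] [Algebra E L] [IsScalarTower K E L]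
    (p : V.Pt L) :
    p.GenericOver (IsScalarTower.toAlgHom K E L).fieldRange ↔ (g : ℕ∞) ≤ tdim E p.vals := by
  rw [Space.Pt.GenericOver, le_trdeg_iff]
  set E' := (IsScalarTower.toAlgHom K E L).fieldRange
  have hiff : ∀ I : Set L, (AlgebraicIndependent.matroid E' L).Indep I ↔
      (AlgebraicIndependent.matroid E L).Indep I := by
    intro I
    rw [AlgebraicIndependent.matroid_indep_iff, AlgebraicIndependent.matroid_indep_iff]
    let e : E →+* E' := (IsScalarTower.toAlgHom K E L).rangeRestrict.toRingHom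
    have he : Function.Surjective e := AlgHom.rangeRestrict_surjective _
    exact ⟨fun h => h.of_ringHom_of_comp_eq e (RingHom.id L) e.injective (RingHom.ext fun x => rfl),
      fun h => h.ringHom_of_comp_eq e (RingHom.id L) he Function.injective_id
        (RingHom.ext fun x => rfl)⟩
  rw [tdim, tdim, Matroid.le_eRk_iff, Matroid.le_eRk_iff]
  simp only [hiff]; rfl

end Space.Pt

namespace Law

variable (G : Law V)

/-- The map on points as a homomorphism. -/
def mapHom (σ : L →ₐ[K] L') :
    letI := G.group L; letI := G.group L'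
    V.Pt L →+ V.Pt L' :=
  letI := G.group L; letI := G.group L'
  AddMonoidHom.mk' (Space.Pt.map σ) (G.map_add σ)

/-- The zero point has coordinates in the constants. -/
theorem vals_zero : letI := G.group L; (0 : V.Pt L).vals ⊆ (⊥ : IntermediateField K L) := by
  letI := G.group K
  letI := G.group L
  have h : (G.mapHom (Algebra.ofId K L)) 0 = (0 : V.Pt L) := map_zero _
  rw [← h]
  rintro _ ⟨a, rfl⟩
  exact IntermediateField.mem_bot.2 ⟨_, rfl⟩

theorem vals_add {p q : V.Pt L} {E : IntermediateField K L} (hp : p.vals ⊆ E) (hq : q.vals ⊆ E) :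
    letI := G.group L; (p + q).vals ⊆ E := by
  letI := G.group E
  letI := G.group L
  have h : (p.restrict E hp + q.restrict E hq).map E.val = p + q := G.map_add _ _ _
  rw [← h]
  exact Space.Pt.vals_subset_of_map E _

theorem vals_neg {p : V.Pt L} {E : IntermediateField K L} (hp : p.vals ⊆ E) :
    letI := G.group L; (-p).vals ⊆ E := by
  letI := G.group E
  letI := G.group L
  have h : G.mapHom E.val (-(p.restrict E hp)) = -p := map_neg _ _
  rw [← h]
  exact Space.Pt.vals_subset_of_map E _

theorem vals_zsmul {p : V.Pt L} {E : IntermediateField K L} (hp : p.vals ⊆ E) (a : ℤ) :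
    letI := G.group L; (a • p).vals ⊆ E := by
  letI := G.group E
  letI := G.group L
  have h : G.mapHom E.val (a • (p.restrict E hp)) = a • p := map_zsmul _ _ _
  rw [← h]
  exact Space.Pt.vals_subset_of_map E _

variable {B : Type u} [Field B] [Algebra K B] [Algebra B L] [IsScalarTower K B L]

theorem subset_adjoin_restrict (S : Set L) :
    (IntermediateField.adjoin K S : Set L) ⊆ IntermediateField.adjoin B S :=
  fun _ hx => (IntermediateField.adjoin_le_iff.2 (IntermediateField.subset_adjoin B S) :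
    IntermediateField.adjoin K S ≤ (IntermediateField.adjoin B S).restrictScalars K) hx

/-- Adding a point lowers the dimension at most by its own dimension. -/
theorem tdim_le_add (p r : V.Pt L) :
    letI := G.group L; tdim B p.vals ≤ tdim B (p + r).vals + tdim B r.vals := by
  letI := G.group L
  refine le_trans ?_ (tdim_union_le B _ _)
  refine le_of_le_of_eq (tdim_mono B ?_) (tdim_adjoin B _)
  refine fun x hx => subset_adjoin_restrict (K := K) (B := B) _ ?_
  have h := G.vals_add (E := IntermediateField.adjoin K ((p + r).vals ∪ r.vals))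
    (Set.subset_union_left.trans (IntermediateField.subset_adjoin K _))
    (G.vals_neg (Set.subset_union_right.trans (IntermediateField.subset_adjoin K _)))
  rw [add_neg_cancel_right] at h
  exact h hx

theorem tdim_of_le {p : V.Pt L} {S : Set L} (h : p.vals ⊆ IntermediateField.adjoin K S) :
    tdim B p.vals ≤ tdim B S :=
  le_of_le_of_eq (tdim_mono B (h.trans (subset_adjoin_restrict (K := K) (B := B) _))) (tdim_adjoin B _)

theorem tdim_map_pt {L' : Type u} [Field L'] [Algebra K L'] [Algebra B L'] [IsScalarTower K B L']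
    (σ : L →ₐ[B] L') (p : V.Pt L) :
    tdim B (p.map (σ.restrictScalars K)).vals = tdim B p.vals := by
  rw [Space.Pt.vals_map]; exact tdim_map σ _

end Law

/-! ### Specialisation -/

section Spec

variable (G : Law V) {A : ValuationSubring L} {π : A →+* L'}

theorem IsSpec.eval {p : V.Pt L} {p' : V.Pt L'} (hs : Space.IsSpec π p p') {h : V.N}
    (hh : h ∈ V.O p'.q) : ∃ ha : p.eval h ∈ A, π ⟨_, ha⟩ = p'.eval h := by
  obtain ⟨hz, hv⟩ := hs
  obtain ⟨ha, hv⟩ := hv ⟨h, hh⟩
  have e : p.eval h = p.φ (Subalgebra.inclusion (V.spz_le hz) ⟨h, hh⟩) :=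
    p.eval_of_mem (V.spz_le hz hh)
  refine ⟨e ▸ ha, ?_⟩
  rw [p'.eval_of_mem hh, ← hv]
  exact congrArg π (Subtype.ext e)

/-- Specialisation of a point with coordinates in a field on which the residue map is defined. -/
theorem isSpec_map {L₀ : Type u} [Field L₀] [Algebra K L₀] (σ : L₀ →ₐ[K] L) (τ : L₀ →ₐ[K] L')
    (p : V.Pt L₀) (h : ∀ a, ∃ ha : σ (p.φ a) ∈ A, π ⟨_, ha⟩ = τ (p.φ a)) :
    Space.IsSpec π (p.map σ) (p.map τ) :=
  ⟨V.spz_refl _, fun a => by
    obtain ⟨ha, he⟩ := h a
    exact ⟨ha, he⟩⟩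

theorem isSpec_zero (hπ : Residual (K := K) A π) :
    letI := G.group L; letI := G.group L'; Space.IsSpec π (0 : V.Pt L) (0 : V.Pt L') := by
  letI := G.group K
  letI := G.group L
  letI := G.group L'
  rw [← map_zero (G.mapHom (Algebra.ofId K L)), ← map_zero (G.mapHom (Algebra.ofId K L'))]
  exact isSpec_map _ _ _ fun a => hπ.2 _

theorem isSpec_neg (hπ : Residual (K := K) A π) {p : V.Pt L} {p' : V.Pt L'}
    (hs : Space.IsSpec π p p') :
    letI := G.group L; letI := G.group L'; Space.IsSpec π (-p) (-p') := by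
  letI := G.group L
  letI := G.group L'
  obtain ⟨n, hn, -⟩ := G.exists_spec π hπ (-p)
  have h1 := G.spec_add π hπ hs hn
  rw [add_neg_cancel] at h1
  have h2 := (G.exists_spec π hπ (0 : V.Pt L)).unique h1 (isSpec_zero G hπ)
  rwa [eq_neg_of_add_eq_zero_right h2] at hn

theorem isSpec_zsmul (hπ : Residual (K := K) A π) {p : V.Pt L} {p' : V.Pt L'}
    (hs : Space.IsSpec π p p') (a : ℤ) :
    letI := G.group L; letI := G.group L'; Space.IsSpec π (a • p) (a • p') := by
  letI := G.group L
  letI := G.group L'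
  induction a using Int.induction_on with
  | zero => rw [zero_zsmul, zero_zsmul]; exact isSpec_zero G hπ
  | succ i ih => rw [add_zsmul, add_zsmul, one_zsmul, one_zsmul]; exact G.spec_add π hπ ih hs
  | pred i ih =>
    rw [sub_zsmul, sub_zsmul, one_zsmul, one_zsmul]
    exact G.spec_add π hπ ih (isSpec_neg G hπ hs)

end Spec

end FLTAgent.AV
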