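import Fermat.Agent.AV.Curve.Value
import Fermat.Agent.AV.Const.Model

/-!
# Translated multiples of a point along constant extensions of a curve
-/

set_option autoImplicit false
set_option linter.style.haveILetI false
set_option linter.unusedSectionVars false

noncomputable section

namespace FLTAgent.AV

open AlgebraicCurve FLTAgent.Curves FLTAgent.Jac27.Spread IntermediateField

universe u

/-- A constant extension of the function field `F₀` to `L`. -/
structure Ext (K Ω₀ F₀ L : Type u) [Field K] [Field Ω₀] [Field F₀] [Field L] [Algebra K Ω₀]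
    [Algebra K F₀] [Algebra Ω₀ F₀] [Algebra K L] [Algebra Ω₀ L] where
  F : Type u
  [instField : Field F]
  [instAlgL : Algebra L F]
  [instAlg₀ : Algebra Ω₀ F]
  [instAlgK : Algebra K F]
  [instTower : IsScalarTower Ω₀ L F]
  [instTowerK : IsScalarTower K L F]
  [instTower₀ : IsScalarTower K Ω₀ F]
  ff : IsFunctionField L F
  ι : F₀ →ₐ[Ω₀] F
  hι : ConstExt (K := L) ι

attribute [instance] Ext.instField Ext.instAlgL Ext.instAlg₀ Ext.instAlgK Ext.instTower
  Ext.instTowerK Ext.instTower₀ Ext.ff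

variable {K : Type u} [Field K] {g : ℕ} {V : Space K g} {Ω₀ F₀ L : Type u} [Field Ω₀] [Field F₀]
  [Field L] [Algebra K Ω₀] [Algebra K F₀] [Algebra Ω₀ F₀] [IsScalarTower K Ω₀ F₀] [Algebra K L]
  [Algebra Ω₀ L] [IsScalarTower K Ω₀ L]

/-- The embedding of the curve's field. -/
def Ext.ιK (E : Ext K Ω₀ F₀ L) : F₀ →ₐ[K] E.F := E.ι.restrictScalars K

/-- The constants. -/
def Ext.cK (E : Ext K Ω₀ F₀ L) : L →ₐ[K] E.F := IsScalarTower.toAlgHom K L E.F

/-- The translate by `q` of the multiple `a` of the point `φ`. -/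
def Law.curvePt (G : Law V) (φ : V.Pt F₀) (E : Ext K Ω₀ F₀ L) (a : ℤ) (q : V.Pt L) : V.Pt E.F :=
  letI := G.group E.F
  a • φ.map E.ιK + q.map E.cK

variable [IsAlgClosed Ω₀] [IsFunctionField Ω₀ F₀]

theorem tdim_univ_le_one : tdim Ω₀ (Set.univ : Set F₀) ≤ 1 := by
  obtain ⟨t, -, hfd⟩ := IsFunctionField.exists_transcendental (K := Ω₀) (F := F₀)
  refine (tdim_le_of_subset (T := {t}) fun x _ => ?_).trans ?_
  · show x ∈ algebraicClosure (IntermediateField.adjoin Ω₀ ({t} : Set F₀)) F₀
    rw [mem_algebraicClosure_iff]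
    exact Algebra.IsAlgebraic.isAlgebraic (R := Ω₀⟮t⟯) x
  · exact (tdim_le_encard Ω₀ _).trans (by rw [Set.encard_singleton])

theorem tdim_range_le_one (E : Ext K Ω₀ F₀ L) : tdim Ω₀ (Set.range E.ι) ≤ 1 := by
  rw [← Set.image_univ, tdim_map]
  exact tdim_univ_le_one

theorem Law.vals_curve_le (G : Law V) (φ : V.Pt F₀) (E : Ext K Ω₀ F₀ L) (a : ℤ) :
    letI := G.group E.F; tdim Ω₀ (a • φ.map E.ιK).vals ≤ 1 := by
  letI := G.group E.F
  refine le_trans (Law.tdim_of_le (S := Set.range E.ι) (G.vals_zsmul ?_ a)) (tdim_range_le_one E)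
  rw [Space.Pt.vals_map]
  rintro _ ⟨x, -, rfl⟩
  exact IntermediateField.subset_adjoin _ _ ⟨x, rfl⟩

theorem tdim_const_union {E : Ext K Ω₀ F₀ L} {S : Set L} {m : ℕ} (h : (m : ℕ∞) ≤ tdim Ω₀ S) :
    ((m + 1 : ℕ) : ℕ∞) ≤ tdim Ω₀ (algebraMap L E.F '' S ∪ Set.range E.ι) := by
  obtain ⟨I, hIS, hI, hc⟩ := Matroid.le_eRk_iff.1 h
  obtain ⟨t, ht⟩ := E.hι.trans
  have hI' : AlgebraicIndepOn Ω₀ id (algebraMap L E.F '' I) := by
    have h1 := (AlgebraicIndependent.matroid_indep_iff.1 hI).map'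
      (f := IsScalarTower.toAlgHom Ω₀ L E.F) (algebraMap L E.F).injective
    have := h1.to_subtype_range
    rw [Set.range_comp, show Set.range (fun x : I => id (x : L)) = I from Subtype.range_coe] at this
    exact this
  have hle : Algebra.adjoin Ω₀ (algebraMap L E.F '' I) ≤
      (IsScalarTower.toAlgHom Ω₀ L E.F).range :=
    Algebra.adjoin_le (by rintro _ ⟨x, -, rfl⟩; exact ⟨x, rfl⟩)
  have htr : Transcendental (Algebra.adjoin Ω₀ (algebraMap L E.F '' I)) (E.ι t) := by
    intro halg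
    apply ht
    have h2 : IsAlgebraic (IsScalarTower.toAlgHom Ω₀ L E.F).range (E.ι t) := by
      obtain ⟨p, hp0, hp⟩ := halg
      refine ⟨p.map (Subalgebra.inclusion hle).toRingHom,
        (Polynomial.map_ne_zero_iff (Subalgebra.inclusion_injective hle)).2 hp0, ?_⟩
      rw [Polynomial.aeval_def, Polynomial.eval₂_map]
      exact hp
    exact h2.of_ringHom_of_comp_eq (f := (IsScalarTower.toAlgHom Ω₀ L E.F).rangeRestrict.toRingHom)
      (g := RingHom.id E.F) (AlgHom.rangeRestrict_surjective _) Function.injective_id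
      (RingHom.ext fun x => rfl)
  have hnotin : E.ι t ∉ algebraMap L E.F '' I := fun hm => htr (isAlgebraic_algebraMap
    (⟨_, Algebra.subset_adjoin hm⟩ : Algebra.adjoin Ω₀ (algebraMap L E.F '' I)))
  refine le_trans (le_of_eq ?_) (Matroid.Indep.encard_le_eRk_of_subset
    (I := insert (E.ι t) (algebraMap L E.F '' I)) ?_ ?_)
  · rw [Set.encard_insert_of_notMem hnotin, (algebraMap L E.F).injective.encard_image, hc]
    norm_cast
  · rw [AlgebraicIndependent.matroid_indep_iff]
    exact hI'.insert (by rw [Set.image_id]; exact htr)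
  · exact Set.insert_subset (Or.inr ⟨t, rfl⟩)
      ((Set.image_mono hIS).trans Set.subset_union_left)

/-- Translated multiples lose no dimension. -/
theorem Law.tdim_curvePt (G : Law V) (φ : V.Pt F₀) (E : Ext K Ω₀ F₀ L) (a : ℤ) {q : V.Pt L}
    {m : ℕ} (h : (m : ℕ∞) ≤ tdim Ω₀ q.vals) :
    (m : ℕ∞) ≤ tdim Ω₀ (G.curvePt φ E a q).vals := by
  letI := G.group E.F
  have h1 := tdim_const_union (E := E) h
  have h2 : tdim Ω₀ (algebraMap L E.F '' q.vals ∪ Set.range E.ι) ≤
      tdim Ω₀ ((G.curvePt φ E a q).vals ∪ Set.range E.ι) := by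
    refine le_of_le_of_eq (tdim_mono Ω₀ ?_) (tdim_adjoin Ω₀ _)
    refine Set.union_subset ?_ (Set.subset_union_right.trans (IntermediateField.subset_adjoin _ _))
    refine Set.Subset.trans ?_ (Law.subset_adjoin_restrict (K := K) (B := Ω₀) _)
    have hsub : Set.range E.ι ⊆ (IntermediateField.adjoin K
        ((G.curvePt φ E a q).vals ∪ Set.range E.ι) : Set E.F) :=
      Set.subset_union_right.trans (IntermediateField.subset_adjoin _ _)
    have h3 := G.vals_add (p := G.curvePt φ E a q) (q := -(a • φ.map E.ιK))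
      (E := IntermediateField.adjoin K ((G.curvePt φ E a q).vals ∪ Set.range E.ι))
      (Set.subset_union_left.trans (IntermediateField.subset_adjoin _ _))
      (G.vals_neg (G.vals_zsmul (by
        rw [Space.Pt.vals_map]
        rintro _ ⟨x, -, rfl⟩
        exact hsub ⟨x, rfl⟩) a))
    have e : G.curvePt φ E a q + -(a • φ.map E.ιK) = q.map E.cK := by
      rw [Law.curvePt, ← sub_eq_add_neg, add_sub_cancel_left]
    rw [e, Space.Pt.vals_map] at h3
    exact h3
  have h4 := h1.trans (h2.trans ((tdim_union_le Ω₀ _ _).trans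
    (add_le_add le_rfl (tdim_range_le_one E))))
  rw [Nat.cast_add, Nat.cast_one] at h4
  exact (ENat.add_le_add_iff_right ENat.one_ne_top).1 h4

end FLTAgent.AV
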