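import Fermat.Agent.AV.Curve.Points

/-!
# Finite covers of a curve, poles at places from denominators
-/

set_option autoImplicit false
set_option linter.style.haveILetI false
set_option linter.unusedSectionVars false

noncomputable section

namespace FLTAgent.AV

open AlgebraicCurve FLTAgent.Curves FLTAgent.Specialization IntermediateField

universe u

/-- A finite extension of a function field is a function field. -/
theorem isFunctionField_finite (k F F' : Type u) [Field k] [Field F] [Field F'] [Algebra k F]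
    [Algebra k F'] [Algebra F F'] [IsScalarTower k F F'] [IsFunctionField k F]
    [FiniteDimensional F F'] : IsFunctionField k F' := by
  obtain ⟨t, ht, hfd⟩ := IsFunctionField.exists_transcendental (K := k) (F := F)
  refine IsFunctionField.mk_of (algebraMap F F' t)
    ((transcendental_algebraMap_iff (algebraMap F F').injective).2 ht) ?_
  haveI : Module.Finite k⟮t⟯ F' := Module.Finite.trans F F'
  have hmap : k⟮t⟯.map (IsScalarTower.toAlgHom k F F') = k⟮algebraMap F F' t⟯ := by
    rw [IntermediateField.adjoin_map, Set.image_singleton]; rfl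
  let e : k⟮t⟯ ≃ₐ[k] k⟮algebraMap F F' t⟯ :=
    (k⟮t⟯.equivMap (IsScalarTower.toAlgHom k F F')).trans (IntermediateField.equivOfEq hmap)
  exact Module.Finite.of_equiv_equiv e.toRingEquiv (RingEquiv.refl F') (RingHom.ext fun _ => rfl)

/-- The degree of a pole divisor is multiplied by the degree of a cover. -/
theorem degree_poleDiv_algebraMap {k F F' : Type u} [Field k] [Field F] [Field F'] [Algebra k F]
    [Algebra k F'] [Algebra F F'] [IsScalarTower k F F'] [IsAlgClosed k] [IsFunctionField k F]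
    [IsFunctionField k F'] [FiniteDimensional F F'] (x : F) :
    Divisor.degree (poleDiv k (algebraMap F F' x)) =
      (Module.finrank F F' : ℤ) * Divisor.degree (poleDiv k x) := by
  by_cases hx : Transcendental k x
  · rw [degree_poleDiv ((transcendental_algebraMap_iff (algebraMap F F').injective).2 hx),
      degree_poleDiv hx, finrank_adjoin_algebraMap, Nat.cast_mul]
  · obtain ⟨c, rfl⟩ : ∃ c, x = algebraMap k F c := by
      by_contra! h
      exact hx (transcendental_of_ne_algebraMap h)
    have h0 : poleDiv k (algebraMap k F c) = 0 := Finsupp.ext fun v => by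
      rw [poleDiv_apply, ord_algebraMap]; rfl
    have h1 : poleDiv k (algebraMap F F' (algebraMap k F c)) = 0 := Finsupp.ext fun v => by
      rw [← IsScalarTower.algebraMap_apply k F F', poleDiv_apply, ord_algebraMap]; rfl
    rw [h0, h1, map_zero, map_zero, mul_zero]

variable {K : Type u} [Field K] {g : ℕ} {V : Space K g}

/-- The poles at a place of a function at a generic point are the zeros of its denominator. -/
theorem poleDiv_eval_den {k F : Type u} [Field k] [Field F] [Algebra K k] [Algebra k F]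
    [Algebra K F] [IsScalarTower K k F] [IsAlgClosed k] [IsFunctionField k F] {P : V.Pt F}
    (hgen : P.q = V.gen) {Q : Place k F} {S : V.Pt k} (hS : Space.IsSpec (resHom Q) P S)
    (hval : ∀ x : V.N, x ∈ V.O S.q ∨ x⁻¹ ∈ V.O S.q) {t : V.Q}
    [UniqueFactorizationMonoid (V.O t)] (zS : V.Spz S.q t) {u w : V.O t} (hw0 : (w : V.N) ≠ 0)
    (hrel : IsRelPrime w u) :
    poleDiv k (P.eval ((u : V.N) / w)) Q = Q.ord (P.eval (w : V.N)) := by
  have hne : ∀ x : V.N, x ∈ V.O S.q → x⁻¹ ∈ V.O S.q → x ≠ 0 → Q.ord (P.eval x) = 0 := by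
    intro x hx hxi hx0
    obtain ⟨hm, he⟩ := IsSpec.eval hS hx
    exact ord_eq_zero_of_resHom_ne (f := ⟨_, hm⟩)
      (he.symm ▸ S.eval_ne_zero_of_inv_mem hx0 hx hxi)
  have hPu : P.eval ((u : V.N) / w) = P.eval (u : V.N) / P.eval (w : V.N) := by
    simp only [← Space.Pt.evalHom_apply P hgen, map_div₀]
  have hPw : P.eval (w : V.N) ≠ 0 := P.eval_ne_zero hgen hw0
  rw [poleDiv_apply, hPu]
  obtain ⟨hwQ, -⟩ := IsSpec.eval hS (V.spz_le zS w.2)
  obtain ⟨huQ, -⟩ := IsSpec.eval hS (V.spz_le zS u.2)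
  have hw_nn : 0 ≤ Q.ord (P.eval (w : V.N)) := (mem_iff_ord_nonneg hPw).1 hwQ
  rcases eq_or_ne (u : V.N) 0 with hu0 | hu0
  · have hi : (w : V.N)⁻¹ ∈ V.O S.q :=
      inv_den_mem zS hw0 hrel.symm (by rw [hu0, zero_div]; exact (V.O S.q).zero_mem)
    rw [hne _ (V.spz_le zS w.2) hi hw0, show P.eval (u : V.N) = 0 by
      rw [hu0, ← Space.Pt.evalHom_apply P hgen, map_zero], zero_div, Place.ord_zero]
    simp
  have hPu0 : P.eval (u : V.N) ≠ 0 := P.eval_ne_zero hgen hu0
  rw [ord_div Q hPu0 hPw]
  have hu_nn : 0 ≤ Q.ord (P.eval (u : V.N)) := (mem_iff_ord_nonneg hPu0).1 huQ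
  rcases hval ((u : V.N) / w) with hv | hv
  · have := hne _ (V.spz_le zS w.2) (inv_den_mem zS hw0 hrel.symm hv) hw0
    omega
  · rw [inv_div] at hv
    have := hne _ (V.spz_le zS u.2) (inv_den_mem zS hu0 hrel hv) hu0
    omega

/-- The denominators of one function at two specialisations differ by a unit at a common
generalisation where the local ring is a valuation ring. -/
theorem den_ratio {s t t' : V.Q} [UniqueFactorizationMonoid (V.O t)]
    [UniqueFactorizationMonoid (V.O t')] (z : V.Spz s t) (z' : V.Spz s t')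
    (hval : ∀ x : V.N, x ∈ V.O s ∨ x⁻¹ ∈ V.O s) {u w : V.O t} {u' w' : V.O t'}
    (hw : (w : V.N) ≠ 0) (hrel : IsRelPrime w u) (hw' : (w' : V.N) ≠ 0) (hrel' : IsRelPrime w' u')
    (e : (u : V.N) / w = (u' : V.N) / w') :
    ((w : V.N) / w') ∈ V.O s ∧ ((w : V.N) / w')⁻¹ ∈ V.O s := by
  rcases hval ((u : V.N) / w) with h | h
  · have h' : (u' : V.N) / w' ∈ V.O s := e ▸ h
    rw [inv_div, div_eq_mul_inv, div_eq_mul_inv]
    exact ⟨(V.O s).mul_mem (V.spz_le z w.2) (inv_den_mem z' hw' hrel'.symm h'),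
      (V.O s).mul_mem (V.spz_le z' w'.2) (inv_den_mem z hw hrel.symm h)⟩
  · rcases eq_or_ne (u : V.N) 0 with hu | hu
    · have h0 : (u : V.N) / w ∈ V.O s := by rw [hu, zero_div]; exact (V.O s).zero_mem
      have h' : (u' : V.N) / w' ∈ V.O s := e ▸ h0
      rw [inv_div, div_eq_mul_inv, div_eq_mul_inv]
      exact ⟨(V.O s).mul_mem (V.spz_le z w.2) (inv_den_mem z' hw' hrel'.symm h'),
        (V.O s).mul_mem (V.spz_le z' w'.2) (inv_den_mem z hw hrel.symm h0)⟩
    have hu' : (u' : V.N) ≠ 0 := fun h0 => hu (by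
      rw [h0, zero_div, div_eq_zero_iff] at e; exact e.resolve_right hw)
    have h' : (w' : V.N) / u' ∈ V.O s := by rwa [e, inv_div] at h
    rw [inv_div] at h
    have h1 : (w : V.N) / w' = (u : V.N) / u' := by
      rw [div_eq_div_iff hw' hu'] ; rw [div_eq_div_iff hw hw'] at e; linear_combination -e
    rw [h1, inv_div, div_eq_mul_inv, div_eq_mul_inv]
    exact ⟨(V.O s).mul_mem (V.spz_le z u.2) (inv_den_mem z' hu' hrel' h'),
      (V.O s).mul_mem (V.spz_le z' u'.2) (inv_den_mem z hu hrel h)⟩

/-- An element of the function field with unit residue above a place has order zero there. -/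
theorem ord_eq_zero_of_residue {k F U : Type u} [Field k] [Field F] [Field U] [Algebra k F]
    [Algebra F U] [IsAlgClosed k] [IsFunctionField k F] {A : ValuationSubring U} {π : A →+* k}
    {w : Place k F}
    (hres : ∀ f : w.toValuationSubring, ∃ h : algebraMap F U f ∈ A, π ⟨_, h⟩ = resHom w f)
    {z : F} (hm : algebraMap F U z ∈ A) (hne : π ⟨_, hm⟩ ≠ 0) : w.ord z = 0 := by
  have hz : z ≠ 0 := fun h => hne (by
    rw [show (⟨algebraMap F U z, hm⟩ : A) = 0 from Subtype.ext (show algebraMap F U z = 0 by rw [h, map_zero]),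
      map_zero])
  rcases lt_trichotomy (w.ord z) 0 with h | h | h
  · exfalso
    have hi : z⁻¹ ∈ w.toValuationSubring :=
      (mem_iff_ord_nonneg (inv_ne_zero hz)).2 (by rw [Place.ord_inv]; omega)
    obtain ⟨h1, h2⟩ := hres ⟨_, hi⟩
    have h3 : resHom w ⟨_, hi⟩ = 0 := resHom_eq_zero_iff.2 (ordGE_of_le (by
      show (1 : ℤ) ≤ w.ord z⁻¹
      rw [Place.ord_inv]; omega))
    rw [h3] at h2
    have h4 : π ⟨_, hm⟩ * π ⟨_, h1⟩ = 1 := by
      rw [← map_mul, ← map_one π]
      exact congrArg π (Subtype.ext (by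
        show algebraMap F U z * algebraMap F U z⁻¹ = 1
        rw [← map_mul, mul_inv_cancel₀ hz, map_one]))
    rw [h2, mul_zero] at h4
    exact zero_ne_one h4
  · exact h
  · exfalso
    have hm' : z ∈ w.toValuationSubring := (mem_iff_ord_nonneg hz).2 h.le
    obtain ⟨h1, h2⟩ := hres ⟨_, hm'⟩
    exact hne (h2.trans (resHom_eq_zero_iff.2 (ordGE_of_le (by exact h))))

end FLTAgent.AV
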