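import Fermat.Agent.AV.Curve.Dim
import Mathlib.RingTheory.Jacobson.Ring
import Mathlib.RingTheory.TensorProduct.Free
import Mathlib.FieldTheory.IsAlgClosed.Basic
import Mathlib.RingTheory.Flat.Basic

/-!
# Independent generic points of a field over an algebraically closed field are linearly disjoint
-/

set_option autoImplicit false
set_option linter.style.haveILetI false

noncomputable section

namespace FLTAgent.AV

open scoped TensorProduct

universe u

variable {K : Type u} [Field K] [IsAlgClosed K]

theorem exists_point_ne_zero {R : Type u} [CommRing R] [IsDomain R] [Algebra K R]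
    [Algebra.FiniteType K R] {r : R} (hr : r ≠ 0) : ∃ χ : R →ₐ[K] K, χ r ≠ 0 := by
  haveI : IsJacobsonRing R := isJacobsonRing_of_finiteType (A := K) (B := R)
  have hj : (⊥ : Ideal R).jacobson = ⊥ :=
    IsJacobsonRing.out' _ Ideal.isPrime_bot.isRadical
  have hnot : r ∉ (⊥ : Ideal R).jacobson := by rw [hj]; simpa using hr
  rw [Ideal.jacobson, Submodule.mem_sInf] at hnot
  push Not at hnot
  obtain ⟨M, ⟨-, hM⟩, hrM⟩ := hnot
  haveI := hM
  letI : Field (R ⧸ M) := Ideal.Quotient.field M
  haveI : Module.Finite K (R ⧸ M) := finite_of_finite_type_of_isJacobsonRing K (R ⧸ M)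
  have hb : Function.Bijective (algebraMap K (R ⧸ M)) :=
    IsAlgClosed.algebraMap_bijective_of_isIntegral
  let e : K ≃ₐ[K] R ⧸ M := AlgEquiv.ofBijective (Algebra.ofId K (R ⧸ M)) hb
  refine ⟨e.symm.toAlgHom.comp (Ideal.Quotient.mkₐ K M), fun h => hrM ?_⟩
  exact Ideal.Quotient.eq_zero_iff_mem.1 (e.symm.injective (h.trans (map_zero _).symm))

theorem tensor_noZeroDivisors (E N : Type u) [Field E] [Field N] [Algebra K E] [Algebra K N] :
    NoZeroDivisors (E ⊗[K] N) := by
  classical
  let β := Module.Free.chooseBasis K N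
  let B := Algebra.TensorProduct.basis E β
  refine ⟨fun {a b} hab => ?_⟩
  by_contra hne
  push Not at hne
  obtain ⟨ha, hb⟩ := hne
  set S : Finset E := (B.repr a).support.image (B.repr a) ∪ (B.repr b).support.image (B.repr b)
  let R : Subalgebra K E := Algebra.adjoin K (S : Set E)
  haveI : Algebra.FiniteType K R :=
    (Subalgebra.fg_iff_finiteType _).1 (Subalgebra.fg_adjoin_finset S)
  let ι : R ⊗[K] N →ₐ[K] E ⊗[K] N := Algebra.TensorProduct.map R.val (AlgHom.id K N)
  have hι : Function.Injective ι :=
    Module.Flat.rTensor_preserves_injective_linearMap R.val.toLinearMap Subtype.val_injective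
  have lift : ∀ (x : E ⊗[K] N) (hx : ∀ i, B.repr x i ∈ R), ∃ x' : R ⊗[K] N, ι x' = x ∧
      ∀ χ : R →ₐ[K] K, ∀ i,
        β.repr (Algebra.TensorProduct.lift ((Algebra.ofId K N).comp χ) (AlgHom.id K N)
          (fun _ _ => Commute.all _ _) x') i =
          if h : i ∈ (B.repr x).support then χ ⟨B.repr x i, hx i⟩ else 0 := by
    intro x hx
    refine ⟨∑ i ∈ (B.repr x).support, (⟨B.repr x i, hx i⟩ : R) ⊗ₜ[K] β i, ?_, fun χ i => ?_⟩
    · conv_rhs => rw [← B.linearCombination_repr x]
      rw [map_sum, Finsupp.linearCombination_apply, Finsupp.sum]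
      refine Finset.sum_congr rfl fun i _ => ?_
      rw [Algebra.TensorProduct.map_tmul, Algebra.TensorProduct.basis_apply,
        TensorProduct.smul_tmul']
      simp
    · rw [map_sum, map_sum, Finsupp.finsetSum_apply]
      simp only [Algebra.TensorProduct.lift_tmul, AlgHom.comp_apply, AlgHom.id_apply,
        Algebra.ofId_apply, ← Algebra.smul_def, map_smul, Module.Basis.repr_self,
        Finsupp.smul_apply, smul_eq_mul, Finsupp.single_apply, mul_ite, mul_one, mul_zero]
      by_cases h : i ∈ (B.repr x).support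
      · rw [dif_pos h, Finset.sum_ite_eq' _ i, if_pos h]
      · rw [dif_neg h, Finset.sum_ite_eq' _ i, if_neg h]
  have hR : ∀ x : E ⊗[K] N, (B.repr x).support.image (B.repr x) ⊆ S → ∀ i, B.repr x i ∈ R :=
    fun x hx i => by
      by_cases h : i ∈ (B.repr x).support
      · exact Algebra.subset_adjoin (hx (Finset.mem_image_of_mem _ h))
      · rw [Finsupp.notMem_support_iff.1 h]; exact R.zero_mem
  have hRa := hR a Finset.subset_union_left
  have hRb := hR b Finset.subset_union_right
  obtain ⟨a', ha', hea⟩ := lift a hRa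
  obtain ⟨b', hb', heb⟩ := lift b hRb
  have hab' : a' * b' = 0 := hι (by rw [map_mul, ha', hb', hab, map_zero])
  obtain ⟨i, hi⟩ : ∃ i, i ∈ (B.repr a).support := by
    by_contra! h
    exact ha (B.repr.map_eq_zero_iff.1 (Finsupp.support_eq_empty.1 (Finset.eq_empty_of_forall_notMem h)))
  obtain ⟨j, hj⟩ : ∃ j, j ∈ (B.repr b).support := by
    by_contra! h
    exact hb (B.repr.map_eq_zero_iff.1 (Finsupp.support_eq_empty.1 (Finset.eq_empty_of_forall_notMem h)))
  have hprod : (⟨B.repr a i, hRa i⟩ : R) * ⟨B.repr b j, hRb j⟩ ≠ 0 := by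
    refine mul_ne_zero (fun h => ?_) (fun h => ?_)
    · exact Finsupp.mem_support_iff.1 hi (congrArg Subtype.val h)
    · exact Finsupp.mem_support_iff.1 hj (congrArg Subtype.val h)
  obtain ⟨χ, hχ⟩ := exists_point_ne_zero (K := K) hprod
  rw [map_mul] at hχ
  have h0 := congrArg (Algebra.TensorProduct.lift ((Algebra.ofId K N).comp χ) (AlgHom.id K N)
    (fun _ _ => Commute.all _ _)) hab'
  rw [map_mul, map_zero] at h0
  rcases mul_eq_zero.1 h0 with h | h
  · have := hea χ i
    rw [h, map_zero, Finsupp.zero_apply, dif_pos hi] at this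
    exact hχ (by rw [← this, zero_mul])
  · have := heb χ j
    rw [h, map_zero, Finsupp.zero_apply, dif_pos hj] at this
    exact hχ (by rw [← this, mul_zero])

theorem tensor_isDomain (E N : Type u) [Field E] [Field N] [Algebra K E] [Algebra K N] :
    IsDomain (E ⊗[K] N) := by
  haveI := tensor_noZeroDivisors (K := K) E N
  haveI : Nontrivial (E ⊗[K] N) :=
    (Algebra.TensorProduct.includeRight_injective (A := E) (B := N)
      (algebraMap K E).injective).nontrivial
  exact NoZeroDivisors.to_isDomain _

/-- A generic point over an algebraically closed field is linearly disjoint from it. -/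
theorem tensor_lift_injective {E N L : Type u} [Field E] [Field N] [Field L] [Algebra K E]
    [Algebra K N] [Algebra K L] [Algebra E L] [IsScalarTower K E L] (σ : N →ₐ[K] L) {g : ℕ}
    (hN : Algebra.trdeg K N = g) (hσ : (g : ℕ∞) ≤ tdim E (Set.range σ)) :
    Function.Injective (Algebra.TensorProduct.lift (IsScalarTower.toAlgHom K E L) σ
      (fun _ _ => Commute.all _ _)) := by
  classical
  haveI := tensor_isDomain (K := K) E N
  obtain ⟨s, hs⟩ := exists_isTranscendenceBasis K N
  have hsc : Cardinal.mk s = (g : Cardinal) := hs.cardinalMk_eq_trdeg.trans hN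
  haveI : Finite s := Cardinal.lt_aleph0_iff_finite.1 (hsc ▸ Cardinal.natCast_lt_aleph0)
  have hsn : (s : Set N).encard = g := by
    rw [← Set.toENat_cardinalMk, hsc, map_natCast]
  set ev := Algebra.TensorProduct.lift (IsScalarTower.toAlgHom K E L) σ (fun _ _ => Commute.all _ _)
  -- the images of the basis are independent over `E`
  have hle : (g : ℕ∞) ≤ tdim E (σ '' s) := by
    refine hσ.trans (tdim_le_of_subset ?_)
    rintro _ ⟨n, rfl⟩
    haveI := hs.isAlgebraic
    have hn : IsAlgebraic (Algebra.adjoin K (Set.range ((↑) : s → N))) n :=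
      Algebra.IsAlgebraic.isAlgebraic n
    obtain ⟨p, hp0, hp⟩ := hn
    show σ n ∈ algebraicClosure (IntermediateField.adjoin E (σ '' s)) L
    rw [mem_algebraicClosure_iff]
    have hmem : ∀ y : Algebra.adjoin K (Set.range ((↑) : s → N)),
        σ y ∈ IntermediateField.adjoin E (σ '' s) := fun y => by
      have hy : Algebra.adjoin K (Set.range ((↑) : s → N)) ≤
          ((IntermediateField.adjoin E (σ '' s)).toSubalgebra.restrictScalars K).comap σ :=
        Algebra.adjoin_le (by
          rintro _ ⟨z, rfl⟩
          exact IntermediateField.subset_adjoin E _ ⟨z, z.2, rfl⟩)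
      exact hy y.2
    let τ : Algebra.adjoin K (Set.range ((↑) : s → N)) →+*
        IntermediateField.adjoin E (σ '' s) :=
      (σ.comp (Algebra.adjoin K (Set.range ((↑) : s → N))).val).toRingHom.codRestrict
        (IntermediateField.adjoin E (σ '' s)).toSubfield hmem
    have hτ : Function.Injective τ := fun x y h =>
      Subtype.ext (σ.toRingHom.injective (congrArg Subtype.val h))
    refine ⟨p.map τ, (Polynomial.map_ne_zero_iff hτ).2 hp0, ?_⟩
    have hp' := congrArg σ hp
    rw [Polynomial.aeval_def, ← AlgHom.coe_toRingHom, Polynomial.hom_eval₂, map_zero] at hp'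
    rw [Polynomial.aeval_def, Polynomial.eval₂_map]
    exact hp'
  have hind : AlgebraicIndepOn E id (σ '' s) := by
    refine AlgebraicIndependent.matroid_indep_iff.1 ?_
    have hfin : (σ '' s).Finite := (Set.toFinite s).image σ
    refine (Matroid.indep_iff_eRk_eq_encard_of_finite hfin).2
      (le_antisymm (Matroid.eRk_le_encard _ _) ?_)
    rw [Function.Injective.encard_image (f := σ) σ.toRingHom.injective, hsn]
    exact hle
  -- everything is algebraic over the polynomials in the basis
  let R : Subalgebra E (E ⊗[K] N) :=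
    Algebra.adjoin E ((Algebra.TensorProduct.includeRight (R := K) (A := E) (B := N)) '' s)
  have halg : ∀ x : E ⊗[K] N, x ∈ Subalgebra.algebraicClosure R (E ⊗[K] N) := by
    intro x
    induction x using TensorProduct.induction_on with
    | zero => exact zero_mem _
    | add x y hx hy => exact add_mem hx hy
    | tmul e n =>
      have h1 : (1 : E) ⊗ₜ[K] n ∈ Subalgebra.algebraicClosure R (E ⊗[K] N) := by
        haveI := hs.isAlgebraic
        have hn : IsAlgebraic (Algebra.adjoin K (Set.range ((↑) : s → N))) n :=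
          Algebra.IsAlgebraic.isAlgebraic n
        obtain ⟨p, hp0, hp⟩ := hn
        let inR : N →ₐ[K] E ⊗[K] N := Algebra.TensorProduct.includeRight
        have hmem : ∀ y : Algebra.adjoin K (Set.range ((↑) : s → N)), inR y ∈ R := fun y => by
          have hy : Algebra.adjoin K (Set.range ((↑) : s → N)) ≤
              (R.restrictScalars K).comap inR :=
            Algebra.adjoin_le (by
              rintro _ ⟨z, rfl⟩
              exact Algebra.subset_adjoin ⟨z, z.2, rfl⟩)
          exact hy y.2
        let τ : Algebra.adjoin K (Set.range ((↑) : s → N)) →+* R :=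
          (inR.comp (Algebra.adjoin K (Set.range ((↑) : s → N))).val).toRingHom.codRestrict R hmem
        have hinj : Function.Injective inR :=
          Algebra.TensorProduct.includeRight_injective (algebraMap K E).injective
        have hτ : Function.Injective τ := fun x y h =>
          Subtype.ext (hinj (congrArg Subtype.val h))
        rw [Subalgebra.mem_algebraicClosure]
        refine ⟨p.map τ, (Polynomial.map_ne_zero_iff hτ).2 hp0, ?_⟩
        have hp' := congrArg inR hp
        rw [Polynomial.aeval_def, ← AlgHom.coe_toRingHom, Polynomial.hom_eval₂, map_zero] at hp'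
        rw [Polynomial.aeval_def, Polynomial.eval₂_map]
        exact hp'
      have he : e ⊗ₜ[K] n =
          (algebraMap R (E ⊗[K] N) (algebraMap E R e)) * ((1 : E) ⊗ₜ[K] n) := by
        show _ = (e ⊗ₜ[K] (1 : N)) * _
        rw [Algebra.TensorProduct.tmul_mul_tmul, mul_one, one_mul]
      rw [he]
      exact mul_mem (Subalgebra.algebraMap_mem _ _) h1
  rw [injective_iff_map_eq_zero]
  intro x hx
  by_contra hx0
  obtain ⟨r, hr0, hr⟩ := ((Subalgebra.mem_algebraicClosure _ _).1 (halg x)).exists_nonzero_dvd
    (mem_nonZeroDivisors_of_ne_zero hx0)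
  obtain ⟨c, hc⟩ := hr
  have hevr : ev (r : E ⊗[K] N) = 0 := by
    rw [show (r : E ⊗[K] N) = x * c from hc, map_mul, hx, zero_mul]
  obtain ⟨P, hP⟩ : ∃ P : MvPolynomial s E,
      MvPolynomial.aeval (fun i : s => (1 : E) ⊗ₜ[K] (i : N)) P = (r : E ⊗[K] N) := by
    have e : R = Algebra.adjoin E (Set.range fun i : s => (1 : E) ⊗ₜ[K] (i : N)) :=
      congrArg (Algebra.adjoin E) (Set.image_eq_range _ _)
    have h2 := (SetLike.ext_iff.1 e _).1 r.2
    rw [Algebra.adjoin_range_eq_range_aeval] at h2
    exact h2
  let evE : E ⊗[K] N →ₐ[E] L :=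
    { ev.toRingHom with
      commutes' := fun e => by
        show ev (e ⊗ₜ[K] 1) = _
        rw [Algebra.TensorProduct.lift_tmul, map_one, mul_one]
        rfl }
  have h3 : MvPolynomial.aeval (fun i : s => σ (i : N)) P = 0 := by
    have h4 : evE (r : E ⊗[K] N) = 0 := hevr
    rw [← hP, MvPolynomial.comp_aeval_apply] at h4
    convert h4 using 2
    refine MvPolynomial.algHom_ext fun i => ?_
    simp only [MvPolynomial.aeval_X]
    show σ (i : N) = ev ((1 : E) ⊗ₜ[K] (i : N))
    rw [Algebra.TensorProduct.lift_tmul, map_one, one_mul]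
  have hind' : AlgebraicIndependent E (fun i : s => σ (i : N)) :=
    hind.comp (fun i : s => (⟨σ (i : N), i, i.2, rfl⟩ : (σ '' s : Set L))) fun x y h =>
      Subtype.ext (σ.toRingHom.injective (congrArg Subtype.val h))
  have hP0 : P = 0 := hind' (by rw [h3, map_zero])
  apply hr0
  apply Subtype.ext
  rw [← hP, hP0, map_zero]
  rfl

end FLTAgent.AV
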