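import Fermat.Agent.AV.Curve.Spec
import Fermat.Agent.AV.Curve.Domain

/-!
# The degree along a generic translate does not depend on the translation
-/

set_option autoImplicit false
set_option linter.style.haveILetI false
set_option linter.unusedSectionVars false

noncomputable section

namespace FLTAgent.AV

open AlgebraicCurve FLTAgent.Curves FLTAgent.Specialization IntermediateField
open scoped TensorProduct

universe u

variable {K : Type u} [Field K] {g : ℕ} {V : Space K g}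

theorem Space.Pt.eq_map_genPt {L : Type u} [Field L] [Algebra K L] (p : V.Pt L)
    (hp : p.q = V.gen) : V.genPt.map (p.evalHom hp) = p := by
  revert hp
  obtain ⟨q, φ, hφ⟩ := p
  intro hp
  cases hp
  rfl

variable [IsAlgClosed K] {Ω₀ F₀ Ω : Type u} [Field Ω₀] [Field F₀] [Field Ω]
  [Algebra K Ω₀] [Algebra K F₀] [Algebra Ω₀ F₀] [IsScalarTower K Ω₀ F₀] [Algebra K Ω]
  [Algebra Ω₀ Ω] [IsScalarTower K Ω₀ Ω] [IsAlgClosed Ω₀] [IsFunctionField Ω₀ F₀] [IsAlgClosed Ω]

set_option synthInstance.maxHeartbeats 100000 in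
/-- The degree along a translate by a generic point is independent of the point. -/
theorem degree_pdiv_invariant (G : Law V) (φ : V.Pt F₀) (E : Ext K Ω₀ F₀ Ω) (a : ℤ) (h : V.N)
    {η η' : V.Pt Ω} (hη : (g : ℕ∞) ≤ tdim Ω₀ η.vals) (hη' : (g : ℕ∞) ≤ tdim Ω₀ η'.vals) :
    Divisor.degree (G.pdiv φ E a η h) = Divisor.degree (G.pdiv φ E a η' h) := by
  haveI := tensor_isDomain (K := K) Ω₀ V.N
  let U := AlgebraicClosure (FractionRing (Ω₀ ⊗[K] V.N))
  let j : Ω₀ ⊗[K] V.N →+* U :=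
    (algebraMap (FractionRing (Ω₀ ⊗[K] V.N)) U).comp (algebraMap _ _)
  haveI : IsScalarTower K Ω₀ (FractionRing (Ω₀ ⊗[K] V.N)) := inferInstance
  haveI : IsScalarTower K Ω₀ U := inferInstance
  have hj₀ : ∀ c : Ω₀, j (algebraMap Ω₀ (Ω₀ ⊗[K] V.N) c) = algebraMap Ω₀ U c := fun c => by
    show algebraMap (FractionRing (Ω₀ ⊗[K] V.N)) U (algebraMap _ _ (algebraMap Ω₀ _ c)) = _
    rw [← IsScalarTower.algebraMap_apply Ω₀ (Ω₀ ⊗[K] V.N) (FractionRing (Ω₀ ⊗[K] V.N)),
      ← IsScalarTower.algebraMap_apply Ω₀ (FractionRing (Ω₀ ⊗[K] V.N)) U]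
  let σN : V.N →ₐ[K] U :=
    { j.comp (Algebra.TensorProduct.includeRight (R := K) (A := Ω₀) (B := V.N)).toRingHom with
      commutes' := fun c => by
        rw [IsScalarTower.algebraMap_apply K Ω₀ U, ← hj₀]
        show j ((1 : Ω₀) ⊗ₜ[K] algebraMap K V.N c) = j (algebraMap K Ω₀ c ⊗ₜ[K] (1 : V.N))
        rw [Algebra.algebraMap_eq_smul_one c, Algebra.algebraMap_eq_smul_one c,
          TensorProduct.smul_tmul] }
  set q : V.Pt U := V.genPt.map σN
  obtain ⟨EU⟩ := nonempty_ext (K := K) (Ω₀ := Ω₀) (F₀ := F₀) (L := U)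
  suffices key : ∀ p : V.Pt Ω, (g : ℕ∞) ≤ tdim Ω₀ p.vals →
      Divisor.degree (G.pdiv φ E a p h) = Divisor.degree (G.pdiv φ EU a q h) by
    rw [key η hη, key η' hη']
  intro p hp
  have hgen : p.q = V.gen := G.q_eq_gen _ (Space.Pt.dimGE_of_tdim _ hp)
  set f := Algebra.TensorProduct.lift (IsScalarTower.toAlgHom K Ω₀ Ω) (p.evalHom hgen)
    (fun _ _ => Commute.all _ _)
  have hrange : p.vals ⊆ Set.range (p.evalHom hgen) := by
    rintro _ ⟨x, rfl⟩
    exact ⟨x, (Space.Pt.evalHom_apply p hgen x).trans (p.eval_of_mem x.2)⟩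
  have hinj : Function.Injective f :=
    tensor_lift_injective (p.evalHom hgen) V.trdeg_eq (hp.trans (tdim_mono Ω₀ hrange))
  letI : Algebra (FractionRing (Ω₀ ⊗[K] V.N)) Ω :=
    (IsFractionRing.lift (g := f.toRingHom) hinj).toAlgebra
  let σ₀ : U →ₐ[FractionRing (Ω₀ ⊗[K] V.N)] Ω := IsAlgClosed.lift
  have hσj : ∀ x, σ₀ (j x) = f x := fun x => by
    show σ₀ (algebraMap (FractionRing (Ω₀ ⊗[K] V.N)) U
      (algebraMap (Ω₀ ⊗[K] V.N) (FractionRing (Ω₀ ⊗[K] V.N)) x)) = _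
    rw [AlgHom.commutes]
    exact IsFractionRing.lift_algebraMap hinj x
  let σ : U →ₐ[Ω₀] Ω :=
    { σ₀.toRingHom with
      commutes' := fun c => by
        show σ₀ (algebraMap Ω₀ U c) = _
        rw [← hj₀]
        rw [hσj, Algebra.TensorProduct.algebraMap_apply, Algebra.TensorProduct.lift_tmul, map_one,
          mul_one]
        rfl }
  have hσN : (σ.restrictScalars K).comp σN = p.evalHom hgen := AlgHom.ext fun x => by
    show σ₀ (j ((1 : Ω₀) ⊗ₜ[K] x)) = _
    rw [hσj, Algebra.TensorProduct.lift_tmul, map_one, one_mul]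
  have hq : q.map (σ.restrictScalars K) = p := by
    show (V.genPt.map σN).map _ = p
    rw [Space.Pt.map_map, hσN, Space.Pt.eq_map_genPt]
  have hqdim : (g : ℕ∞) ≤ tdim Ω₀ q.vals := by
    rw [← hq, Law.tdim_map_pt (B := Ω₀) σ q] at hp
    exact hp
  letI : Algebra U Ω := σ.toRingHom.toAlgebra
  let R : Subring Ω := σ.toRingHom.range
  let e := RingEquiv.ofBijective σ.toRingHom.rangeRestrict
    ⟨fun x y h => σ.toRingHom.injective (congrArg Subtype.val h),
      σ.toRingHom.rangeRestrict_surjective⟩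
  obtain ⟨A, π, hπ, hloc, hext⟩ := Const.exists_residual R e.symm.toRingHom
    (fun c => ⟨c, rfl⟩) (fun c => e.symm_apply_apply c)
  have hπσ : ∀ c : U, ∃ hc : σ c ∈ A, π ⟨_, hc⟩ = c := fun c => by
    obtain ⟨hc, hc'⟩ := hext ⟨σ c, c, rfl⟩
    exact ⟨hc, hc'.trans (e.symm_apply_apply c)⟩
  obtain ⟨lk⟩ := nonempty_link E EU hπ hloc fun c => by
    obtain ⟨hc, hc'⟩ := hπσ (algebraMap Ω₀ U c)
    have e' := σ.commutes c
    exact ⟨e' ▸ hc, (congrArg π (Subtype.ext e'.symm)).trans hc'⟩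
  have hs : Space.IsSpec π p q := by
    rw [← hq]
    exact isSpec_map (σ.restrictScalars K) (AlgHom.id K U) q fun x => hπσ _
  rw [← Model.degree_divMap lk.smooth, lk.divMap_pdiv G φ a h hp hqdim hs]

end FLTAgent.AV
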