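import Fermat.Agent.AV.Curve.Points

/-!
# The setting of the cube: a generic translate and a generic point of the curve
-/

set_option autoImplicit false
set_option linter.style.haveILetI false
set_option linter.unusedSectionVars false

noncomputable section

namespace FLTAgent.AV

open AlgebraicCurve FLTAgent.Curves FLTAgent.Jac27.Spread IntermediateField

universe u

variable {K : Type u} [Field K] {g : ℕ} {V : Space K g}
variable {Ω₀ F₀ L : Type u} [Field Ω₀] [Field F₀] [Field L] [Algebra K Ω₀] [Algebra K F₀]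
  [Algebra Ω₀ F₀] [IsScalarTower K Ω₀ F₀] [Algebra K L] [Algebra Ω₀ L] [IsScalarTower K Ω₀ L]

/-- The difference of the point at `y` and the constant point `c₀`. -/
def Law.shift (G : Law V) (φ : V.Pt F₀) (c₀ : V.Pt Ω₀) (y : F₀ →ₐ[Ω₀] L) : V.Pt L :=
  letI := G.group L
  φ.map (y.restrictScalars K) - c₀.map (IsScalarTower.toAlgHom K Ω₀ L)

/-- The second difference in the translation of the pole divisor is principal. -/
def TargetLinear : Prop :=
  ∀ {K : Type u} [Field K] [IsAlgClosed K] {g : ℕ} {V : Space K g} (G : Law V)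
    {Ω₀ F₀ Ω L : Type u} [Field Ω₀] [Field F₀] [Field Ω] [Field L] [Algebra K Ω₀] [Algebra K F₀]
    [Algebra Ω₀ F₀] [IsScalarTower K Ω₀ F₀] [Algebra K Ω] [Algebra Ω₀ Ω] [IsScalarTower K Ω₀ Ω]
    [IsAlgClosed Ω₀] [IsFunctionField Ω₀ F₀] [IsAlgClosed Ω] [IsAlgClosed L]
    [Algebra K L] [Algebra Ω₀ L] [IsScalarTower K Ω₀ L] [Algebra Ω L] [IsScalarTower K Ω L]
    [IsScalarTower Ω₀ Ω L]
    (EΩ : Ext K Ω₀ F₀ Ω) [Algebra EΩ.F L] [IsScalarTower Ω EΩ.F L] [IsScalarTower Ω₀ EΩ.F L]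
    [IsScalarTower K EΩ.F L]
    (E : Ext K Ω₀ F₀ L) (x₀ : Place Ω₀ F₀) (φ : V.Pt F₀) (c₀ : V.Pt Ω₀)
    (_ : Space.IsSpec (resHom x₀) φ c₀) (η : V.Pt Ω) (_ : (g : ℕ∞) ≤ tdim Ω₀ η.vals) (a : ℤ)
    (h : V.N),
    letI := G.group L
    let η' := η.map (IsScalarTower.toAlgHom K Ω L)
    let ψ := G.shift φ c₀ ((IsScalarTower.toAlgHom Ω₀ EΩ.F L).comp EΩ.ι)
    (2 : ℤ) • G.pdiv φ E a η' h - G.pdiv φ E a (η' + ψ) h - G.pdiv φ E a (η' - ψ) h ∈
      Divisor.principal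

end FLTAgent.AV
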