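import Fermat.Agent.AV.Curve.Cover
import Fermat.Agent.AV.Curve.Setting
import Fermat.Agent.AV.Curve.Degree

/-!
# The cube: restriction to the diagonal and to a point

The function with divisor the second difference in the translation is evaluated at the generic
point of the curve and at a fixed point. The quotient of the two values is a function on a finite
cover of the curve whose divisor is the second difference of the pole divisor in the multiplier.
-/

set_option autoImplicit false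
set_option linter.style.haveILetI false
set_option linter.unusedSectionVars false

noncomputable section

namespace FLTAgent.AV

open AlgebraicCurve FLTAgent.Curves FLTAgent.Jac27.Spread FLTAgent.Specialization IntermediateField

universe u

variable {K : Type u} [Field K] {g : ℕ} {V : Space K g}

theorem Law.map_zsmul_point (G : Law V) {L L' : Type u} [Field L] [Algebra K L] [Field L'] [Algebra K L']
    (σ : L →ₐ[K] L') (a : ℤ) (p : V.Pt L) :
    letI := G.group L; letI := G.group L'; (a • p).map σ = a • p.map σ := by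
  letI := G.group L; letI := G.group L'
  exact map_zsmul (G.mapHom σ) a p

theorem Law.map_zero_pt (G : Law V) {L L' : Type u} [Field L] [Algebra K L] [Field L'] [Algebra K L']
    (σ : L →ₐ[K] L') :
    letI := G.group L; letI := G.group L'; (0 : V.Pt L).map σ = 0 := by
  letI := G.group L; letI := G.group L'
  exact map_zero (G.mapHom σ)

variable {Ω₀ F₀ L : Type u} [Field Ω₀] [Field F₀] [Field L] [Algebra K Ω₀] [Algebra K F₀]
  [Algebra Ω₀ F₀] [IsScalarTower K Ω₀ F₀] [Algebra K L] [Algebra Ω₀ L] [IsScalarTower K Ω₀ L]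
  [IsAlgClosed Ω₀] [IsFunctionField Ω₀ F₀]

/-- The value of a translated multiple at a place. -/
theorem Law.isSpec_curvePt [IsAlgClosed L] (G : Law V) (φ : V.Pt F₀) (E : Ext K Ω₀ F₀ L) (a : ℤ)
    (q : V.Pt L) {w : Place L E.F} {φw : V.Pt L}
    (hφ : Space.IsSpec (resHom w) (φ.map E.ιK) φw) :
    letI := G.group L; Space.IsSpec (resHom w) (G.curvePt φ E a q) (a • φw + q) := by
  letI := G.group E.F
  letI := G.group L
  have hqw : Space.IsSpec (resHom w) (q.map E.cK) (q.map (AlgHom.id K L)) :=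
    isSpec_map _ _ _ fun x => ⟨w.algebraMap_mem' _, resHom_algebraMap w _ _⟩
  rw [Space.Pt.map_id'] at hqw
  exact G.spec_add _ (residual_resHom w) (isSpec_zsmul G (residual_resHom w) hφ a) hqw

/-- A reduced fraction for a function at the value of a point at a place. -/
structure Den [IsAlgClosed L] {F : Type u} [Field F] [Algebra L F] [Algebra K F]
    [IsFunctionField L F] (Q : Place L F) (P : V.Pt F) (h : V.N) where
  T : V.Pt L
  spec : Space.IsSpec (resHom Q) P T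
  [ufd : UniqueFactorizationMonoid (V.O T.q)]
  u : V.O T.q
  w : V.O T.q
  w_ne : (w : V.N) ≠ 0
  rel : IsRelPrime w u
  eq : h = (u : V.N) / w

attribute [instance] Den.ufd

section Config

variable {Ω : Type u} [Field Ω] [Algebra K Ω] [Algebra Ω₀ Ω] [IsScalarTower K Ω₀ Ω]
  [IsAlgClosed Ω] (G : Law V) (φ : V.Pt F₀) (c₀ : V.Pt Ω₀) (η : V.Pt Ω)
  (EΩ : Ext K Ω₀ F₀ Ω) [Algebra Ω L] [IsScalarTower K Ω L] [IsScalarTower Ω₀ Ω L]
  [Algebra EΩ.F L] [IsScalarTower Ω EΩ.F L] [IsScalarTower Ω₀ EΩ.F L] [IsScalarTower K EΩ.F L]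

variable (L) in
/-- The generic point of the curve in the large field. -/
def Ext.gpt : F₀ →ₐ[Ω₀] L := (IsScalarTower.toAlgHom Ω₀ EΩ.F L).comp EΩ.ι

/-- The multiple `b` of the point translated by `η` and a multiple of a constant point. -/
def Law.rpt (b j : ℤ) : V.Pt EΩ.F :=
  letI := G.group Ω
  G.curvePt φ EΩ b (η + j • c₀.map (IsScalarTower.toAlgHom K Ω₀ Ω))

variable (L) in
/-- The translation of `η` by a multiple of the generic point of the curve. -/
def Law.qpt (s : ℤ) : V.Pt L :=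
  letI := G.group L
  η.map (IsScalarTower.toAlgHom K Ω L) + s • G.shift φ c₀ (EΩ.gpt L)

theorem Law.map_rpt (b j : ℤ) :
    letI := G.group L
    (G.rpt φ c₀ η EΩ b j).map (IsScalarTower.toAlgHom K EΩ.F L) =
      b • φ.map ((EΩ.gpt L).restrictScalars K) +
        (η.map (IsScalarTower.toAlgHom K Ω L) + j • c₀.map (IsScalarTower.toAlgHom K Ω₀ L)) := by
  letI := G.group L
  letI := G.group EΩ.F
  letI := G.group Ω
  rw [Law.rpt, Law.curvePt, G.map_add, G.map_zsmul_point, Space.Pt.map_map, Space.Pt.map_map,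
    G.map_add, G.map_zsmul_point, Space.Pt.map_map]
  have e1 : (IsScalarTower.toAlgHom K EΩ.F L).comp EΩ.cK = IsScalarTower.toAlgHom K Ω L :=
    AlgHom.ext fun c => (IsScalarTower.algebraMap_apply Ω EΩ.F L c).symm
  have e2 : (IsScalarTower.toAlgHom K Ω L).comp (IsScalarTower.toAlgHom K Ω₀ Ω) =
      IsScalarTower.toAlgHom K Ω₀ L :=
    AlgHom.ext fun c => (IsScalarTower.algebraMap_apply Ω₀ Ω L c).symm
  rw [e1, e2]
  rfl

theorem Law.tdim_const (r : V.Pt Ω₀) {M : Type u} [Field M] [Algebra K M] [Algebra Ω₀ M]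
    [IsScalarTower K Ω₀ M] (j : ℤ) :
    letI := G.group M; tdim Ω₀ (j • r.map (IsScalarTower.toAlgHom K Ω₀ M)).vals = 0 := by
  letI := G.group M
  letI := G.group Ω₀
  rw [← G.map_zsmul_point, Space.Pt.vals_map]
  refine le_antisymm ((tdim_le_of_subset (T := (∅ : Set M)) ?_).trans
    ((tdim_le_encard Ω₀ _).trans (by simp))) bot_le
  rintro _ ⟨c, -, rfl⟩
  exact (talg Ω₀ (∅ : Set M)).algebraMap_mem c

variable {G φ c₀ η EΩ} (hη : (g : ℕ∞) ≤ tdim Ω₀ η.vals)

include hη in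
theorem Law.tdim_add_const (j : ℤ) :
    letI := G.group Ω
    (g : ℕ∞) ≤ tdim Ω₀ (η + j • c₀.map (IsScalarTower.toAlgHom K Ω₀ Ω)).vals := by
  letI := G.group Ω
  have := hη.trans (G.tdim_le_add (B := Ω₀) η (j • c₀.map (IsScalarTower.toAlgHom K Ω₀ Ω)))
  rwa [G.tdim_const, add_zero] at this

include hη in
theorem Law.q_rpt (b j : ℤ) : (G.rpt φ c₀ η EΩ b j).q = V.gen :=
  G.q_curvePt φ EΩ b (Law.tdim_add_const hη j)

theorem Law.vals_shift_subset (y : F₀ →ₐ[Ω₀] L) :
    (G.shift φ c₀ y).vals ⊆ IntermediateField.adjoin K (Set.range y) := by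
  letI := G.group L
  rw [Law.shift, sub_eq_add_neg]
  refine G.vals_add ?_ (G.vals_neg ?_) <;> rw [Space.Pt.vals_map]
  · rintro _ ⟨x, -, rfl⟩
    exact IntermediateField.subset_adjoin K _ ⟨x, rfl⟩
  · rintro _ ⟨c, -, rfl⟩
    exact IntermediateField.subset_adjoin K _ ⟨algebraMap Ω₀ F₀ c, y.commutes c⟩

include hη in
theorem Law.tdim_qpt (s : ℤ) : (g : ℕ∞) ≤ tdim Ω₀ (G.qpt L φ c₀ η EΩ s).vals := by
  letI := G.group L
  refine G.tdim_add_generic (B := Ω₀) (S := Set.range (EΩ.gpt L)) (m := g) (j := 1) ?_ ?_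
    (G.vals_zsmul (G.vals_shift_subset _) s)
  · refine (tdim_const_union (E := EΩ) hη).trans ?_
    rw [← tdim_map (IsScalarTower.toAlgHom Ω₀ EΩ.F L) (algebraMap Ω EΩ.F '' η.vals ∪ Set.range EΩ.ι),
      Set.image_union, Space.Pt.vals_map]
    refine tdim_mono Ω₀ (Set.union_subset_union ?_ ?_)
    · rintro _ ⟨_, ⟨c, hc, rfl⟩, rfl⟩
      exact ⟨c, hc, IsScalarTower.algebraMap_apply Ω EΩ.F L c⟩
    · rintro _ ⟨_, ⟨f, rfl⟩, rfl⟩
      exact ⟨f, rfl⟩
  · rw [show Set.range (EΩ.gpt L) = EΩ.gpt L '' Set.univ from Set.image_univ.symm, tdim_map]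
    exact tdim_univ_le_one

end Config

section Place

variable {Ω : Type u} [Field Ω] [Algebra K Ω] [Algebra Ω₀ Ω] [IsScalarTower K Ω₀ Ω]
  [IsAlgClosed Ω] [IsAlgClosed L] {G : Law V} {φ : V.Pt F₀} {c₀ : V.Pt Ω₀} {η : V.Pt Ω}
  {EΩ : Ext K Ω₀ F₀ Ω} [Algebra Ω L] [IsScalarTower K Ω L] [IsScalarTower Ω₀ Ω L]
  [Algebra EΩ.F L] [IsScalarTower Ω EΩ.F L] [IsScalarTower Ω₀ EΩ.F L] [IsScalarTower K EΩ.F L]
  {E : Ext K Ω₀ F₀ L} {a : ℤ} {h : V.N} {G1 : E.F}
  {F1 : Type u} [Field F1] [Algebra K F1] [Algebra Ω F1] [Algebra EΩ.F F1] [Algebra F1 L]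
  [IsScalarTower K Ω F1] [IsScalarTower K EΩ.F F1] [IsScalarTower Ω F1 L] [IsScalarTower EΩ.F F1 L]
  [IsScalarTower K F1 L] [IsFunctionField Ω F1]

/-- The second difference in the shift of the pole divisors on the cover. -/
def Law.combo (G : Law V) (φ : V.Pt F₀) (c₀ : V.Pt Ω₀) (η : V.Pt Ω) (EΩ : Ext K Ω₀ F₀ Ω)
    (F1 : Type u) [Field F1] [Algebra Ω F1] [Algebra EΩ.F F1] [IsFunctionField Ω F1]
    (b j : ℤ → ℤ) (h : V.N) : Divisor Ω F1 :=
  poleDiv Ω (algebraMap EΩ.F F1 ((G.rpt φ c₀ η EΩ (b 1) (j 1)).eval h)) +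
    poleDiv Ω (algebraMap EΩ.F F1 ((G.rpt φ c₀ η EΩ (b (-1)) (j (-1))).eval h)) -
    (2 : ℤ) • poleDiv Ω (algebraMap EΩ.F F1 ((G.rpt φ c₀ η EΩ (b 0) (j 0)).eval h))

set_option maxHeartbeats 1000000 in
theorem Law.diagonal_place (hη : (g : ℕ∞) ≤ tdim Ω₀ η.vals) (hG1 : G1 ≠ 0)
    (hdiv : ∀ Q : Place L E.F, Q.ord G1 = 2 * G.pdiv φ E a (G.qpt L φ c₀ η EΩ 0) h Q -
      G.pdiv φ E a (G.qpt L φ c₀ η EΩ 1) h Q - G.pdiv φ E a (G.qpt L φ c₀ η EΩ (-1)) h Q)
    {wy w0 : Place L E.F} {by' jy b0' j0 : ℤ → ℤ}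
    (hy : ∀ s, Space.IsSpec (resHom wy) (G.curvePt φ E a (G.qpt L φ c₀ η EΩ s))
      ((G.rpt φ c₀ η EΩ (by' s) (jy s)).map (IsScalarTower.toAlgHom K EΩ.F L)))
    (h0 : ∀ s, Space.IsSpec (resHom w0) (G.curvePt φ E a (G.qpt L φ c₀ η EΩ s))
      ((G.rpt φ c₀ η EΩ (b0' s) (j0 s)).map (IsScalarTower.toAlgHom K EΩ.F L)))
    (gy : G1 ∈ wy.toValuationSubring) (g0 : G1 ∈ w0.toValuationSubring) {r : F1} (hr0 : r ≠ 0)
    (hr : algebraMap F1 L r * resHom w0 ⟨G1, g0⟩ = resHom wy ⟨G1, gy⟩)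
    (u : Place Ω F1) :
    u.ord r + G.combo φ c₀ η EΩ F1 by' jy h u - G.combo φ c₀ η EΩ F1 b0' j0 h u = 0 := by
  letI := G.group L
  letI := G.group Ω
  letI := G.group EΩ.F
  obtain ⟨A, π, hπ, hl, hΩ, hres⟩ := exists_residual_place L u
  have hπ₀ : ∀ c : Ω₀, ∃ hc : algebraMap Ω₀ L c ∈ A, π ⟨_, hc⟩ = algebraMap Ω₀ Ω c := fun c => by
    obtain ⟨hc, hc'⟩ := hΩ (algebraMap Ω₀ Ω c)
    have e : algebraMap Ω L (algebraMap Ω₀ Ω c) = algebraMap Ω₀ L c :=
      (IsScalarTower.algebraMap_apply Ω₀ Ω L c).symm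
    exact ⟨e ▸ hc, (congrArg π (Subtype.ext e.symm)).trans hc'⟩
  obtain ⟨lk⟩ := nonempty_link E EΩ hπ hl hπ₀
  set q := G.qpt L φ c₀ η EΩ
  set P : ℤ → V.Pt E.F := fun s => G.curvePt φ E a (q s)
  have hqg : ∀ s, (g : ℕ∞) ≤ tdim Ω₀ (q s).vals := fun s => Law.tdim_qpt hη s
  have hPgen : ∀ s, (P s).q = V.gen := fun s => G.q_curvePt φ E a (hqg s)
  -- the specialisations of the translations
  obtain ⟨φb, hφb, -⟩ := G.exists_spec π lk.residual (φ.map ((EΩ.gpt L).restrictScalars K))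
  have hφ1 : tdim Ω₀ φb.vals ≤ 1 := by
    refine (tdim_spec_le hπ₀ hφb).trans ?_
    refine (tdim_mono Ω₀ ?_).trans ((tdim_map (EΩ.gpt L) Set.univ).le.trans tdim_univ_le_one)
    rw [Space.Pt.vals_map]
    exact Set.image_mono (Set.subset_univ _)
  have hηs : Space.IsSpec π (η.map (IsScalarTower.toAlgHom K Ω L)) η := by
    have := isSpec_map (IsScalarTower.toAlgHom K Ω L) (AlgHom.id K Ω) η (π := π) fun x => hΩ _
    rwa [Space.Pt.map_id'] at this
  have hcs : Space.IsSpec π (c₀.map (IsScalarTower.toAlgHom K Ω₀ L))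
      (c₀.map (IsScalarTower.toAlgHom K Ω₀ Ω)) := isSpec_map _ _ _ fun x => hπ₀ _
  set cb := c₀.map (IsScalarTower.toAlgHom K Ω₀ Ω)
  let qb : ℤ → V.Pt Ω := fun s => η + s • (φb + -cb)
  have hqs : ∀ s, Space.IsSpec π (q s) (qb s) := fun s => by
    refine G.spec_add π lk.residual hηs (isSpec_zsmul G lk.residual ?_ s)
    rw [Law.shift, sub_eq_add_neg]
    exact G.spec_add π lk.residual hφb (isSpec_neg G lk.residual hcs)
  have hqb : ∀ s, ((g - 1 : ℕ) : ℕ∞) ≤ tdim Ω₀ (qb s).vals := fun s => by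
    have h1 : tdim Ω₀ (s • (φb + -cb)).vals ≤ 1 := by
      refine le_trans (Law.tdim_of_le (S := φb.vals ∪ cb.vals)
        (G.vals_zsmul (G.vals_add (Set.subset_union_left.trans (IntermediateField.subset_adjoin K _))
          (G.vals_neg (Set.subset_union_right.trans (IntermediateField.subset_adjoin K _)))) s)) ?_
      refine (tdim_union_le Ω₀ _ _).trans ?_
      have hc0 := G.tdim_const c₀ (M := Ω) 1
      rw [one_zsmul] at hc0
      rw [hc0, add_zero]
      exact hφ1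
    have h2 := hη.trans ((G.tdim_le_add (B := Ω₀) η (s • (φb + -cb))).trans (add_le_add le_rfl h1))
    rcases Nat.eq_zero_or_pos g with hg | hg
    · simp [hg]
    rw [show (g : ℕ∞) = ((g - 1 : ℕ) : ℕ∞) + 1 by norm_cast; omega] at h2
    exact (ENat.add_le_add_iff_right ENat.one_ne_top).1 h2
  set t : ℤ → V.Pt EΩ.F := fun s => G.curvePt φ EΩ a (qb s)
  have htval : ∀ s x, x ∈ V.O (t s).q ∨ x⁻¹ ∈ V.O (t s).q := fun s x =>
    G.val_or (t s) (g - 1) (by omega) (Space.Pt.dimGE_of_tdim _ (G.tdim_curvePt φ EΩ a (hqb s))) x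
  have hred : ∀ s, Space.IsSpec lk.red (P s) (t s) := fun s => lk.isSpec_red G φ a (hqs s)
  have hD : ∀ (v : Place Ω EΩ.F) s, Nonempty (Den v (t s) h) := fun v s => by
    obtain ⟨T, hT, -⟩ := G.exists_spec (resHom v) (residual_resHom v) (t s)
    haveI := G.ufd T (g - 1 - 1) (by omega)
      (Space.Pt.dimGE_of_tdim T (G.tdim_spec_place φ EΩ a (hqb s) hT))
    obtain ⟨x, y, hy0, hrel, he⟩ := exists_den T.q h
    exact ⟨⟨T, hT, x, y, hy0, hrel, he⟩⟩
  let D : ∀ (v : Place Ω EΩ.F) s, Den v (t s) h := fun v s => (hD v s).some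
  have hWne : ∀ (v : Place Ω EΩ.F) s, (P s).eval ((D v s).w : V.N) ≠ 0 := fun v s =>
    (P s).eval_ne_zero (hPgen s) (D v s).w_ne
  let W : Place Ω EΩ.F → ℤ → E.F := fun v s => (P s).eval ((D v s).w : V.N)
  let U : Place Ω EΩ.F → E.F := fun v => G1 * (W v 1 * W v (-1) / (W v 0 * W v 0))
  have hUne : ∀ v, U v ≠ 0 := fun v =>
    mul_ne_zero hG1 (div_ne_zero (mul_ne_zero (hWne v 1) (hWne v (-1)))
      (mul_ne_zero (hWne v 0) (hWne v 0)))
  have hWord : ∀ v s (Q : Place L E.F), Model.place lk.smooth Q = v →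
      G.pdiv φ E a (q s) h Q = Q.ord (W v s) := by
    intro v s Q hQ
    have hT := lk.isSpec_place G φ a (hqs s) hQ (D v s).spec
    obtain ⟨⟨huQ, -⟩, -⟩ := IsSpec.eval hT (D v s).u.2
    obtain ⟨⟨hwQ, -⟩, -⟩ := IsSpec.eval hT (D v s).w.2
    obtain ⟨S, hS, -⟩ := G.exists_spec (resHom Q) (residual_resHom Q) (P s)
    obtain ⟨T', hT', -⟩ := G.exists_spec π lk.residual S
    have hTT : T' = (D v s).T := (G.exists_spec _
      (residual_comp _ _ A π (residual_resHom Q) lk.residual) (P s)).unique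
        (isSpec_comp _ _ (isLocalHom_resHom Q) A π hS hT') hT
    have zS : V.Spz S.q (D v s).T.q := hTT ▸ hT'.choose
    conv_lhs => rw [(D v s).eq]
    exact G.pdiv_apply_den φ E a (hqg s) hS zS (D v s).w_ne (D v s).rel huQ hwQ
  -- one scaling for all places
  set v₀ := Model.place lk.smooth wy
  obtain ⟨c, b, hb, hcb⟩ := lk.M.scaled (U v₀) (hUne v₀)
  have hc : c ≠ 0 := fun e => hb (by rw [e, zero_smul] at hcb; exact hcb.unique lk.M.res_zero)
  have hscale : ∀ v, ∃ bv : EΩ.F, bv ≠ 0 ∧ lk.M.Res (c • U v) bv := by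
    intro v
    have hρ : ∀ s, ∃ x : EΩ.F, x ≠ 0 ∧ lk.M.Res (W v s / W v₀ s) x := fun s => by
      have e : ((D v s).u : V.N) / (D v s).w = ((D v₀ s).u : V.N) / (D v₀ s).w :=
        (D v s).eq.symm.trans (D v₀ s).eq
      obtain ⟨h1, h2⟩ := den_ratio (D v s).spec.choose (D v₀ s).spec.choose (htval s)
        (D v s).w_ne (D v s).rel (D v₀ s).w_ne (D v₀ s).rel e
      obtain ⟨hm, he⟩ := IsSpec.eval (hred s) h1
      refine ⟨(t s).eval (((D v s).w : V.N) / (D v₀ s).w),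
        (t s).eval_ne_zero_of_inv_mem (div_ne_zero (D v s).w_ne (D v₀ s).w_ne) h1 h2, ?_⟩
      have e2 : (P s).eval (((D v s).w : V.N) / (D v₀ s).w) = W v s / W v₀ s := by
        simp only [W, ← Space.Pt.evalHom_apply (P s) (hPgen s), map_div₀]
      rw [← e2]
      exact ⟨hm, he⟩
    obtain ⟨x1, hx1, hr1⟩ := hρ 1
    obtain ⟨x2, hx2, hr2⟩ := hρ (-1)
    obtain ⟨x0, hx0, hr0'⟩ := hρ 0
    refine ⟨b * (x1 * x2 / (x0 * x0)),
      mul_ne_zero hb (div_ne_zero (mul_ne_zero hx1 hx2) (mul_ne_zero hx0 hx0)), ?_⟩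
    have e : c • U v = (c • U v₀) * (W v 1 / W v₀ 1 * (W v (-1) / W v₀ (-1)) /
        (W v 0 / W v₀ 0 * (W v 0 / W v₀ 0))) := by
      have := hWne v₀ 0
      have := hWne v₀ 1
      have := hWne v₀ (-1)
      have := hWne v 0
      simp only [U, W, Algebra.smul_def] at *
      field_simp
    rw [e]
    exact hcb.mul ((hr1.mul hr2).div (hr0'.mul hr0') (mul_ne_zero hx0 hx0))
  -- the value at a place above a point of the curve
  have key : ∀ (w : Place L E.F) (bs js : ℤ → ℤ),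
      (∀ s, Space.IsSpec (resHom w) (P s)
        ((G.rpt φ c₀ η EΩ (bs s) (js s)).map (IsScalarTower.toAlgHom K EΩ.F L))) →
      ∀ gw : G1 ∈ w.toValuationSubring, ∃ e : F1, e ≠ 0 ∧ u.ord e = G.combo φ c₀ η EΩ F1 bs js h u ∧
        ∃ hm : c * resHom w ⟨G1, gw⟩ * algebraMap F1 L e ∈ A, π ⟨_, hm⟩ ≠ 0 := by
    intro w bs js hw gw
    set v := Model.place lk.smooth w
    set R : ℤ → V.Pt EΩ.F := fun s => G.rpt φ c₀ η EΩ (bs s) (js s)
    have hRgen : ∀ s, (R s).q = V.gen := fun s => Law.q_rpt hη _ _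
    let x : ℤ → F1 := fun s => algebraMap EΩ.F F1 ((R s).eval ((D v s).w : V.N))
    have hx : ∀ s, x s ≠ 0 := fun s =>
      (_root_.map_ne_zero _).2 ((R s).eval_ne_zero (hRgen s) (D v s).w_ne)
    have hpole : ∀ s, poleDiv Ω (algebraMap EΩ.F F1 ((R s).eval h)) u = u.ord (x s) := by
      intro s
      set R1 := (R s).map (IsScalarTower.toAlgHom K EΩ.F F1)
      have hR1 : R1.map (IsScalarTower.toAlgHom K F1 L) =
          (R s).map (IsScalarTower.toAlgHom K EΩ.F L) := by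
        rw [Space.Pt.map_map]
        exact congrArg (Space.Pt.map · (R s))
          (AlgHom.ext fun z => (IsScalarTower.algebraMap_apply EΩ.F F1 L z).symm)
      obtain ⟨S, hS, -⟩ := G.exists_spec (resHom u) (residual_resHom u) R1
      have hSL : Space.IsSpec π ((R s).map (IsScalarTower.toAlgHom K EΩ.F L)) S := by
        rw [← hR1]
        obtain ⟨z, hv⟩ := hS
        refine ⟨z, fun y => ?_⟩
        obtain ⟨hm, he⟩ := hv y
        obtain ⟨h1, h2⟩ := hres ⟨_, hm⟩
        exact ⟨h1, h2.trans he⟩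
      have hST : S = (D v s).T := (G.exists_spec _
        (residual_comp _ _ A π (residual_resHom w) lk.residual) (P s)).unique
          (isSpec_comp _ _ (isLocalHom_resHom w) A π (hw s) hSL)
          (lk.isSpec_place G φ a (hqs s) rfl (D v s).spec)
      have hS' : S = bs s • φb + (η + js s • cb) := by
        refine (G.exists_spec π lk.residual _).unique hSL ?_
        rw [G.map_rpt]
        exact G.spec_add π lk.residual (isSpec_zsmul G lk.residual hφb _)
          (G.spec_add π lk.residual hηs (isSpec_zsmul G lk.residual hcs _))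
      have hSdim : ((g - 1 : ℕ) : ℕ∞) ≤ tdim Ω₀ S.vals := by
        have h1 : tdim Ω₀ (bs s • φb).vals ≤ 1 :=
          (Law.tdim_of_le (G.vals_zsmul (IntermediateField.subset_adjoin K φb.vals) _)).trans hφ1
        have h2 := (Law.tdim_add_const (G := G) (c₀ := c₀) hη (js s)).trans
          ((G.tdim_le_add (B := Ω₀) (η + js s • cb) (bs s • φb)).trans (add_le_add le_rfl h1))
        rw [add_comm (η + js s • cb), ← hS'] at h2
        rcases Nat.eq_zero_or_pos g with hg | hg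
        · simp [hg]
        rw [show (g : ℕ∞) = ((g - 1 : ℕ) : ℕ∞) + 1 by norm_cast; omega] at h2
        exact (ENat.add_le_add_iff_right ENat.one_ne_top).1 h2
      have hR1gen : R1.q = V.gen := hRgen s
      have := poleDiv_eval_den hR1gen hS
        (fun y => G.val_or S (g - 1) (by omega) (Space.Pt.dimGE_of_tdim S hSdim) y)
        (t := (D v s).T.q) (hST ▸ V.spz_refl _) (D v s).w_ne (D v s).rel
      rw [← (D v s).eq, Space.Pt.eval_map, Space.Pt.eval_map] at this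
      exact this
    refine ⟨x 1 * x (-1) / (x 0 * x 0),
      div_ne_zero (mul_ne_zero (hx 1) (hx (-1))) (mul_ne_zero (hx 0) (hx 0)), ?_, ?_⟩
    · rw [ord_div u (mul_ne_zero (hx 1) (hx (-1))) (mul_ne_zero (hx 0) (hx 0)),
        Place.ord_mul _ (hx 1) (hx (-1)), Place.ord_mul _ (hx 0) (hx 0)]
      simp only [Law.combo, Finsupp.sub_apply, Finsupp.add_apply, Finsupp.smul_apply, smul_eq_mul]
      rw [← hpole 1, ← hpole (-1), ← hpole 0]
      ring
    obtain ⟨bv, hbv, hres'⟩ := hscale v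
    have hUQ : ∀ Q, Model.place lk.smooth Q = v → Q.ord (U v) = 0 := fun Q hQ => by
      rw [Place.ord_mul _ hG1 (div_ne_zero (mul_ne_zero (hWne v 1) (hWne v (-1)))
          (mul_ne_zero (hWne v 0) (hWne v 0))),
        ord_div Q (mul_ne_zero (hWne v 1) (hWne v (-1))) (mul_ne_zero (hWne v 0) (hWne v 0)),
        Place.ord_mul _ (hWne v 1) (hWne v (-1)), Place.ord_mul _ (hWne v 0) (hWne v 0), hdiv Q,
        ← hWord v 1 Q hQ, ← hWord v (-1) Q hQ, ← hWord v 0 Q hQ]
      ring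
    have hcU : ∀ Q, Model.place lk.smooth Q = v → Q.ord (c • U v) = 0 := fun Q hQ => by
      rw [Algebra.smul_def, Place.ord_mul _ ((_root_.map_ne_zero _).2 hc) (hUne v), ord_algebraMap,
        hUQ Q hQ, add_zero]
    have hbord : v.ord bv = 0 := by
      have e := congrArg (fun D : Divisor Ω EΩ.F => D v) (Model.divMap_divOf lk.smooth hres' hbv)
      simp only [divOf_apply, Model.divMap_apply] at e
      rw [← e, mapDomain_apply_congr (D' := 0) _ fun Q hQ => by
        rw [divOf_apply]; exact hcU Q hQ]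
      simp
    obtain ⟨av, ha1, ha2⟩ := Const.exists_value lk.smooth hres' (Q := w) (v := v) rfl
      fun Q hQ => (hcU Q hQ).ge
    have hav : π av ≠ 0 := fun e => by
      rw [e, map_zero, sub_zero] at ha2
      have := ha2.le_ord hbv
      omega
    -- the value of the scaled function at the place
    have hWv : ∀ s, ∃ hm : W v s ∈ w.toValuationSubring,
        resHom w ⟨_, hm⟩ = algebraMap F1 L (x s) := fun s => by
      obtain ⟨hm, he⟩ := IsSpec.eval (hw s) (h := ((D v s).w : V.N))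
        (show _ ∈ V.O ((R s).map _).q from (hRgen s).symm ▸ Space.Pt.mem_O_gen _)
      refine ⟨hm, he.trans ?_⟩
      rw [Space.Pt.eval_map]
      exact IsScalarTower.algebraMap_apply EΩ.F F1 L _
    choose hWm hWr using hWv
    have hW0 : algebraMap F1 L (x 0 * x 0) ≠ 0 :=
      (_root_.map_ne_zero _).2 (mul_ne_zero (hx 0) (hx 0))
    have hUm : c • U v ∈ w.toValuationSubring :=
      (mem_iff_ord_nonneg (by rw [Algebra.smul_def]; exact mul_ne_zero ((_root_.map_ne_zero _).2 hc) (hUne v))).2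
        (hcU w rfl).ge
    have hval : resHom w ⟨_, hUm⟩ = (av : L) := resHom_eq_iff.2 ha1
    have hprod : resHom w ⟨_, hUm⟩ * algebraMap F1 L (x 0 * x 0) =
        c * resHom w ⟨G1, gw⟩ * algebraMap F1 L (x 1 * x (-1)) := by
      rw [map_mul (algebraMap F1 L), map_mul (algebraMap F1 L), ← hWr 0, ← hWr 1, ← hWr (-1)]
      conv_rhs => arg 1; arg 1; rw [← resHom_algebraMap w c (w.algebraMap_mem' c)]
      simp only [← map_mul]
      refine congrArg (resHom w) (Subtype.ext ?_)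
      show c • U v * (W v 0 * W v 0) = algebraMap L E.F c * G1 * (W v 1 * W v (-1))
      have := hWne v 0
      simp only [U, W, Algebra.smul_def] at *
      field_simp
    have he : c * resHom w ⟨G1, gw⟩ * algebraMap F1 L (x 1 * x (-1) / (x 0 * x 0)) = av := by
      rw [map_div₀, mul_div_assoc', ← hprod, mul_div_assoc, div_self hW0, mul_one, hval]
    exact ⟨he ▸ av.2, fun e => hav ((congrArg π (Subtype.ext he.symm)).trans e)⟩
  obtain ⟨e₁, he₁, ho₁, hm₁, hn₁⟩ := key wy by' jy hy gy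
  obtain ⟨e₂, he₂, ho₂, hm₂, hn₂⟩ := key w0 b0' j0 h0 g0
  have hz : u.ord (r * e₁ / e₂) = 0 := by
    set a₁ : A := ⟨_, hm₁⟩
    set a₂ : A := ⟨_, hm₂⟩
    obtain ⟨a₂', ha₂'⟩ : ∃ a₂' : A, a₂ * a₂' = 1 :=
      (hl.map_nonunit a₂ (isUnit_iff_ne_zero.2 hn₂)).exists_right_inv
    have e : algebraMap F1 L (r * e₁ / e₂) = ((a₁ * a₂' : A) : L) := by
      have h1 : (a₂ : L) * (a₂' : L) = 1 := congrArg Subtype.val ha₂'
      have h2 : algebraMap F1 L e₂ ≠ 0 := (_root_.map_ne_zero _).2 he₂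
      rw [map_div₀, map_mul, div_eq_iff h2]
      show _ = (c * resHom wy ⟨G1, gy⟩ * algebraMap F1 L e₁) * (a₂' : L) * _
      rw [← hr]
      have h1' : c * resHom w0 ⟨G1, g0⟩ * algebraMap F1 L e₂ * (a₂' : L) = 1 := h1
      linear_combination -(algebraMap F1 L r * algebraMap F1 L e₁) * h1'
    have hm : algebraMap F1 L (r * e₁ / e₂) ∈ A := e ▸ (a₁ * a₂').2
    refine ord_eq_zero_of_residue hres hm ?_
    rw [show (⟨_, hm⟩ : A) = a₁ * a₂' from Subtype.ext e, map_mul]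
    exact mul_ne_zero hn₁ (left_ne_zero_of_mul_eq_one
      (by rw [mul_comm, ← map_mul, ha₂', map_one] : π a₂' * π a₂ = 1))
  rw [ord_div u (mul_ne_zero hr0 he₁) he₂, Place.ord_mul _ hr0 he₁, ho₁, ho₂] at hz
  exact hz

end Place

end FLTAgent.AV
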