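import Fermat.Agent.Specialization.Riemann
import Fermat.Agent.Specialization.Cover

/-!
# Effective divisors that do not move
-/

set_option autoImplicit false
set_option linter.style.haveILetI false
set_option linter.unusedSectionVars false

noncomputable section

open scoped Classical

namespace FLTAgent.AV

open AlgebraicCurve FLTAgent.Curves FLTAgent.Specialization IntermediateField

universe u

variable {K F : Type u} [Field K] [Field F] [Algebra K F] [IsAlgClosed K] [IsFunctionField K F]

theorem exists_notMem (s : Finset (Place K F)) : ∃ v, v ∉ s := by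
  obtain ⟨x, hx, -⟩ := IsFunctionField.exists_transcendental (K := K) (F := F)
  choose v hv using fun a : K => exists_ord_pos (K := K) (transcendental_sub hx a)
  have hinj : Function.Injective v := fun a b hab => by
    by_contra hne
    have h1 := ((ordGE_of_le (v := v a) (hv a)).sub (ordGE_of_le (hab ▸ hv b)))
    rw [sub_sub_sub_cancel_left, ← map_sub] at h1
    rcases h1 with h1 | h1
    · exact hne ((algebraMap K F).injective (sub_eq_zero.1 (by rw [← map_sub]; exact h1))).symm
    · rw [ord_algebraMap] at h1; omega
  haveI : Infinite K := IsAlgClosed.instInfinite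
  by_contra h
  push Not at h
  exact not_injective_infinite_finite (fun a : K => (⟨v a, h _⟩ : s)) fun a b e =>
    hinj (congrArg Subtype.val e)

theorem exists_effective {D : Divisor K F} (h : 1 ≤ ell D) :
    ∃ E : Divisor K F, 0 ≤ E ∧ E - D ∈ Divisor.principal := by
  obtain ⟨f, hf, hf0⟩ := (Submodule.ne_bot_iff (riemannRochSpace D)).1 fun hb => by
    rw [ell, hb, finrank_bot] at h; omega
  refine ⟨divOf K f + D, (mem_rrSpace_iff_divOf hf0).1 hf, ?_⟩
  rw [add_sub_cancel_right]
  exact Divisor.mem_principal.2 ⟨f, hf0, fun v => rfl⟩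

/-- A divisor with one section up to constants has one effective representative. -/
theorem eq_of_rigid {E E' : Divisor K F} (hE : 0 ≤ E) (h1 : ell E = 1) (hE' : 0 ≤ E')
    (h : E' - E ∈ Divisor.principal) : E' = E := by
  obtain ⟨f, hf, hv⟩ := Divisor.mem_principal.1 h
  have hfE : f ∈ riemannRochSpace E := mem_rrSpace.2 fun v => ordGE_of_le (by
    have := hE' v
    have := hv v
    simp only [Finsupp.sub_apply, Finsupp.coe_zero, Pi.zero_apply] at *
    omega)
  haveI := finiteDimensional_rrSpace E
  have h2 : Module.finrank K (riemannRochSpace E) = 1 := by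
    have := h1
    rw [ell] at this
    exact_mod_cast this
  obtain ⟨c, hc⟩ := (finrank_eq_one_iff_of_nonzero' ⟨(1 : F), one_mem_rrSpace hE⟩
    (fun e => one_ne_zero (congrArg Subtype.val e))).1 h2 ⟨f, hfE⟩
  have hfc : f = algebraMap K F c := by
    rw [Algebra.algebraMap_eq_smul_one]; exact (congrArg Subtype.val hc).symm
  refine Finsupp.ext fun v => ?_
  have := hv v
  rw [hfc, ord_algebraMap, Finsupp.sub_apply] at this
  omega

theorem exists_degree_ell : ∀ (n : ℕ) (D : Divisor K F), ell D = n + 1 →
    ∃ D' : Divisor K F, ell D' = 1 ∧ Divisor.degree D' = Divisor.degree D - n := by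
  intro n
  induction n with
  | zero => exact fun D hD => ⟨D, by simpa using hD, by simp⟩
  | succ n ih =>
    intro D hD
    obtain ⟨f, hf, hf0⟩ := (Submodule.ne_bot_iff (riemannRochSpace D)).1 fun hb => by
      rw [ell, hb, finrank_bot] at hD; omega
    obtain ⟨v, hv⟩ := exists_notMem (D.support ∪ (divOf K f).support)
    rw [Finset.notMem_union, Finsupp.notMem_support_iff, Finsupp.notMem_support_iff,
      divOf_apply] at hv
    have hle : D - Finsupp.single v 1 ≤ D := sub_le_self _ (Finsupp.single_nonneg.2 zero_le_one)
    have hlow := ell_sub_le hle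
    have hdeg : Divisor.degree (D - Finsupp.single v 1) = Divisor.degree D - 1 := by
      rw [map_sub, degree_single']
    have hlt : ell (D - Finsupp.single v 1) < ell D := by
      haveI := finiteDimensional_rrSpace D
      refine Nat.cast_lt.2 (Submodule.finrank_lt_finrank_of_lt (lt_of_le_of_ne (rrSpace_le hle) ?_))
      intro e
      rw [← e] at hf
      have h3 := (mem_rrSpace.1 hf v).le_ord hf0
      rw [Finsupp.sub_apply, Finsupp.single_eq_same] at h3
      omega
    obtain ⟨D', h1, h2⟩ := ih (D - Finsupp.single v 1) (by push_cast at hD; omega)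
    exact ⟨D', h1, by rw [h2, hdeg]; push_cast; omega⟩

theorem exists_riemann_le (D : Divisor K F) : Divisor.degree D + 1 - rGenus K F ≤ ell D :=
  (exists_riemann (K := K) (F := F)).choose_spec.choose_spec.2.1 D

/-- An effective divisor of degree the genus with one section up to constants. -/
theorem exists_rigid : ∃ E : Divisor K F, 0 ≤ E ∧ ell E = 1 ∧
    Divisor.degree E = rGenus K F := by
  have h00 : ell (0 : Divisor K F) = 1 := by rw [ell, finrank_rrSpace_zero]; rfl
  have hg : 0 ≤ rGenus K F := by
    have := exists_riemann_le (0 : Divisor K F)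
    rw [h00, map_zero] at this
    omega
  obtain ⟨v, -⟩ := exists_notMem (∅ : Finset (Place K F))
  set D : Divisor K F := Finsupp.single v (max (rBound K F) (rGenus K F)) with hD
  have hd : Divisor.degree D = max (rBound K F) (rGenus K F) := degree_single' _ _
  have he := ell_eq (G := D) (by omega)
  obtain ⟨D', h1, h2⟩ := exists_degree_ell (ell D - 1).toNat D (by omega)
  obtain ⟨E, hE, hprin⟩ := exists_effective h1.ge
  obtain ⟨f, hf, hv⟩ := Divisor.mem_principal.1 hprin
  have hE' : E = D' + divOf K f := Finsupp.ext fun w => by
    have := hv w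
    rw [Finsupp.sub_apply] at this
    rw [Finsupp.add_apply, divOf_apply]
    omega
  refine ⟨E, hE, ?_, ?_⟩
  · rw [hE', ← h1, ← ell_sub_divOf (D' + divOf K f) hf, add_sub_cancel_right]
  · rw [hE', map_add, degree_divOf, h2, add_zero]
    omega

end FLTAgent.AV
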