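import Fermat.Agent.AV.Curve.Setting
import Fermat.Agent.AV.Curve.Rigid
import Fermat.Agent.AV.Curve.Degree

/-!
# The second difference of translated pole divisors is principal

The cube in two independent points of the curve vanishes when either point is specialised to the
base point; a divisor without moduli forces it to be principal.
-/

set_option autoImplicit false
set_option linter.style.haveILetI false
set_option linter.unusedSectionVars false

noncomputable section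

namespace FLTAgent.AV

open AlgebraicCurve FLTAgent.Curves FLTAgent.Jac27.Spread FLTAgent.Specialization IntermediateField

universe u

variable {K : Type u} [Field K] {g : ℕ} {V : Space K g}

theorem tdim_range_algebraMap {B L : Type u} [Field B] [Field L] [Algebra B L] :
    tdim B (Set.range (algebraMap B L)) = 0 :=
  le_antisymm ((tdim_le_of_subset (T := (∅ : Set L)) (by
    rintro _ ⟨c, rfl⟩
    exact (talg B (∅ : Set L)).algebraMap_mem c)).trans ((tdim_le_encard B _).trans (by simp)))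
    bot_le

theorem tdim_vals_range_le_one {Ω₀ F₀ L : Type u} [Field Ω₀] [Field F₀] [Field L]
    [Algebra K Ω₀] [Algebra K F₀] [Algebra Ω₀ F₀] [IsScalarTower K Ω₀ F₀] [Algebra K L]
    [Algebra Ω₀ L] [IsScalarTower K Ω₀ L] [IsAlgClosed Ω₀] [IsFunctionField Ω₀ F₀]
    (y : F₀ →ₐ[Ω₀] L) : tdim Ω₀ (Set.range y) ≤ 1 := by
  rw [← Set.image_univ, tdim_map]
  exact tdim_univ_le_one

section Shift

variable {Ω₀ F₀ L k : Type u} [Field Ω₀] [Field F₀] [Field L] [Field k] [Algebra K Ω₀]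
  [Algebra K F₀] [Algebra Ω₀ F₀] [IsScalarTower K Ω₀ F₀] [Algebra K L] [Algebra Ω₀ L]
  [IsScalarTower K Ω₀ L] [Algebra K k] [Algebra Ω₀ k] [IsScalarTower K Ω₀ k]
  [IsAlgClosed Ω₀] [IsFunctionField Ω₀ F₀]

theorem Law.vals_shift (G : Law V) (φ : V.Pt F₀) (c₀ : V.Pt Ω₀) (y : F₀ →ₐ[Ω₀] L) :
    (G.shift φ c₀ y).vals ⊆ IntermediateField.adjoin K (Set.range y) := by
  letI := G.group L
  rw [Law.shift, sub_eq_add_neg]
  refine G.vals_add ?_ (G.vals_neg ?_)
  · rw [Space.Pt.vals_map]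
    rintro _ ⟨x, -, rfl⟩
    exact IntermediateField.subset_adjoin _ _ ⟨x, rfl⟩
  · rw [Space.Pt.vals_map]
    rintro _ ⟨x, -, rfl⟩
    exact IntermediateField.subset_adjoin _ _ ⟨algebraMap Ω₀ F₀ x, y.commutes x⟩

theorem Law.map_shift {L' : Type u} [Field L'] [Algebra K L'] [Algebra Ω₀ L']
    [IsScalarTower K Ω₀ L'] (G : Law V) (φ : V.Pt F₀) (c₀ : V.Pt Ω₀) (y : F₀ →ₐ[Ω₀] L)
    (σ : L →ₐ[Ω₀] L') :
    (G.shift φ c₀ y).map (σ.restrictScalars K) = G.shift φ c₀ (σ.comp y) := by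
  letI := G.group L
  letI := G.group L'
  have hc : (c₀.map (IsScalarTower.toAlgHom K Ω₀ L)).map (σ.restrictScalars K) =
      c₀.map (IsScalarTower.toAlgHom K Ω₀ L') := by
    rw [Space.Pt.map_map]
    exact congrArg (fun τ => c₀.map τ) (AlgHom.ext fun x => σ.commutes x)
  show G.mapHom (σ.restrictScalars K) _ = _
  rw [Law.shift, map_sub]
  show Space.Pt.map _ _ - Space.Pt.map _ _ = _
  rw [hc]
  rfl

/-- Through a residue map with values at the base point the shifted point goes to zero. -/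
theorem Law.isSpec_shift_zero (G : Law V) {A : ValuationSubring L} {π : A →+* k}
    (hπ : Residual (K := K) A π)
    (hc : ∀ c : Ω₀, ∃ h : algebraMap Ω₀ L c ∈ A, π ⟨_, h⟩ = algebraMap Ω₀ k c)
    {y : F₀ →ₐ[Ω₀] L} {x : Place Ω₀ F₀} (hy : TakesPlace π y x) {φ : V.Pt F₀} {c₀ : V.Pt Ω₀}
    (h₀ : Space.IsSpec (resHom x) φ c₀) :
    letI := G.group k; Space.IsSpec π (G.shift φ c₀ y) (0 : V.Pt k) := by
  letI := G.group L
  letI := G.group k
  have h1 := G.spec_add π hπ (isSpec_of_place hy h₀)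
    (isSpec_neg G hπ (isSpec_map (IsScalarTower.toAlgHom K Ω₀ L) (IsScalarTower.toAlgHom K Ω₀ k) c₀
      fun a => hc _))
  rw [add_neg_cancel, ← sub_eq_add_neg] at h1
  exact h1

/-- Through a residue map taking one embedding of the curve to another the shifts correspond. -/
theorem Law.isSpec_shift (G : Law V) {A : ValuationSubring L} {π : A →+* k}
    (hπ : Residual (K := K) A π)
    (hc : ∀ c : Ω₀, ∃ h : algebraMap Ω₀ L c ∈ A, π ⟨_, h⟩ = algebraMap Ω₀ k c)
    {y : F₀ →ₐ[Ω₀] L} {y' : F₀ →ₐ[Ω₀] k} (hy : ∀ f, ∃ h : y f ∈ A, π ⟨_, h⟩ = y' f)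
    (φ : V.Pt F₀) (c₀ : V.Pt Ω₀) :
    Space.IsSpec π (G.shift φ c₀ y) (G.shift φ c₀ y') := by
  letI := G.group L
  letI := G.group k
  have h1 := G.spec_add π hπ
    (isSpec_map (y.restrictScalars K) (y'.restrictScalars K) φ fun a => hy _)
    (isSpec_neg G hπ (isSpec_map (IsScalarTower.toAlgHom K Ω₀ L) (IsScalarTower.toAlgHom K Ω₀ k) c₀
      fun a => hc _))
  rw [← sub_eq_add_neg, ← sub_eq_add_neg] at h1
  exact h1

/-- The specialisation of a shifted point has dimension at most one. -/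
theorem Law.exists_spec_shift (G : Law V) {A : ValuationSubring L} {π : A →+* k}
    (hπ : Residual (K := K) A π)
    (hc : ∀ c : Ω₀, ∃ h : algebraMap Ω₀ L c ∈ A, π ⟨_, h⟩ = algebraMap Ω₀ k c)
    (φ : V.Pt F₀) (c₀ : V.Pt Ω₀) (y : F₀ →ₐ[Ω₀] L) :
    ∃ r : V.Pt k, Space.IsSpec π (G.shift φ c₀ y) r ∧ tdim Ω₀ r.vals ≤ 1 := by
  letI := G.group L
  letI := G.group k
  obtain ⟨φb, hφb, -⟩ := G.exists_spec π hπ (φ.map (y.restrictScalars K))
  have h1 := G.spec_add π hπ hφb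
    (isSpec_neg G hπ (isSpec_map (IsScalarTower.toAlgHom K Ω₀ L) (IsScalarTower.toAlgHom K Ω₀ k) c₀
      fun a => hc _))
  rw [← sub_eq_add_neg, ← sub_eq_add_neg] at h1
  refine ⟨_, h1, ?_⟩
  have h2 : tdim Ω₀ φb.vals ≤ 1 := by
    refine (tdim_spec_le hc hφb).trans ((tdim_mono Ω₀ ?_).trans (tdim_vals_range_le_one (K := K) y))
    rw [Space.Pt.vals_map]
    exact Set.image_subset_range _ _
  refine (Law.tdim_of_le (S := φb.vals ∪ Set.range (algebraMap Ω₀ k)) ?_).trans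
    ((tdim_union_le _ _ _).trans ((add_le_add h2 (tdim_range_algebraMap).le).trans (by simp)))
  rw [sub_eq_add_neg]
  refine G.vals_add (Set.subset_union_left.trans (IntermediateField.subset_adjoin _ _))
    (G.vals_neg ?_)
  rw [Space.Pt.vals_map]
  exact (Set.image_subset_range _ _).trans
    (Set.subset_union_right.trans (IntermediateField.subset_adjoin _ _))

end Shift

section Cube

variable {Ω₀ F₀ L k : Type u} [Field Ω₀] [Field F₀] [Field L] [Field k] [Algebra K Ω₀]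
  [Algebra K F₀] [Algebra Ω₀ F₀] [IsScalarTower K Ω₀ F₀] [Algebra K L] [Algebra Ω₀ L]
  [IsScalarTower K Ω₀ L] [Algebra K k] [Algebra Ω₀ k] [IsScalarTower K Ω₀ k]
  [IsAlgClosed Ω₀] [IsFunctionField Ω₀ F₀] [IsAlgClosed L] [IsAlgClosed k]

/-- The cube of the translations by `A` and `-B` at `p`. -/
def Law.cube (G : Law V) (φ : V.Pt F₀) (E : Ext K Ω₀ F₀ L) (a : ℤ) (h : V.N)
    (p A B : V.Pt L) : Divisor L E.F :=
  letI := G.group L
  G.pdiv φ E a (p + A - B) h - G.pdiv φ E a (p + A) h - G.pdiv φ E a (p - B) h + G.pdiv φ E a p h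

/-- The four translations of the cube are generic. -/
def Law.GenCube (G : Law V) (Ω₀ : Type u) {L : Type u} [Field Ω₀] [Field L] [Algebra K L]
    [Algebra Ω₀ L] (p A B : V.Pt L) : Prop :=
  letI := G.group L
  (g : ℕ∞) ≤ tdim Ω₀ (p + A - B).vals ∧ (g : ℕ∞) ≤ tdim Ω₀ (p + A).vals ∧
    (g : ℕ∞) ≤ tdim Ω₀ (p - B).vals ∧ (g : ℕ∞) ≤ tdim Ω₀ p.vals

variable {E : Ext K Ω₀ F₀ L} {Ek : Ext K Ω₀ F₀ k} {S : ValuationSubring L} {π : S →+* k}

/-- The cube specialises to the cube. -/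
theorem Link.divMap_cube (lk : Link E Ek π) (G : Law V) (φ : V.Pt F₀) (a : ℤ) (h : V.N)
    {p A B : V.Pt L} {pb Ab Bb : V.Pt k} (hp : G.GenCube Ω₀ p A B)
    (hpb : G.GenCube Ω₀ pb Ab Bb) (hsp : Space.IsSpec π p pb) (hsA : Space.IsSpec π A Ab)
    (hsB : Space.IsSpec π B Bb) :
    Model.divMap lk.smooth (G.cube φ E a h p A B) = G.cube φ Ek a h pb Ab Bb := by
  letI := G.group L
  letI := G.group k
  have h1 := G.spec_add π lk.residual hsp hsA
  have h3 := G.spec_add π lk.residual hsp (isSpec_neg G lk.residual hsB)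
  have h2 := G.spec_add π lk.residual h1 (isSpec_neg G lk.residual hsB)
  rw [← sub_eq_add_neg, ← sub_eq_add_neg] at h2 h3
  rw [Law.cube, Law.cube, map_add, map_sub, map_sub,
    lk.divMap_pdiv G φ a h hp.1 hpb.1 h2, lk.divMap_pdiv G φ a h hp.2.1 hpb.2.1 h1,
    lk.divMap_pdiv G φ a h hp.2.2.1 hpb.2.2.1 h3, lk.divMap_pdiv G φ a h hp.2.2.2 hpb.2.2.2 hsp]

/-- The cube becomes principal when the first translation specialises to zero. -/
theorem Link.divMap_cube_zero [IsAlgClosed K] (lk : Link E Ek π) (G : Law V) (φ : V.Pt F₀) (a : ℤ)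
    (h : V.N) {p A B : V.Pt L} {pb Bb : V.Pt k} (hp : G.GenCube Ω₀ p A B)
    (hpb : (g : ℕ∞) ≤ tdim Ω₀ pb.vals) (hBb : tdim Ω₀ Bb.vals ≤ 1)
    (hsp : Space.IsSpec π p pb)
    (hsA : letI := G.group k; Space.IsSpec π A (0 : V.Pt k))
    (hsB : Space.IsSpec π B Bb) :
    Model.divMap lk.smooth (G.cube φ E a h p A B) ∈ Divisor.principal := by
  letI := G.group L
  letI := G.group k
  have h1 := G.spec_add π lk.residual hsp hsA
  rw [add_zero] at h1
  have h3 := G.spec_add π lk.residual hsp (isSpec_neg G lk.residual hsB)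
  have h2 := G.spec_add π lk.residual h1 (isSpec_neg G lk.residual hsB)
  rw [← sub_eq_add_neg, ← sub_eq_add_neg] at h2 h3
  have hm : ((g - 1 : ℕ) : ℕ∞) ≤ tdim Ω₀ (pb - Bb).vals := by
    have h4 := hpb.trans ((G.tdim_le_add (B := Ω₀) pb (-Bb)).trans (add_le_add le_rfl
      ((Law.tdim_of_le (S := Bb.vals) (G.vals_neg (IntermediateField.subset_adjoin K _))).trans hBb)))
    rw [← sub_eq_add_neg] at h4
    rcases g with _ | n
    · exact bot_le
    · rw [Nat.cast_add, Nat.cast_one] at h4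
      simpa using (ENat.add_le_add_iff_right ENat.one_ne_top).1 h4
  obtain ⟨Bad, hBad, hgood⟩ := exists_bad (G.curvePt φ Ek a (pb - Bb)) h
    (G.val_or _ (g - 1) (by omega) (Space.Pt.dimGE_of_tdim _ (G.tdim_curvePt φ Ek a hm)) h)
  haveI : Infinite K := IsAlgClosed.instInfinite
  obtain ⟨lam, -, hlam⟩ := (Set.infinite_univ.sdiff ((hBad.finite).union
    (Set.Subsingleton.finite (s := {c : K | h = algebraMap K V.N c})
      fun x hx y hy => (algebraMap K V.N).injective (hx.symm.trans hy)))).nonempty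
  rw [Set.mem_union, not_or] at hlam
  set h' := (h - algebraMap K V.N lam)⁻¹
  have e : Model.divMap lk.smooth (G.pdiv φ E a (p + A - B) h') =
      Model.divMap lk.smooth (G.pdiv φ E a (p - B) h') :=
    lk.divMap_pdiv_eq G φ a h' hp.1 hp.2.2.1 h2 h3 (by omega) hm (hgood lam hlam.1)
  have e2 := lk.divMap_pdiv G φ a h hp.2.1 hpb h1
  have e4 := lk.divMap_pdiv G φ a h hp.2.2.2 hpb hsp
  have d1 := lk.divMap_mem_principal (G.pdiv_inv_sub φ E a hp.1 h hlam.2)
  have d3 := lk.divMap_mem_principal (G.pdiv_inv_sub φ E a hp.2.2.1 h hlam.2)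
  rw [map_sub] at d1 d3
  have := sub_mem d3 d1
  rw [Law.cube, map_add, map_sub, map_sub, e2, e4]
  rw [e] at this
  convert this using 1
  abel

/-- A specialisation of an effective representative is the divisor without moduli. -/
theorem Link.divMap_rigid (lk : Link E Ek π) {E₀ : Divisor Ω₀ F₀} (hE₀ : 0 ≤ E₀)
    (h1 : ell E₀ = 1) {E' c : Divisor L E.F} (hE' : 0 ≤ E')
    (hprin : E' - (liftDiv E.ι E.hι E₀ + c) ∈ Divisor.principal)
    (hc : Model.divMap lk.smooth c ∈ Divisor.principal) :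
    Model.divMap lk.smooth E' = liftDiv Ek.ι Ek.hι E₀ := by
  refine eq_of_rigid ?_ ((Const.ell_liftDiv Ek.ι Ek.hι E₀).trans h1)
    (Model.divMap_nonneg lk.smooth hE') ?_
  · intro w
    by_cases hw : w ∈ Set.range (liftPlace Ek.ι Ek.hι)
    · obtain ⟨v, rfl⟩ := hw
      rw [liftDiv_apply]; exact hE₀ v
    · rw [liftDiv_apply_notMem Ek.ι Ek.hι _ hw]; rfl
  have := add_mem (lk.divMap_mem_principal hprin) hc
  rw [map_sub, map_add, Const.divMap_liftDiv E.ι Ek.ι E.hι Ek.hι lk.smooth lk.res] at this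
  convert this using 1
  abel

/-- The support of the representative specialises into the support. -/
theorem Link.exists_place_lift (lk : Link E Ek π) {E₀ : Divisor Ω₀ F₀} {E' : Divisor L E.F}
    (hE' : 0 ≤ E') (he : Model.divMap lk.smooth E' = liftDiv Ek.ι Ek.hι E₀) {Q : Place L E.F}
    (hQ : E' Q ≠ 0) :
    ∃ u : Place Ω₀ F₀, E₀ u ≠ 0 ∧ Model.place lk.smooth Q = liftPlace Ek.ι Ek.hι u := by
  classical
  have hle : Finsupp.single Q (E' Q) ≤ E' := fun w => by
    rw [Finsupp.single_apply]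
    split_ifs with hw
    · subst hw; exact le_rfl
    · exact hE' w
  have h2 := Model.divMap_mono lk.smooth hle (Model.place lk.smooth Q)
  rw [Model.divMap_single, Finsupp.single_eq_same, he] at h2
  have hpos : 0 < E' Q := lt_of_le_of_ne (hE' Q) (Ne.symm hQ)
  by_cases hw : Model.place lk.smooth Q ∈ Set.range (liftPlace Ek.ι Ek.hι)
  · obtain ⟨u, hu⟩ := hw
    refine ⟨u, fun h0 => ?_, hu.symm⟩
    rw [← hu, liftDiv_apply, h0] at h2
    omega
  · rw [liftDiv_apply_notMem Ek.ι Ek.hι _ hw] at h2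
    omega

/-- The value at a place reduces to the value at the image place. -/
theorem Link.value_place (lk : Link E Ek π) {Q : Place L E.F} {u : Place Ω₀ F₀}
    (hQ : Model.place lk.smooth Q = liftPlace Ek.ι Ek.hι u) (f : u.toValuationSubring) :
    ∃ (hf : E.ι f ∈ Q.toValuationSubring) (ha : resHom Q ⟨_, hf⟩ ∈ S),
      π ⟨_, ha⟩ = algebraMap Ω₀ k (resHom u f) := by
  obtain ⟨hm, hv⟩ := resHom_liftPlace Ek u f
  have hv0 : ∀ Q', Model.place lk.smooth Q' = liftPlace Ek.ι Ek.hι u → 0 ≤ Q'.ord (E.ι f) :=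
    fun Q' hQ' => by
      refine lk.nonneg_of_place ?_ Q' hQ'
      rcases eq_or_ne (Ek.ι f) 0 with h0 | h0
      · rw [h0, Place.ord_zero]
      · exact (mem_iff_ord_nonneg h0).1 hm
  obtain ⟨r, hr, hr'⟩ := Const.exists_value lk.smooth (lk.res f) hQ hv0
  have hfQ : E.ι f ∈ Q.toValuationSubring := ordGE_zero_iff_mem.1 (ordGE_of_le (hv0 Q hQ))
  have hval : resHom Q ⟨_, hfQ⟩ = (r : L) := resHom_eq_iff.2 hr
  refine ⟨hfQ, hval ▸ r.2, (congrArg π (Subtype.ext hval)).trans ?_⟩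
  exact (resHom_eq_iff (f := ⟨Ek.ι f, hm⟩) |>.2 hr').symm.trans hv

end Cube

section Rigidity

variable {Ω₀ F₀ Ω L U : Type u} [Field Ω₀] [Field F₀] [Field Ω] [Field L] [Field U]
  [Algebra K Ω₀] [Algebra K F₀] [Algebra Ω₀ F₀] [IsScalarTower K Ω₀ F₀] [Algebra K Ω]
  [Algebra Ω₀ Ω] [IsScalarTower K Ω₀ Ω] [Algebra K L] [Algebra Ω₀ L] [IsScalarTower K Ω₀ L]
  [Algebra K U] [Algebra Ω₀ U] [IsScalarTower K Ω₀ U] [Algebra L U] [Algebra Ω L] [Algebra Ω U]
  [IsScalarTower Ω L U] [IsScalarTower Ω₀ L U] [IsScalarTower Ω₀ Ω L] [IsScalarTower Ω₀ Ω U]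
  [IsAlgClosed Ω₀] [IsFunctionField Ω₀ F₀] [IsAlgClosed Ω] [IsAlgClosed L] [IsAlgClosed U]

/-- A class of degree zero vanishing at all specialisations is zero. -/
theorem mem_principal_of_rigid (EΩ : Ext K Ω₀ F₀ Ω) (E : Ext K Ω₀ F₀ L) (EU : Ext K Ω₀ F₀ U)
    {A₁ : ValuationSubring L} (π₁ : A₁ →+* Ω)
    (hπ₁ : ∀ c : Ω, ∃ h : algebraMap Ω L c ∈ A₁, π₁ ⟨_, h⟩ = c)
    {A₂ : ValuationSubring U} {π₂ : A₂ →+* L} (lk₂ : Link EU E π₂)
    (hπ₂ : ∀ c : L, ∃ h : algebraMap L U c ∈ A₂, π₂ ⟨_, h⟩ = c)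
    {c : Divisor U EU.F} (hdeg : Divisor.degree c = 0)
    (hc₂ : Model.divMap lk₂.smooth c ∈ Divisor.principal)
    (hc : ∀ (A : ValuationSubring U) (π : A →+* Ω) (lk : Link EU EΩ π),
      (∀ x : A₁, ∃ h : algebraMap L U x ∈ A, π ⟨_, h⟩ = π₁ x) →
        Model.divMap lk.smooth c ∈ Divisor.principal) :
    c ∈ Divisor.principal := by
  classical
  obtain ⟨E₀, hE₀, h1, hd⟩ := exists_rigid (K := Ω₀) (F := F₀)
  obtain ⟨E', hE', hprin⟩ := exists_effective (D := liftDiv EU.ι EU.hι E₀ + c) (by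
    have := exists_riemann_le (liftDiv EU.ι EU.hι E₀ + c)
    rw [map_add, degree_liftDiv, hdeg, hd, Const.rGenus_map_eq EU.ι EU.hι] at this
    omega)
  have he₂ := lk₂.divMap_rigid hE₀ h1 hE' hprin hc₂
  obtain ⟨v₁, hv₁⟩ := exists_notMem E₀.support
  obtain ⟨t, n, hn, ht, hdiv⟩ := exists_only_pole v₁
  have hreg : ∀ u : Place Ω₀ F₀, E₀ u ≠ 0 → t ∈ u.toValuationSubring := fun u hu => by
    refine (mem_iff_ord_nonneg (ne_zero_of_transcendental ht)).2 ?_
    have := congrArg (fun D : Divisor Ω₀ F₀ => D u) hdiv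
    simp only [poleDiv_apply] at this
    rw [Finsupp.single_apply, if_neg fun e : v₁ = u =>
      hv₁ (e ▸ Finsupp.mem_support_iff.2 hu)] at this
    omega
  have hsupp : ∀ Q : Place U EU.F, E' Q ≠ 0 → Q ∈ Set.range (liftPlace EU.ι EU.hι) := by
    intro Q hQ
    by_contra hnr
    have hord : ∀ f : F₀, Q.ord (EU.ι f) = 0 := fun f => by
      by_contra h
      exact hnr (mem_range_liftPlace EU.ι EU.hι h)
    have htQ : EU.ι t ∈ Q.toValuationSubring :=
      (mem_iff_ord_nonneg (by simpa using ne_zero_of_transcendental ht)).2 (hord t).ge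
    set e := resHom Q ⟨_, htQ⟩
    obtain ⟨l, hl⟩ : ∃ l : L, algebraMap L U l = e := by
      by_contra! hne
      obtain ⟨A, π, hπ, hloc, hext, he, he0⟩ := exists_residual_pole U A₁ π₁ hπ₁ hne
      have hcompat : ∀ x : Ω₀, ∃ h : algebraMap Ω₀ U x ∈ A, π ⟨_, h⟩ = algebraMap Ω₀ Ω x := by
        intro x
        obtain ⟨h₁, h₁'⟩ := hπ₁ (algebraMap Ω₀ Ω x)
        obtain ⟨h, h'⟩ := hext ⟨_, h₁⟩
        have e1 : algebraMap Ω₀ U x = algebraMap L U (algebraMap Ω L (algebraMap Ω₀ Ω x)) := by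
          rw [← IsScalarTower.algebraMap_apply Ω L U, ← IsScalarTower.algebraMap_apply Ω₀ Ω U]
        exact ⟨e1 ▸ h, (congrArg π (Subtype.ext e1)).trans (h'.trans h₁')⟩
      obtain ⟨lk⟩ := nonempty_link EU EΩ hπ hloc hcompat
      obtain ⟨u, hu, hQu⟩ := lk.exists_place_lift hE'
        (lk.divMap_rigid hE₀ h1 hE' hprin (hc A π lk hext)) hQ
      obtain ⟨hf, ha, -⟩ := lk.value_place hQu ⟨t, hreg u hu⟩
      have he1 : e ≠ 0 := fun e0 => hne 0 (by rw [map_zero, e0])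
      have : π ⟨e, ha⟩ * π ⟨e⁻¹, he⟩ = 1 := by
        rw [← map_mul, ← map_one π]; exact congrArg π (Subtype.ext (mul_inv_cancel₀ he1))
      rw [he0, mul_zero] at this
      exact zero_ne_one this
    obtain ⟨u, hu, hQu⟩ := lk₂.exists_place_lift hE' he₂ hQ
    obtain ⟨hf, ha, hval⟩ := lk₂.value_place hQu ⟨t, hreg u hu⟩
    obtain ⟨hl', hll⟩ := hπ₂ l
    set x := resHom u ⟨t, hreg u hu⟩
    have hlx : l = algebraMap Ω₀ L x := by
      rw [← hll, ← hval]
      exact congrArg π₂ (Subtype.ext hl)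
    have hex : e = algebraMap Ω₀ U x := by
      rw [← hl, hlx, ← IsScalarTower.algebraMap_apply Ω₀ L U]
    have h2 := valueAt_spec Q ⟨_, htQ⟩
    change OrdGE Q 1 (EU.ι t - algebraMap U EU.F e) at h2
    rw [hex, ← IsScalarTower.algebraMap_apply Ω₀ U EU.F, ← AlgHom.commutes EU.ι, ← map_sub] at h2
    have hne : EU.ι (t - algebraMap Ω₀ F₀ x) ≠ 0 :=
      (map_ne_zero EU.ι).2 (ne_zero_of_transcendental (transcendental_sub ht x))
    have := h2.le_ord hne
    rw [hord] at this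
    omega
  set D := Finsupp.comapDomain (liftPlace EU.ι EU.hι) E'
    (liftPlace_injective EU.ι EU.hι).injOn
  have hD : E' = liftDiv EU.ι EU.hι D := Finsupp.ext fun Q => by
    by_cases hQ : Q ∈ Set.range (liftPlace EU.ι EU.hι)
    · obtain ⟨v, rfl⟩ := hQ
      rw [liftDiv_apply, Finsupp.comapDomain_apply]
    · rw [liftDiv_apply_notMem EU.ι EU.hι _ hQ]
      by_contra h
      exact hQ (hsupp Q h)
  have hDE : D = E₀ := Finsupp.ext fun v => by
    have := congrArg (fun X : Divisor L E.F => X (liftPlace E.ι E.hι v)) he₂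
    simp only [hD, Const.divMap_liftDiv EU.ι E.ι EU.hι E.hι lk₂.smooth lk₂.res,
      liftDiv_apply] at this
    exact this
  rw [hD, hDE, sub_add_cancel_left] at hprin
  exact neg_mem_iff.1 hprin

end Rigidity

/-- The second difference of translated pole divisors is principal. -/
theorem targetLinear : TargetLinear.{u} := by
  intro K _ _ g V G Ω₀ F₀ Ω L _ _ _ _ _ _ _ _ _ _ _ _ _ _ _ _ _ _ _ _ _ EΩ _ _ _ _ E x₀ φ c₀ h₀ η
    hη a h
  letI := G.group L
  -- the second point of the curve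
  let U := AlgebraicClosure E.F
  letI : Algebra Ω U := ((algebraMap L U).comp (algebraMap Ω L)).toAlgebra
  haveI : IsScalarTower Ω L U := IsScalarTower.of_algebraMap_eq fun _ => rfl
  haveI : IsScalarTower Ω₀ L U := IsScalarTower.of_algebraMap_eq fun c => by
    rw [IsScalarTower.algebraMap_apply Ω₀ E.F U, IsScalarTower.algebraMap_apply Ω₀ L E.F,
      ← IsScalarTower.algebraMap_apply L E.F U]
  haveI : IsScalarTower Ω₀ Ω U := IsScalarTower.of_algebraMap_eq fun c => by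
    show _ = algebraMap L U (algebraMap Ω L (algebraMap Ω₀ Ω c))
    rw [← IsScalarTower.algebraMap_apply Ω₀ Ω L, ← IsScalarTower.algebraMap_apply Ω₀ L U]
  haveI : IsScalarTower K L U := IsScalarTower.of_algebraMap_eq fun c => by
    rw [IsScalarTower.algebraMap_apply K E.F U, IsScalarTower.algebraMap_apply K L E.F,
      ← IsScalarTower.algebraMap_apply L E.F U]
  letI := G.group U
  obtain ⟨EU⟩ := nonempty_ext (K := K) (Ω₀ := Ω₀) (F₀ := F₀) (L := U)
  set y := (IsScalarTower.toAlgHom Ω₀ EΩ.F L).comp EΩ.ι with hy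
  set η' := η.map (IsScalarTower.toAlgHom K Ω L) with hη'
  set ψ := G.shift φ c₀ y with hψ
  let j := IsScalarTower.toAlgHom Ω₀ L U
  let y₂ : F₀ →ₐ[Ω₀] U := j.comp y
  let z : F₀ →ₐ[Ω₀] U := (IsScalarTower.toAlgHom Ω₀ E.F U).comp E.ι
  let η₂ := η'.map (j.restrictScalars K)
  let Ay := G.shift φ c₀ y₂
  let Bz := G.shift φ c₀ z
  -- dimensions
  have hy1 : tdim Ω₀ (Set.range y) ≤ 1 := tdim_vals_range_le_one (K := K) y
  have hηy : ((g + 1 : ℕ) : ℕ∞) ≤ tdim Ω₀ (η'.vals ∪ Set.range y) := by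
    have h1 := tdim_const_union (E := EΩ) hη
    rw [← tdim_map (IsScalarTower.toAlgHom Ω₀ EΩ.F L)] at h1
    refine h1.trans (le_of_eq (congrArg (tdim Ω₀) ?_))
    rw [Set.image_union, ← Set.image_comp, ← Set.range_comp, hη', Space.Pt.vals_map, hy]
    congr 1
    refine Set.image_congr fun x _ => ?_
    exact (IsScalarTower.algebraMap_apply Ω EΩ.F L x).symm
  have hU : ((g + 2 : ℕ) : ℕ∞) ≤ tdim Ω₀ (η₂.vals ∪ (Set.range y₂ ∪ Set.range z)) := by
    have h1 := tdim_const_union (E := E) hηy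
    rw [← tdim_map (IsScalarTower.toAlgHom Ω₀ E.F U)] at h1
    refine h1.trans (le_of_eq (congrArg (tdim Ω₀) ?_))
    rw [Set.image_union, ← Set.image_comp, ← Set.range_comp, ← Set.union_assoc]
    rw [show η₂.vals = (fun x => algebraMap L U x) '' η'.vals from Space.Pt.vals_map _ _]
    rw [show Set.range y₂ = (fun x => algebraMap L U x) '' Set.range y from Set.range_comp (fun x => algebraMap L U x) y,
      ← Set.image_union]
    refine congrArg₂ (· ∪ ·) ?_ rfl
    exact Set.image_congr fun x _ => (IsScalarTower.algebraMap_apply L E.F U x).symm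
  have hS2 : tdim Ω₀ (Set.range y₂ ∪ Set.range z) ≤ ((2 : ℕ) : ℕ∞) :=
    (tdim_union_le _ _ _).trans ((add_le_add (tdim_vals_range_le_one (K := K) y₂)
      (tdim_vals_range_le_one (K := K) z)).trans (by norm_num))
  have hAy : Ay.vals ⊆ IntermediateField.adjoin K (Set.range y₂ ∪ Set.range z) :=
    (G.vals_shift φ c₀ y₂).trans (IntermediateField.adjoin.mono K _ _ Set.subset_union_left)
  have hBz : (-Bz).vals ⊆ IntermediateField.adjoin K (Set.range y₂ ∪ Set.range z) :=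
    (G.vals_neg (G.vals_shift φ c₀ z)).trans
      (IntermediateField.adjoin.mono K _ _ Set.subset_union_right)
  have hη₂ : (g : ℕ∞) ≤ tdim Ω₀ η₂.vals := by
    rw [Law.tdim_map_pt, hη', Space.Pt.vals_map]
    exact hη.trans (tdim_map (IsScalarTower.toAlgHom Ω₀ Ω L) _).ge
  have hgenU : G.GenCube Ω₀ η₂ Ay Bz := by
    refine ⟨?_, G.tdim_add_generic hU hS2 hAy, ?_, hη₂⟩
    · rw [sub_eq_add_neg, add_assoc]
      exact G.tdim_add_generic hU hS2 (G.vals_add hAy hBz)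
    · rw [sub_eq_add_neg]
      exact G.tdim_add_generic hU hS2 hBz
  have hη'g : (g : ℕ∞) ≤ tdim Ω₀ η'.vals := by
    rw [hη', Space.Pt.vals_map]
    exact hη.trans (tdim_map (IsScalarTower.toAlgHom Ω₀ Ω L) _).ge
  have hgenψ : (g : ℕ∞) ≤ tdim Ω₀ (η' + ψ).vals :=
    G.tdim_add_generic hηy (by exact_mod_cast hy1) (G.vals_shift φ c₀ y)
  have hgenψ' : (g : ℕ∞) ≤ tdim Ω₀ (η' - ψ).vals := by
    rw [sub_eq_add_neg]
    exact G.tdim_add_generic hηy (by exact_mod_cast hy1) (G.vals_neg (G.vals_shift φ c₀ y))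
  -- residue maps on the first point
  obtain ⟨A₁, π₁, -, -, hπ₁, hw₁⟩ := exists_residual_place L (liftPlace EΩ.ι EΩ.hι x₀)
  -- a residue map over `L` at a given place of the second point
  have hres : ∀ w : Place L E.F, ∃ (A : ValuationSubring U) (π : A →+* L) (lk : Link EU E π),
      (∀ c : L, ∃ h : algebraMap L U c ∈ A, π ⟨_, h⟩ = c) ∧
      (∀ f : w.toValuationSubring, ∃ h : algebraMap E.F U f ∈ A, π ⟨_, h⟩ = resHom w f) ∧
      Space.IsSpec π η₂ η' ∧ Space.IsSpec π Ay ψ := by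
    intro w
    obtain ⟨A, π, hπ, hloc, hL, hw⟩ := exists_residual_place U w
    have hc : ∀ c : Ω₀, ∃ h : algebraMap Ω₀ U c ∈ A, π ⟨_, h⟩ = algebraMap Ω₀ L c := fun c => by
      obtain ⟨h, h'⟩ := hL (algebraMap Ω₀ L c)
      exact ⟨(IsScalarTower.algebraMap_apply Ω₀ L U c).symm ▸ h,
        (congrArg π (Subtype.ext (IsScalarTower.algebraMap_apply Ω₀ L U c))).trans h'⟩
    obtain ⟨lk⟩ := nonempty_link EU E hπ hloc hc
    refine ⟨A, π, lk, hL, hw, ?_, ?_⟩
    · exact isSpec_map (j.restrictScalars K) (AlgHom.id K L) η' fun x => hL _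
    · exact G.isSpec_shift lk.residual hc (fun f => hL (y f)) φ c₀
  -- the second point at the base point
  obtain ⟨A₂, π₂, lk₂, hπ₂, hw₂, hη₂s, hA₂⟩ := hres (liftPlace E.ι E.hι x₀)
  have hB₂ : Space.IsSpec π₂ Bz (0 : V.Pt L) :=
    G.isSpec_shift_zero lk₂.residual lk₂.compat (fun f => by
      obtain ⟨hm, hv⟩ := resHom_liftPlace E x₀ f
      obtain ⟨h, h'⟩ := hw₂ ⟨_, hm⟩
      exact ⟨h, h'.trans hv⟩) h₀
  have hgen0 : G.GenCube Ω₀ η' ψ (0 : V.Pt L) := by
    refine ⟨?_, hgenψ, ?_, hη'g⟩ <;> rw [sub_zero] <;> assumption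
  have hgenyy : G.GenCube Ω₀ η' ψ ψ := by
    refine ⟨?_, hgenψ, hgenψ', hη'g⟩
    rw [add_sub_cancel_right]; exact hη'g
  set c := G.cube φ EU a h η₂ Ay Bz
  have hc₂ : Model.divMap lk₂.smooth c ∈ Divisor.principal := by
    rw [lk₂.divMap_cube G φ a h hgenU hgen0 hη₂s hA₂ hB₂, Law.cube, sub_zero, sub_zero, sub_self,
      zero_sub, neg_add_cancel]
    exact zero_mem _
  have hdeg : Divisor.degree c = 0 := by
    simp only [c, Law.cube, map_add, map_sub]
    rw [degree_pdiv_invariant G φ EU a h hgenU.1 hgenU.2.2.2,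
      degree_pdiv_invariant G φ EU a h hgenU.2.1 hgenU.2.2.2,
      degree_pdiv_invariant G φ EU a h hgenU.2.2.1 hgenU.2.2.2]
    ring
  have hcprin : c ∈ Divisor.principal := by
    refine mem_principal_of_rigid EΩ E EU π₁ hπ₁ lk₂ hπ₂ hdeg hc₂ fun A π lk hext => ?_
    have hηs : Space.IsSpec π η₂ η := isSpec_map ((j.restrictScalars K).comp
        (IsScalarTower.toAlgHom K Ω L)) (AlgHom.id K Ω) η fun x => by
      obtain ⟨h1, h1'⟩ := hπ₁ (η.φ x)
      obtain ⟨h2, h2'⟩ := hext ⟨_, h1⟩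
      exact ⟨h2, h2'.trans h1'⟩
    have hA : letI := G.group Ω; Space.IsSpec π Ay (0 : V.Pt Ω) :=
      G.isSpec_shift_zero lk.residual lk.compat (fun f => by
        obtain ⟨hm, hv⟩ := resHom_liftPlace EΩ x₀ f
        obtain ⟨h1, h1'⟩ := hw₁ ⟨_, hm⟩
        obtain ⟨h2, h2'⟩ := hext ⟨_, h1⟩
        exact ⟨h2, h2'.trans (h1'.trans hv)⟩) h₀
    obtain ⟨r, hr, hr1⟩ := G.exists_spec_shift lk.residual lk.compat φ c₀ z
    exact lk.divMap_cube_zero G φ a h hgenU hη hr1 hηs hA hr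
  -- the second point at the first
  obtain ⟨w, hw⟩ := exists_place_values E y
  obtain ⟨A₃, π₃, lk₃, -, hw₃, hη₃, hA₃⟩ := hres w
  have hB₃ : Space.IsSpec π₃ Bz ψ := G.isSpec_shift lk₃.residual lk₃.compat (fun f => by
    obtain ⟨hm, hv⟩ := hw f
    obtain ⟨h, h'⟩ := hw₃ ⟨_, hm⟩
    exact ⟨h, h'.trans hv⟩) φ c₀
  have := lk₃.divMap_mem_principal hcprin
  rw [lk₃.divMap_cube G φ a h hgenU hgenyy hη₃ hA₃ hB₃, Law.cube, add_sub_cancel_right] at this
  convert this using 1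
  rw [two_zsmul]
  abel

end FLTAgent.AV
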