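import Fermat.Agent.AV.Curve.Config
import Fermat.Agent.AV.Const.Exists
import Fermat.Agent.AV.Const.Value

/-!
# Linked constant extensions and the specialisation of translated multiples
-/

set_option autoImplicit false
set_option linter.style.haveILetI false
set_option linter.unusedSectionVars false

noncomputable section

namespace FLTAgent.AV

open AlgebraicCurve FLTAgent.Curves FLTAgent.Jac27.Spread FLTAgent.Specialization IntermediateField

universe u

variable {K : Type u} [Field K] {g : ℕ} {V : Space K g}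
variable {Ω₀ F₀ L k : Type u} [Field Ω₀] [Field F₀] [Field L] [Field k] [Algebra K Ω₀]
  [Algebra K F₀] [Algebra Ω₀ F₀] [IsScalarTower K Ω₀ F₀] [Algebra K L] [Algebra Ω₀ L]
  [IsScalarTower K Ω₀ L] [Algebra K k] [Algebra Ω₀ k] [IsScalarTower K Ω₀ k]
  [IsAlgClosed Ω₀] [IsFunctionField Ω₀ F₀] [IsAlgClosed L] [IsAlgClosed k]

theorem nonempty_ext : Nonempty (Ext K Ω₀ F₀ L) := by
  obtain ⟨F, _, _, _, _, ff, ι, hι⟩ := Const.exists_constExt (L₀ := Ω₀) L F₀
  letI : Algebra K F := ((algebraMap L F).comp (algebraMap K L)).toAlgebra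
  haveI : IsScalarTower K L F := IsScalarTower.of_algebraMap_eq fun _ => rfl
  haveI : IsScalarTower K Ω₀ F := IsScalarTower.of_algebraMap_eq fun c => by
    show algebraMap L F (algebraMap K L c) = _
    rw [IsScalarTower.algebraMap_apply K Ω₀ L, ← IsScalarTower.algebraMap_apply Ω₀ L F]
  exact ⟨{ F := F, ff := ff, ι := ι, hι := hι }⟩

/-- Two constant extensions of one curve linked by a smooth model along a residue map. -/
structure Link (E : Ext K Ω₀ F₀ L) (Ek : Ext K Ω₀ F₀ k) {A : ValuationSubring L}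
    (π : A →+* k) where
  M : Model π E.F Ek.F
  smooth : M.Smooth
  res : ∀ f, M.Res (E.ι f) (Ek.ι f)
  isLocal : IsLocalHom π
  compat : ∀ c : Ω₀, ∃ h : algebraMap Ω₀ L c ∈ A, π ⟨_, h⟩ = algebraMap Ω₀ k c

theorem nonempty_link (E : Ext K Ω₀ F₀ L) (Ek : Ext K Ω₀ F₀ k) {A : ValuationSubring L}
    {π : A →+* k} (hπ : Function.Surjective π) (hl : IsLocalHom π)
    (hπ₀ : ∀ c : Ω₀, ∃ h : algebraMap Ω₀ L c ∈ A, π ⟨_, h⟩ = algebraMap Ω₀ k c) :
    Nonempty (Link E Ek π) := by
  obtain ⟨M, hM, hres⟩ := Const.exists_model E.ι Ek.ι E.hι Ek.hι hπ hπ₀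
  exact ⟨⟨M, hM, hres, hl, hπ₀⟩⟩

variable {E : Ext K Ω₀ F₀ L} {Ek : Ext K Ω₀ F₀ k} {A : ValuationSubring L} {π : A →+* k}

namespace Link

variable (lk : Link E Ek π)

include lk in
theorem residual : Residual (K := K) A π := by
  refine ⟨lk.isLocal, fun c => ?_⟩
  obtain ⟨h, he⟩ := lk.compat (algebraMap K Ω₀ c)
  have e : algebraMap K L c = algebraMap Ω₀ L (algebraMap K Ω₀ c) :=
    IsScalarTower.algebraMap_apply K Ω₀ L c
  refine ⟨e ▸ h, ?_⟩
  rw [IsScalarTower.algebraMap_apply K Ω₀ k, ← he]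
  exact congrArg π (Subtype.ext e)

/-- The integral functions form a valuation subring. -/
def gauss : ValuationSubring E.F :=
  { lk.M.O with
    mem_or_inv_mem' := fun f => (lk.M.total f).imp_right fun h => h.mem }

/-- The reduction of functions. -/
def red : lk.gauss →+* Ek.F := lk.M.red

theorem residual_gauss : Residual (K := K) lk.gauss lk.red := by
  refine ⟨⟨fun f hf => ?_⟩, fun c => ?_⟩
  · have h0 : lk.red f ≠ 0 := hf.ne_zero
    have hf0 : (f : E.F) ≠ 0 := fun h => h0 (by rw [show f = 0 from Subtype.ext h, map_zero])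
    exact IsUnit.of_mul_eq_one ⟨_, lk.M.inv_mem f h0⟩ (Subtype.ext (mul_inv_cancel₀ hf0))
  · obtain ⟨h, he⟩ := lk.residual.2 c
    have e : algebraMap K E.F c = algebraMap L E.F (algebraMap K L c) :=
      IsScalarTower.algebraMap_apply K L E.F c
    refine ⟨e ▸ lk.M.algebraMap_mem ⟨_, h⟩, ?_⟩
    rw [IsScalarTower.algebraMap_apply K k Ek.F, ← he, ← lk.M.red_algebraMap ⟨_, h⟩]
    exact congrArg lk.M.red (Subtype.ext e)

/-- Reduction takes a translated multiple to the translated multiple. -/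
theorem isSpec_red (G : Law V) (φ : V.Pt F₀) (a : ℤ) {q : V.Pt L} {qb : V.Pt k}
    (hq : Space.IsSpec π q qb) :
    Space.IsSpec lk.red (G.curvePt φ E a q) (G.curvePt φ Ek a qb) := by
  letI := G.group E.F
  letI := G.group Ek.F
  refine G.spec_add _ lk.residual_gauss (isSpec_zsmul G lk.residual_gauss
    (isSpec_map E.ιK Ek.ιK φ fun x => lk.res _) a) ?_
  obtain ⟨z, w⟩ := hq
  refine ⟨z, fun x => ?_⟩
  obtain ⟨h, he⟩ := w x
  refine ⟨lk.M.algebraMap_mem ⟨_, h⟩, ?_⟩
  show _ = algebraMap k Ek.F (qb.φ x)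
  rw [← he]
  exact lk.M.red_algebraMap ⟨_, h⟩

/-- The residue map at a place composed with the residue map of the constants. -/
abbrev compO (Q : Place L E.F) : ValuationSubring E.F :=
  compSubring Q.toValuationSubring (resHom Q) (isLocalHom_resHom Q) A

theorem nonneg_of_place {v : Place k Ek.F} {f : F₀} (hf : 0 ≤ v.ord (Ek.ι f)) (Q : Place L E.F)
    (hQ : Model.place lk.smooth Q = v) : 0 ≤ Q.ord (E.ι f) := by
  by_contra hneg
  obtain ⟨v₀, rfl⟩ := mem_range_liftPlace E.ι E.hι (w := Q) (t := f) (by omega)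
  rw [Const.place_liftPlace E.ι Ek.ι E.hι Ek.hι lk.smooth lk.res] at hQ
  rw [← hQ, ord_liftPlace] at hf
  rw [ord_liftPlace] at hneg
  exact hneg hf

/-- At places over `v` the values of the point reduce to its value at `v`. -/
theorem isSpec_place (G : Law V) (φ : V.Pt F₀) (a : ℤ) {q : V.Pt L} {qb : V.Pt k}
    (hq : Space.IsSpec π q qb) {v : Place k Ek.F} {Q : Place L E.F}
    (hQ : Model.place lk.smooth Q = v) {T : V.Pt k}
    (hT : Space.IsSpec (resHom v) (G.curvePt φ Ek a qb) T) :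
    Space.IsSpec (compHom Q.toValuationSubring (resHom Q) (isLocalHom_resHom Q) A π)
      (G.curvePt φ E a q) T := by
  letI := G.group E.F
  letI := G.group Ek.F
  letI := G.group k
  have hW : Residual (K := K) (compO Q) (compHom _ _ (isLocalHom_resHom Q) A π) :=
    residual_comp _ _ A π (residual_resHom Q) lk.residual
  obtain ⟨φv, hφv, -⟩ := G.exists_spec (resHom v) (residual_resHom v) (φ.map Ek.ιK)
  have hqv : Space.IsSpec (resHom v) (qb.map Ek.cK) (qb.map (AlgHom.id K k)) :=
    isSpec_map _ _ _ fun x => ⟨v.algebraMap_mem' _, resHom_algebraMap v _ _⟩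
  rw [Space.Pt.map_id'] at hqv
  have hT' : T = a • φv + qb :=
    (G.exists_spec (resHom v) (residual_resHom v) _).unique hT
      (G.spec_add _ (residual_resHom v) (isSpec_zsmul G (residual_resHom v) hφv a) hqv)
  rw [hT']
  refine G.spec_add _ hW (isSpec_zsmul G hW ?_ a) ?_
  · obtain ⟨z, w⟩ := hφv
    refine ⟨z, fun x => ?_⟩
    obtain ⟨hm, he⟩ := w x
    set f := φ.φ (Subalgebra.inclusion (V.spz_le z) x)
    have hv0 : ∀ Q', Model.place lk.smooth Q' = v → 0 ≤ Q'.ord (E.ι f) := fun Q' hQ' => by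
      refine lk.nonneg_of_place ?_ Q' hQ'
      rcases eq_or_ne (Ek.ι f) 0 with h0 | h0
      · rw [h0, Place.ord_zero]
      · exact (mem_iff_ord_nonneg h0).1 hm
    obtain ⟨r, hr, hr'⟩ := Const.exists_value lk.smooth (lk.res f) hQ hv0
    have hfQ : E.ι f ∈ Q.toValuationSubring := ordGE_zero_iff_mem.1 (ordGE_of_le (hv0 Q hQ))
    have hval : resHom Q ⟨_, hfQ⟩ = (r : L) := resHom_eq_iff.2 hr
    refine ⟨⟨hfQ, hval ▸ r.2⟩, ?_⟩
    exact (congrArg π (Subtype.ext hval)).trans
      ((resHom_eq_iff (f := ⟨Ek.ι f, hm⟩) |>.2 hr').symm.trans he)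
  · obtain ⟨z, w⟩ := hq
    refine ⟨z, fun x => ?_⟩
    obtain ⟨h, he⟩ := w x
    have hc := resHom_algebraMap Q (q.φ (Subalgebra.inclusion (V.spz_le z) x)) (Q.algebraMap_mem' _)
    exact ⟨⟨Q.algebraMap_mem' _, hc.symm ▸ h⟩, (congrArg π (Subtype.ext hc)).trans he⟩

end Link

/-- The values of the curve's functions at a place span dimension at most one. -/
theorem tdim_values_le_one (E : Ext K Ω₀ F₀ L) (w : Place L E.F) :
    tdim Ω₀ {c : L | ∃ f : F₀, ∃ h : E.ι f ∈ w.toValuationSubring, resHom w ⟨_, h⟩ = c} ≤ 1 := by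
  classical
  by_cases hw : w ∈ Set.range (liftPlace E.ι E.hι)
  · obtain ⟨v, rfl⟩ := hw
    refine le_trans (tdim_mono Ω₀ (T := Set.range (algebraMap Ω₀ L)) ?_) ?_
    · rintro c ⟨f, h, rfl⟩
      have hv : f ∈ v.toValuationSubring := by
        rcases eq_or_ne f 0 with rfl | h0
        · exact v.toValuationSubring.zero_mem
        rw [mem_iff_ord_nonneg h0, ← ord_liftPlace E.ι E.hι v f]
        exact (mem_iff_ord_nonneg (by simpa using h0)).1 h
      refine ⟨resHom v ⟨f, hv⟩, (resHom_eq_iff.2 ?_).symm⟩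
      have h1 := valueAt_spec v ⟨f, hv⟩
      have e : E.ι (f - algebraMap Ω₀ F₀ (resHom v ⟨f, hv⟩)) =
          E.ι f - algebraMap L E.F (algebraMap Ω₀ L (resHom v ⟨f, hv⟩)) := by
        rw [map_sub, AlgHom.commutes, IsScalarTower.algebraMap_apply Ω₀ L E.F]
      show OrdGE _ 1 (E.ι f - _)
      rw [← e]
      rcases h1 with h1 | h1
      · exact Or.inl (by rw [show f - algebraMap Ω₀ F₀ (resHom v ⟨f, hv⟩) = 0 from h1, map_zero])
      · exact ordGE_of_le (by rw [ord_liftPlace]; exact h1)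
    · refine le_trans (tdim_le_of_subset (T := (∅ : Set L)) ?_)
        ((tdim_le_encard Ω₀ _).trans (by simp))
      rintro _ ⟨c, rfl⟩
      exact ((talg Ω₀ (∅ : Set L)).algebraMap_mem c)
  · have hord : ∀ f : F₀, w.ord (E.ι f) = 0 := fun f => by
      by_contra h
      exact hw (mem_range_liftPlace E.ι E.hι h)
    have hmem : ∀ f : F₀, E.ι f ∈ w.toValuationSubring := fun f => by
      rcases eq_or_ne (E.ι f) 0 with h0 | h0
      · rw [h0]; exact w.toValuationSubring.zero_mem
      · exact (mem_iff_ord_nonneg h0).2 (hord f).ge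
    let σ : F₀ →ₐ[Ω₀] L :=
      { toFun := fun f => resHom w ⟨E.ι f, hmem f⟩
        map_one' := by
          rw [← map_one (resHom w)]; exact congrArg (resHom w) (Subtype.ext (map_one E.ι))
        map_zero' := by
          rw [← map_zero (resHom w)]; exact congrArg (resHom w) (Subtype.ext (map_zero E.ι))
        map_add' := fun a b => by
          rw [← map_add (resHom w)]; exact congrArg (resHom w) (Subtype.ext (map_add E.ι a b))
        map_mul' := fun a b => by
          rw [← map_mul (resHom w)]; exact congrArg (resHom w) (Subtype.ext (map_mul E.ι a b))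
        commutes' := fun c => by
          refine resHom_eq_iff.2 ?_
          show OrdGE w 1 (E.ι (algebraMap Ω₀ F₀ c) - _)
          rw [AlgHom.commutes, ← IsScalarTower.algebraMap_apply Ω₀ L E.F, sub_self]
          exact ordGE_zero _ _ }
    refine le_trans (tdim_mono Ω₀ (T := σ '' Set.univ) ?_) ((tdim_map σ _).le.trans tdim_univ_le_one)
    rintro c ⟨f, h, rfl⟩
    exact ⟨f, trivial, rfl⟩

end FLTAgent.AV
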