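import Fermat.Agent.AV.Curve.Tools
import Fermat.Agent.AV.Const.Residual

/-!
# Residue maps through places and poles, points of the curve
-/

set_option autoImplicit false
set_option linter.style.haveILetI false
set_option linter.unusedSectionVars false

noncomputable section

namespace FLTAgent.AV

open AlgebraicCurve FLTAgent.Curves FLTAgent.Jac27.Spread IntermediateField

universe u

/-- A residue map at a place extends to every extension of the function field. -/
theorem exists_residual_place {L F : Type u} [Field L] [Field F] [Algebra L F] [IsAlgClosed L]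
    [IsFunctionField L F] (U : Type u) [Field U] [Algebra F U] [Algebra L U] [IsScalarTower L F U]
    (w : Place L F) :
    ∃ (A : ValuationSubring U) (π : A →+* L), Function.Surjective π ∧ IsLocalHom π ∧
      (∀ c : L, ∃ h : algebraMap L U c ∈ A, π ⟨_, h⟩ = c) ∧
      ∀ f : w.toValuationSubring, ∃ h : algebraMap F U f ∈ A, π ⟨_, h⟩ = resHom w f := by
  let R : Subring U := ((algebraMap F U).comp w.toValuationSubring.subtype).range
  let e : w.toValuationSubring ≃+* R :=
    RingEquiv.ofBijective ((algebraMap F U).comp w.toValuationSubring.subtype).rangeRestrict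
      ⟨fun x y h => Subtype.ext ((algebraMap F U).injective (congrArg Subtype.val h)),
        RingHom.rangeRestrict_surjective _⟩
  have hk : ∀ c : L, algebraMap L U c ∈ R := fun c =>
    ⟨⟨_, w.algebraMap_mem' c⟩, (IsScalarTower.algebraMap_apply L F U c).symm⟩
  have he : ∀ (x : w.toValuationSubring) (hm : algebraMap F U (x : F) ∈ R),
      ((resHom w).comp e.symm.toRingHom) ⟨_, hm⟩ = resHom w x := fun x hm =>
    congrArg (resHom w) (e.symm_apply_apply x)
  obtain ⟨A, π, hπ, hl, hext⟩ := Const.exists_residual R ((resHom w).comp e.symm.toRingHom) hk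
    fun c => by
      refine Eq.trans ?_ (resHom_algebraMap w c (w.algebraMap_mem' c))
      rw [← he ⟨_, w.algebraMap_mem' c⟩ ⟨⟨_, w.algebraMap_mem' c⟩, rfl⟩]
      exact congrArg _ (Subtype.ext (IsScalarTower.algebraMap_apply L F U c))
  refine ⟨A, π, hπ, hl, fun c => ?_, fun f => ?_⟩
  · obtain ⟨h, h'⟩ := hext ⟨_, hk c⟩
    refine ⟨h, h'.trans ?_⟩
    refine Eq.trans ?_ (resHom_algebraMap w c (w.algebraMap_mem' c))
    rw [← he ⟨_, w.algebraMap_mem' c⟩ ⟨⟨_, w.algebraMap_mem' c⟩, rfl⟩]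
    exact congrArg _ (Subtype.ext (IsScalarTower.algebraMap_apply L F U c))
  · obtain ⟨h, h'⟩ := hext ⟨algebraMap F U f, f, rfl⟩
    exact ⟨h, h'.trans (he f _)⟩

/-- A residue map extends so that a transcendental element becomes a pole. -/
theorem exists_residual_pole {L k : Type u} [Field L] [Field k] [IsAlgClosed L] [IsAlgClosed k]
    [Algebra k L] (U : Type u) [Field U] [Algebra L U] [Algebra k U] [IsScalarTower k L U]
    (A : ValuationSubring L) (π : A →+* k) (hk : ∀ c : k, ∃ h : algebraMap k L c ∈ A, π ⟨_, h⟩ = c)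
    {e : U} (he : ∀ c : L, algebraMap L U c ≠ e) :
    ∃ (A' : ValuationSubring U) (π' : A' →+* k), Function.Surjective π' ∧ IsLocalHom π' ∧
      (∀ x : A, ∃ h : algebraMap L U x ∈ A', π' ⟨_, h⟩ = π x) ∧
      ∃ h : e⁻¹ ∈ A', π' ⟨_, h⟩ = 0 := by
  have htr : Transcendental L e⁻¹ := fun halg =>
    (transcendental_of_ne_algebraMap (K := L) (t := e) fun c hc => he c hc.symm)
      (IsAlgebraic.inv_iff.1 halg)
  let ev : Polynomial A →+* U := Polynomial.eval₂RingHom ((algebraMap L U).comp A.subtype) e⁻¹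
  have hev : Function.Injective ev := by
    rw [injective_iff_map_eq_zero]
    intro p hp
    refine Polynomial.map_injective A.subtype Subtype.val_injective ?_
    rw [Polynomial.map_zero]
    refine transcendental_iff.1 htr _ ?_
    rw [Polynomial.aeval_def, Polynomial.eval₂_map]
    exact hp
  let eR : Polynomial A ≃+* ev.range := RingEquiv.ofBijective ev.rangeRestrict
    ⟨fun x y h => hev (congrArg Subtype.val h), RingHom.rangeRestrict_surjective _⟩
  let χ : ev.range →+* k := (π.comp (Polynomial.constantCoeff)).comp eR.symm.toRingHom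
  have hχ : ∀ (p : Polynomial A) (hm : ev p ∈ ev.range), χ ⟨ev p, hm⟩ = π (p.coeff 0) :=
    fun p hm => congrArg (fun q : Polynomial A => π (q.coeff 0)) (eR.symm_apply_apply p)
  have hC : ∀ x : A, ev (Polynomial.C x) = algebraMap L U x := fun x => Polynomial.eval₂_C _ _
  have hk' : ∀ c : k, algebraMap k U c = ev (Polynomial.C ⟨_, (hk c).1⟩) := fun c => by
    rw [hC]; exact IsScalarTower.algebraMap_apply k L U c
  obtain ⟨A', π', hπ', hl, hext⟩ := Const.exists_residual ev.range χ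
    (fun c => ⟨_, (hk' c).symm⟩) fun c => by
      refine Eq.trans (congrArg χ (Subtype.ext (hk' c) : _ = (⟨_, _, rfl⟩ : ev.range))) ?_
      exact (hχ _ _).trans ((congrArg π Polynomial.coeff_C_zero).trans (hk c).2)
  refine ⟨A', π', hπ', hl, fun x => ?_, ?_⟩
  · obtain ⟨h, h'⟩ := hext ⟨ev (Polynomial.C x), _, rfl⟩
    refine ⟨hC x ▸ h, (congrArg π' (Subtype.ext (hC x).symm)).trans (h'.trans ?_)⟩
    exact (hχ _ _).trans (congrArg π Polynomial.coeff_C_zero)
  · obtain ⟨h, h'⟩ := hext ⟨ev Polynomial.X, _, rfl⟩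
    have hX : ev Polynomial.X = e⁻¹ := Polynomial.eval₂_X _ _
    refine ⟨hX ▸ h, (congrArg π' (Subtype.ext hX.symm)).trans (h'.trans ?_)⟩
    exact (hχ _ _).trans ((congrArg π Polynomial.coeff_X_zero).trans (map_zero π))

variable {K : Type u} [Field K] {g : ℕ} {V : Space K g}
variable {Ω₀ F₀ L k : Type u} [Field Ω₀] [Field F₀] [Field L] [Field k] [Algebra K Ω₀]
  [Algebra K F₀] [Algebra Ω₀ F₀] [IsScalarTower K Ω₀ F₀] [Algebra K L] [Algebra Ω₀ L]
  [IsScalarTower K Ω₀ L] [Algebra K k] [Algebra Ω₀ k] [IsScalarTower K Ω₀ k]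
  [IsAlgClosed Ω₀] [IsFunctionField Ω₀ F₀]

/-- A residue map through which the embedded curve has its values at a given place. -/
def TakesPlace {A : ValuationSubring L} (π : A →+* k) (y : F₀ →ₐ[Ω₀] L) (x : Place Ω₀ F₀) :
    Prop :=
  ∀ f : x.toValuationSubring, ∃ h : y f ∈ A, π ⟨_, h⟩ = algebraMap Ω₀ k (resHom x f)

theorem isSpec_of_place {A : ValuationSubring L} {π : A →+* k} {y : F₀ →ₐ[Ω₀] L}
    {x : Place Ω₀ F₀} (hy : TakesPlace π y x) {φ : V.Pt F₀} {c₀ : V.Pt Ω₀}
    (hc : Space.IsSpec (resHom x) φ c₀) :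
    Space.IsSpec π (φ.map (y.restrictScalars K)) (c₀.map (IsScalarTower.toAlgHom K Ω₀ k)) := by
  obtain ⟨z, w⟩ := hc
  refine ⟨z, fun a => ?_⟩
  obtain ⟨hm, he⟩ := w a
  obtain ⟨h, h'⟩ := hy ⟨_, hm⟩
  exact ⟨h, h'.trans (congrArg (algebraMap Ω₀ k) he)⟩

variable [IsAlgClosed L]

theorem resHom_liftPlace (E : Ext K Ω₀ F₀ L) (v : Place Ω₀ F₀) (f : v.toValuationSubring) :
    ∃ h : E.ι f ∈ (liftPlace E.ι E.hι v).toValuationSubring,
      resHom (liftPlace E.ι E.hι v) ⟨_, h⟩ = algebraMap Ω₀ L (resHom v f) := by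
  have hm : E.ι f ∈ (liftPlace E.ι E.hι v).toValuationSubring := by
    refine ordGE_zero_iff_mem.1 ?_
    rcases ordGE_zero_iff_mem.2 f.2 with h | h
    · exact Or.inl (by rw [h, map_zero])
    · exact ordGE_of_le (by rw [ord_liftPlace]; exact h)
  refine ⟨hm, resHom_eq_iff.2 ?_⟩
  have e : E.ι ((f : F₀) - algebraMap Ω₀ F₀ (resHom v f)) =
      E.ι f - algebraMap L E.F (algebraMap Ω₀ L (resHom v f)) := by
    rw [map_sub, AlgHom.commutes, IsScalarTower.algebraMap_apply Ω₀ L E.F]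
  show OrdGE _ 1 (E.ι f - _)
  rw [← e]
  rcases valueAt_spec v f with h1 | h1
  · exact Or.inl (by rw [show (f : F₀) - algebraMap Ω₀ F₀ (resHom v f) = 0 from h1, map_zero])
  · exact ordGE_of_le (by rw [ord_liftPlace]; exact h1)

/-- A point of the curve with values in the constants is a place. -/
theorem exists_place_values (E : Ext K Ω₀ F₀ L) (y : F₀ →ₐ[Ω₀] L) :
    ∃ w : Place L E.F, ∀ f : F₀, ∃ h : E.ι f ∈ w.toValuationSubring,
      resHom w ⟨_, h⟩ = y f := by
  classical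
  let Φ : TensorProduct Ω₀ L F₀ →ₐ[Ω₀] E.F :=
    Algebra.TensorProduct.lift (IsScalarTower.toAlgHom Ω₀ L E.F) E.ι fun _ _ => Commute.all _ _
  let Ψ : TensorProduct Ω₀ L F₀ →ₐ[Ω₀] L :=
    Algebra.TensorProduct.lift (AlgHom.id Ω₀ L) y fun _ _ => Commute.all _ _
  have hΦ : Function.Injective Φ := by
    rw [injective_iff_map_eq_zero]
    intro x hx
    let b := Module.Basis.ofVectorSpace Ω₀ F₀
    obtain ⟨m, rfl⟩ := TensorProduct.eq_repr_basis_right b x
    rw [Finsupp.sum, map_sum] at hx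
    simp only [Φ, Algebra.TensorProduct.lift_tmul, IsScalarTower.toAlgHom_apply] at hx
    rw [Finsupp.sum]
    refine Finset.sum_eq_zero fun i hi => ?_
    set s := m.support
    let e := s.equivFin.symm
    have hli : LinearIndependent Ω₀ fun j : Fin s.card => b (e j : s) :=
      b.linearIndependent.comp _ (Subtype.val_injective.comp e.injective)
    have h1 : ∑ j : Fin s.card, m (e j : s) • (E.ι ∘ fun j => b (e j : s)) j = 0 := by
      rw [← Finset.sum_coe_sort, ← Fintype.sum_equiv e _ _ (fun j => rfl)] at hx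
      simpa [Algebra.smul_def] using hx
    have h2 := Fintype.linearIndependent_iff.1 (linearIndependent_map E.ι E.hι hli) _ h1
      (e.symm ⟨i, hi⟩)
    simp only [Equiv.apply_symm_apply] at h2
    rw [show m i = 0 from h2, TensorProduct.zero_tmul]
  let eR : TensorProduct Ω₀ L F₀ ≃+* Φ.toRingHom.range :=
    RingEquiv.ofBijective Φ.toRingHom.rangeRestrict
      ⟨fun a b h => hΦ (congrArg Subtype.val h), RingHom.rangeRestrict_surjective _⟩
  let χ : Φ.toRingHom.range →+* L := Ψ.toRingHom.comp eR.symm.toRingHom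
  have hχ : ∀ (p) (hm : Φ p ∈ Φ.toRingHom.range), χ ⟨Φ p, hm⟩ = Ψ p :=
    fun p hm => congrArg Ψ (eR.symm_apply_apply p)
  have hc : ∀ c : L, algebraMap L E.F c = Φ (c ⊗ₜ 1) := fun c => by
    show _ = Φ (c ⊗ₜ 1)
    rw [Algebra.TensorProduct.lift_tmul, map_one, mul_one]; rfl
  obtain ⟨A, π, -, hl, hext⟩ := Const.exists_residual Φ.toRingHom.range χ
    (fun c => ⟨_, (hc c).symm⟩) fun c => by
      refine Eq.trans (congrArg χ (Subtype.ext (hc c) : _ = (⟨_, _, rfl⟩ : Φ.toRingHom.range))) ?_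
      exact (hχ _ _).trans ((Algebra.TensorProduct.lift_tmul _ _ _ _ _).trans
        ((congrArg (_ * ·) (map_one y)).trans (mul_one _)))
  have hι : ∀ f, ∃ h : E.ι f ∈ A, π ⟨_, h⟩ = y f := fun f => by
    have e : Φ ((1 : L) ⊗ₜ f) = E.ι f := by
      rw [Algebra.TensorProduct.lift_tmul, map_one, one_mul]
    obtain ⟨h, h'⟩ := hext ⟨Φ ((1 : L) ⊗ₜ f), _, rfl⟩
    refine ⟨e ▸ h, (congrArg π (Subtype.ext e.symm)).trans (h'.trans ((hχ _ _).trans ?_))⟩
    exact (Algebra.TensorProduct.lift_tmul _ _ _ _ _).trans (one_mul _)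
  have hL : ∀ c, ∃ h : algebraMap L E.F c ∈ A, π ⟨_, h⟩ = c := fun c => by
    obtain ⟨h, h'⟩ := hext ⟨Φ (c ⊗ₜ 1), _, rfl⟩
    refine ⟨hc c ▸ h, (congrArg π (Subtype.ext (hc c))).trans (h'.trans ((hχ _ _).trans ?_))⟩
    exact (Algebra.TensorProduct.lift_tmul _ _ _ _ _).trans
      ((congrArg (_ * ·) (map_one y)).trans (mul_one _))
  have hzero : ∀ (d : A) (hd : π d = 0), (d : E.F) ≠ 0 → (d : E.F)⁻¹ ∉ A := fun d hd h0 hi => by
    have : π d * π ⟨_, hi⟩ = 1 := by
      rw [← map_mul, ← map_one π]; exact congrArg π (Subtype.ext (mul_inv_cancel₀ h0))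
    rw [hd, zero_mul] at this
    exact zero_ne_one this
  obtain ⟨t, ht⟩ := E.hι.trans
  have htop : A ≠ ⊤ := fun hA => by
    obtain ⟨h, h'⟩ := hι t
    obtain ⟨hc', hc''⟩ := hL (y t)
    refine hzero (⟨_, h⟩ - ⟨_, hc'⟩) (by rw [map_sub, h', hc'', sub_self]) ?_
      ((SetLike.ext_iff.1 hA _).2 (ValuationSubring.mem_top _))
    intro e
    have e' : E.ι t = algebraMap L E.F (y t) := sub_eq_zero.1 e
    rw [e'] at ht
    exact ht (isAlgebraic_algebraMap _)
  refine ⟨placeOfValuationSubring A (fun c => (hL c).1) htop, fun f => ?_⟩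
  obtain ⟨h, h'⟩ := hι f
  obtain ⟨hc', hc''⟩ := hL (y f)
  refine ⟨h, resHom_eq_iff.2 ?_⟩
  set w := placeOfValuationSubring A (fun c => (hL c).1) htop
  set d : A := ⟨_, h⟩ - ⟨_, hc'⟩
  show OrdGE w 1 (d : E.F)
  rcases eq_or_ne (d : E.F) 0 with h0 | h0
  · exact Or.inl h0
  refine ordGE_of_le ?_
  have h1 : ¬ 0 ≤ w.ord (d : E.F)⁻¹ := fun hn =>
    hzero d (by rw [map_sub, h', hc'', sub_self]) h0 ((mem_iff_ord_nonneg (inv_ne_zero h0)).2 hn)
  rw [Place.ord_inv] at h1
  omega

end FLTAgent.AV
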