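import Fermat.Agent.AV.Curve.Link

/-!
# Pole divisors along translates depend after specialisation only on the translation

At every place of the reduced curve a rational function is a reduced fraction in a factorial local
ring, and its denominator computes the specialised pole divisor.
-/

set_option autoImplicit false
set_option linter.style.haveILetI false
set_option linter.unusedSectionVars false

noncomputable section

namespace FLTAgent.AV

open AlgebraicCurve FLTAgent.Curves FLTAgent.Jac27.Spread FLTAgent.Specialization IntermediateField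

universe u

variable {K : Type u} [Field K] {g : ℕ} {V : Space K g}

/-- The denominator of a reduced fraction is a unit at a generalisation where it is regular. -/
theorem inv_den_mem {s t : V.Q} [UniqueFactorizationMonoid (V.O t)] (hz : V.Spz s t)
    {u w : V.O t} (hw : (w : V.N) ≠ 0)
    (hc : IsRelPrime u w) (hh : (u : V.N) / w ∈ V.O s) : (w : V.N)⁻¹ ∈ V.O s := by
  obtain ⟨c, hc', d, hd', hd0, hdi, he⟩ := V.spz_frac hz _ hh
  rw [div_eq_div_iff hw hd0] at he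
  have h1 : w ∣ u * ⟨d, hd'⟩ := ⟨⟨c, hc'⟩, Subtype.ext (he.trans (mul_comm _ _))⟩
  obtain ⟨e, hed⟩ := hc.symm.dvd_of_dvd_mul_left h1
  have h2 : d = (w : V.N) * e := congrArg Subtype.val hed
  have h3 : (w : V.N)⁻¹ = (e : V.N) * d⁻¹ := by
    rw [h2]
    have he0 : (e : V.N) ≠ 0 := fun h => hd0 (by rw [h2, h, mul_zero])
    field_simp
  rw [h3]
  exact (V.O s).mul_mem (V.spz_le hz e.2) hdi

variable {Ω₀ F₀ L k : Type u} [Field Ω₀] [Field F₀] [Field L] [Field k] [Algebra K Ω₀]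
  [Algebra K F₀] [Algebra Ω₀ F₀] [IsScalarTower K Ω₀ F₀] [Algebra K L] [Algebra Ω₀ L]
  [IsScalarTower K Ω₀ L] [Algebra K k] [Algebra Ω₀ k] [IsScalarTower K Ω₀ k]
  [IsAlgClosed Ω₀] [IsFunctionField Ω₀ F₀] [IsAlgClosed L] [IsAlgClosed k]

/-- The pole divisor of a function along a translated multiple of the point. -/
def Law.pdiv (G : Law V) (φ : V.Pt F₀) (E : Ext K Ω₀ F₀ L) (a : ℤ) (q : V.Pt L) (h : V.N) :
    Divisor L E.F :=
  poleDiv L ((G.curvePt φ E a q).eval h)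

theorem Law.q_curvePt (G : Law V) (φ : V.Pt F₀) (E : Ext K Ω₀ F₀ L) (a : ℤ) {q : V.Pt L}
    (hq : (g : ℕ∞) ≤ tdim Ω₀ q.vals) : (G.curvePt φ E a q).q = V.gen :=
  G.q_eq_gen _ (Space.Pt.dimGE_of_tdim _ (G.tdim_curvePt φ E a hq))

/-- The value of a translated multiple at a place loses at most one dimension. -/
theorem Law.tdim_spec_place (G : Law V) (φ : V.Pt F₀) (E : Ext K Ω₀ F₀ L) (a : ℤ) {q : V.Pt L}
    {m : ℕ} (hq : (m : ℕ∞) ≤ tdim Ω₀ q.vals) {w : Place L E.F} {S : V.Pt L}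
    (hS : Space.IsSpec (resHom w) (G.curvePt φ E a q) S) :
    ((m - 1 : ℕ) : ℕ∞) ≤ tdim Ω₀ S.vals := by
  letI := G.group E.F
  letI := G.group L
  obtain ⟨φw, hφw, -⟩ := G.exists_spec (resHom w) (residual_resHom w) (φ.map E.ιK)
  have hqw : Space.IsSpec (resHom w) (q.map E.cK) (q.map (AlgHom.id K L)) :=
    isSpec_map _ _ _ fun x => ⟨w.algebraMap_mem' _, resHom_algebraMap w _ _⟩
  rw [Space.Pt.map_id'] at hqw
  have hS' : S = a • φw + q := (G.exists_spec (resHom w) (residual_resHom w) _).unique hS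
    (G.spec_add _ (residual_resHom w) (isSpec_zsmul G (residual_resHom w) hφw a) hqw)
  have hsub : φw.vals ⊆
      {c : L | ∃ f : F₀, ∃ h : E.ι f ∈ w.toValuationSubring, resHom w ⟨_, h⟩ = c} := by
    obtain ⟨z, hv⟩ := hφw
    rintro _ ⟨x, rfl⟩
    obtain ⟨hm, he⟩ := hv x
    exact ⟨_, hm, he⟩
  have h1 : tdim Ω₀ (a • φw).vals ≤ 1 := by
    refine le_trans (Law.tdim_of_le (G.vals_zsmul ?_ a)) (tdim_values_le_one E w)
    exact hsub.trans (IntermediateField.subset_adjoin K _)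
  have h2 := hq.trans ((G.tdim_le_add (B := Ω₀) q (a • φw)).trans (add_le_add le_rfl h1))
  rw [add_comm q, ← hS'] at h2
  rcases m with _ | m
  · exact bot_le
  · rw [Nat.cast_add, Nat.cast_one] at h2
    simpa using (ENat.add_le_add_iff_right ENat.one_ne_top).1 h2

theorem mapDomain_apply_congr {α β M : Type*} [AddCommGroup M] (f : α → β) {D D' : α →₀ M}
    {b : β} (h : ∀ a, f a = b → D a = D' a) :
    Finsupp.mapDomain f D b = Finsupp.mapDomain f D' b := by
  classical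
  rw [← sub_eq_zero, ← Finsupp.sub_apply, ← Finsupp.mapDomain_sub, Finsupp.mapDomain, Finsupp.sum,
    Finsupp.finsetSum_apply]
  refine Finset.sum_eq_zero fun a _ => ?_
  rw [Finsupp.single_apply]
  split_ifs with ha
  · rw [Finsupp.sub_apply, h a ha, sub_self]
  · rfl

variable {E : Ext K Ω₀ F₀ L} {Ek : Ext K Ω₀ F₀ k} {A : ValuationSubring L} {π : A →+* k}

/-- A function is a reduced fraction in a factorial local ring. -/
theorem exists_den (t : V.Q) [UniqueFactorizationMonoid (V.O t)] (h : V.N) :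
    ∃ u w : V.O t, (w : V.N) ≠ 0 ∧ IsRelPrime w u ∧ h = (u : V.N) / w := by
  obtain ⟨c, hc, d, hd, hd0, rfl⟩ := V.exists_frac t h
  obtain ⟨w, u, e, hrel, hew, heu⟩ := UniqueFactorizationMonoid.exists_reduced_factors
    (⟨d, hd⟩ : V.O t) (fun h => hd0 (congrArg Subtype.val h)) ⟨c, hc⟩
  have hdw : d = (e : V.N) * w := (congrArg Subtype.val hew).symm
  have hcu : c = (e : V.N) * u := (congrArg Subtype.val heu).symm
  have hw0 : (w : V.N) ≠ 0 := fun h => hd0 (by rw [hdw, h, mul_zero])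
  have he0 : (e : V.N) ≠ 0 := fun h => hd0 (by rw [hdw, h, zero_mul])
  exact ⟨u, w, hw0, hrel, by rw [hdw, hcu, mul_div_mul_left _ _ he0]⟩

/-- The poles of a function at a place are the zeros of its denominator there. -/
theorem Law.pdiv_apply_den (G : Law V) (φ : V.Pt F₀) (E : Ext K Ω₀ F₀ L) (a : ℤ) {q : V.Pt L}
    (hq : (g : ℕ∞) ≤ tdim Ω₀ q.vals) {Q : Place L E.F} {S : V.Pt L}
    (hS : Space.IsSpec (resHom Q) (G.curvePt φ E a q) S) {t : V.Q}
    [UniqueFactorizationMonoid (V.O t)] (zS : V.Spz S.q t) {u w : V.O t} (hw0 : (w : V.N) ≠ 0)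
    (hrel : IsRelPrime w u)
    (huQ : (G.curvePt φ E a q).eval (u : V.N) ∈ Q.toValuationSubring)
    (hwQ : (G.curvePt φ E a q).eval (w : V.N) ∈ Q.toValuationSubring) :
    G.pdiv φ E a q ((u : V.N) / w) Q = Q.ord ((G.curvePt φ E a q).eval (w : V.N)) := by
  have hgen := G.q_curvePt φ E a hq
  set P := G.curvePt φ E a q
  have hval := G.val_or S (g - 1) (by omega)
    (Space.Pt.dimGE_of_tdim S (G.tdim_spec_place φ E a hq hS)) ((u : V.N) / w)
  have hne : ∀ x : V.N, x ∈ V.O S.q → x⁻¹ ∈ V.O S.q → x ≠ 0 → Q.ord (P.eval x) = 0 := by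
    intro x hx hxi hx0
    obtain ⟨hm, he⟩ := IsSpec.eval hS hx
    exact ord_eq_zero_of_resHom_ne (f := ⟨_, hm⟩)
      (he.symm ▸ S.eval_ne_zero_of_inv_mem hx0 hx hxi)
  have hPu : P.eval ((u : V.N) / w) = P.eval (u : V.N) / P.eval (w : V.N) := by
    simp only [← Space.Pt.evalHom_apply P hgen, map_div₀]
  have hPw : P.eval (w : V.N) ≠ 0 := P.eval_ne_zero hgen hw0
  show poleDiv L (P.eval ((u : V.N) / w)) Q = _
  rw [poleDiv_apply, hPu]
  have hw_nn : 0 ≤ Q.ord (P.eval (w : V.N)) := (mem_iff_ord_nonneg hPw).1 hwQ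
  rcases eq_or_ne (u : V.N) 0 with hu0 | hu0
  · have hi : (w : V.N)⁻¹ ∈ V.O S.q :=
      inv_den_mem zS hw0 hrel.symm (by rw [hu0, zero_div]; exact (V.O S.q).zero_mem)
    rw [hne _ (V.spz_le zS w.2) hi hw0, show P.eval (u : V.N) = 0 by
      rw [hu0, ← Space.Pt.evalHom_apply P hgen, map_zero], zero_div, Place.ord_zero]
    simp
  have hPu0 : P.eval (u : V.N) ≠ 0 := P.eval_ne_zero hgen hu0
  rw [ord_div Q hPu0 hPw]
  have hu_nn : 0 ≤ Q.ord (P.eval (u : V.N)) := (mem_iff_ord_nonneg hPu0).1 huQ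
  rcases hval with hv | hv
  · have := hne _ (V.spz_le zS w.2) (inv_den_mem zS hw0 hrel.symm hv) hw0
    omega
  · rw [inv_div] at hv
    have := hne _ (V.spz_le zS u.2) (inv_den_mem zS hu0 hrel hv) hu0
    omega

/-- The specialised pole divisor is the divisor of the denominator on the reduced curve. -/
theorem Link.divMap_pdiv_apply (lk : Link E Ek π) (G : Law V) (φ : V.Pt F₀) (a : ℤ)
    {q : V.Pt L} {qb : V.Pt k} (hq : (g : ℕ∞) ≤ tdim Ω₀ q.vals) (hs : Space.IsSpec π q qb)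
    {v : Place k Ek.F} {T : V.Pt k} (hT : Space.IsSpec (resHom v) (G.curvePt φ Ek a qb) T)
    [UniqueFactorizationMonoid (V.O T.q)] {u w : V.O T.q} (hw0 : (w : V.N) ≠ 0)
    (hrel : IsRelPrime w u) (hgood : (u : V.N) / w ∈ V.O (G.curvePt φ Ek a qb).q) :
    Model.divMap lk.smooth (G.pdiv φ E a q ((u : V.N) / w)) v =
      v.ord ((G.curvePt φ Ek a qb).eval (w : V.N)) := by
  obtain ⟨zT, -⟩ := id hT
  have hwi : (w : V.N)⁻¹ ∈ V.O (G.curvePt φ Ek a qb).q := inv_den_mem zT hw0 hrel.symm hgood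
  set wb := (G.curvePt φ Ek a qb).eval (w : V.N)
  have hwb : wb ≠ 0 :=
    (G.curvePt φ Ek a qb).eval_ne_zero_of_inv_mem hw0 (V.spz_le zT w.2) hwi
  set P := G.curvePt φ E a q
  obtain ⟨hwG, hwe⟩ := IsSpec.eval (lk.isSpec_red G φ a hs) (V.spz_le zT w.2)
  have hRes : lk.M.Res (P.eval (w : V.N)) wb := ⟨hwG, hwe⟩
  have h1 := congrArg (fun D : Divisor k Ek.F => D v) (Model.divMap_divOf lk.smooth hRes hwb)
  simp only [divOf_apply] at h1
  rw [← h1, Model.divMap_apply, Model.divMap_apply]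
  refine mapDomain_apply_congr _ fun Q hQ => ?_
  have hW := lk.isSpec_place G φ a hs hQ hT
  obtain ⟨⟨huQ, -⟩, -⟩ := IsSpec.eval hW u.2
  obtain ⟨⟨hwQ, -⟩, -⟩ := IsSpec.eval hW w.2
  obtain ⟨S, hS, -⟩ := G.exists_spec (resHom Q) (residual_resHom Q) P
  obtain ⟨T', hT', -⟩ := G.exists_spec π lk.residual S
  have hTT : T' = T := (G.exists_spec _
    (residual_comp _ _ A π (residual_resHom Q) lk.residual) P).unique
      (isSpec_comp _ _ (isLocalHom_resHom Q) A π hS hT') hW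
  subst hTT
  obtain ⟨zS, -⟩ := hT'
  rw [divOf_apply]
  exact G.pdiv_apply_den φ E a hq hS zS hw0 hrel huQ hwQ

/-- Translations with one specialisation give one specialised pole divisor. -/
theorem Link.divMap_pdiv_eq (lk : Link E Ek π) (G : Law V) (φ : V.Pt F₀) (a : ℤ) (h : V.N)
    {q q' : V.Pt L} {qb : V.Pt k} (hq : (g : ℕ∞) ≤ tdim Ω₀ q.vals)
    (hq' : (g : ℕ∞) ≤ tdim Ω₀ q'.vals) (hs : Space.IsSpec π q qb) (hs' : Space.IsSpec π q' qb)
    {m : ℕ} (hgm : g ≤ m + 1) (hqb : (m : ℕ∞) ≤ tdim Ω₀ qb.vals)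
    (hgood : h ∈ V.O (G.curvePt φ Ek a qb).q) :
    Model.divMap lk.smooth (G.pdiv φ E a q h) = Model.divMap lk.smooth (G.pdiv φ E a q' h) := by
  refine Finsupp.ext fun v => ?_
  obtain ⟨T, hT, -⟩ := G.exists_spec (resHom v) (residual_resHom v) (G.curvePt φ Ek a qb)
  haveI := G.ufd T (m - 1) (by omega) (Space.Pt.dimGE_of_tdim T (G.tdim_spec_place φ Ek a hqb hT))
  obtain ⟨u, w, hw0, hrel, rfl⟩ := exists_den T.q h
  rw [lk.divMap_pdiv_apply G φ a hq hs hT hw0 hrel hgood,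
    lk.divMap_pdiv_apply G φ a hq' hs' hT hw0 hrel hgood]

/-- With a generic specialisation, pole divisors specialise to pole divisors. -/
theorem Link.divMap_pdiv (lk : Link E Ek π) (G : Law V) (φ : V.Pt F₀) (a : ℤ) (h : V.N)
    {q : V.Pt L} {qb : V.Pt k} (hq : (g : ℕ∞) ≤ tdim Ω₀ q.vals)
    (hqb : (g : ℕ∞) ≤ tdim Ω₀ qb.vals) (hs : Space.IsSpec π q qb) :
    Model.divMap lk.smooth (G.pdiv φ E a q h) = G.pdiv φ Ek a qb h := by
  refine Finsupp.ext fun v => ?_
  obtain ⟨T, hT, -⟩ := G.exists_spec (resHom v) (residual_resHom v) (G.curvePt φ Ek a qb)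
  haveI := G.ufd T (g - 1) (by omega) (Space.Pt.dimGE_of_tdim T (G.tdim_spec_place φ Ek a hqb hT))
  obtain ⟨u, w, hw0, hrel, rfl⟩ := exists_den T.q h
  have hgen := G.q_curvePt φ Ek a hqb
  rw [lk.divMap_pdiv_apply G φ a hq hs hT hw0 hrel (hgen.symm ▸ Space.Pt.mem_O_gen _),
    G.pdiv_apply_den φ Ek a hqb hT (V.spz_refl _) hw0 hrel (IsSpec.eval hT u.2).1
      (IsSpec.eval hT w.2).1]

end FLTAgent.AV
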