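import Fermat.Agent.AV.Curve.Diagonal
import Fermat.Agent.AV.Curve.Rigid
import Fermat.Agent.AV.Curve.Linear

/-!
# The cube: the degree along a translate is quadratic in the multiplier
-/

set_option autoImplicit false
set_option linter.style.haveILetI false
set_option linter.unusedSectionVars false

noncomputable section

namespace FLTAgent.AV

open AlgebraicCurve FLTAgent.Curves FLTAgent.Jac27.Spread FLTAgent.Specialization IntermediateField

universe u

/-- A sequence with constant second difference is quadratic. -/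
theorem quadratic_of_second_difference (D : ℤ → ℤ)
    (h : ∀ a, D (a + 1) + D (a - 1) = 2 * D a + D 1 + D (-1)) (h0 : D 0 = 0) (n : ℕ) :
    D n + D (-n) = (n : ℤ) ^ 2 * (D 1 + D (-1)) := by
  induction n using Nat.strong_induction_on with
  | _ n ih =>
    rcases n with _ | _ | n
    · simp [h0]
    · simp
    · have h1 := h (n + 1)
      have h2 := h (-(n + 1 : ℤ))
      have i1 := ih (n + 1) (by omega)
      have i0 := ih n (by omega)
      push_cast at i1 i0 ⊢
      ring_nf at h1 h2 i1 i0 ⊢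
      linarith

variable {K : Type u} [Field K] {g : ℕ} {V : Space K g} {Ω₀ F₀ Ω : Type u} [Field Ω₀] [Field F₀]
  [Field Ω] [Algebra K Ω₀] [Algebra K F₀] [Algebra Ω₀ F₀] [IsScalarTower K Ω₀ F₀] [Algebra K Ω]
  [Algebra Ω₀ Ω] [IsScalarTower K Ω₀ Ω] [IsAlgClosed K] [IsAlgClosed Ω₀] [IsFunctionField Ω₀ F₀]
  [IsAlgClosed Ω]

theorem Law.degree_pdiv_zero (G : Law V) (φ : V.Pt F₀) (E : Ext K Ω₀ F₀ Ω) (η : V.Pt Ω) (h : V.N) :
    Divisor.degree (G.pdiv φ E 0 η h) = 0 := by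
  letI := G.group E.F
  have e : G.curvePt φ E 0 η = η.map E.cK := by rw [Law.curvePt, zero_zsmul, zero_add]
  have h0 : G.pdiv φ E 0 η h = 0 := Finsupp.ext fun v => by
    rw [Law.pdiv, e, Space.Pt.eval_map, poleDiv_apply]
    show max (-v.ord (algebraMap Ω E.F _)) 0 = 0
    rw [ord_algebraMap]
    rfl
  rw [h0, map_zero]

set_option maxHeartbeats 1000000 in
theorem Law.degree_second_difference (hL : TargetLinear.{u}) (G : Law V) (φ : V.Pt F₀)
    (EΩ : Ext K Ω₀ F₀ Ω) {η : V.Pt Ω} (hη : (g : ℕ∞) ≤ tdim Ω₀ η.vals) (h : V.N) (a : ℤ) :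
    Divisor.degree (G.pdiv φ EΩ (a + 1) η h) + Divisor.degree (G.pdiv φ EΩ (a - 1) η h) =
      2 * Divisor.degree (G.pdiv φ EΩ a η h) + Divisor.degree (G.pdiv φ EΩ 1 η h) +
        Divisor.degree (G.pdiv φ EΩ (-1) η h) := by
  let L := AlgebraicClosure EΩ.F
  haveI : IsScalarTower K EΩ.F L := inferInstance
  haveI : IsScalarTower Ω EΩ.F L := inferInstance
  haveI : IsScalarTower Ω₀ EΩ.F L := inferInstance
  haveI : IsScalarTower K Ω₀ L := IsScalarTower.of_algebraMap_eq fun c => by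
    rw [IsScalarTower.algebraMap_apply K EΩ.F L, IsScalarTower.algebraMap_apply Ω₀ EΩ.F L,
      ← IsScalarTower.algebraMap_apply K Ω₀ EΩ.F]
  haveI : IsScalarTower K Ω L := IsScalarTower.of_algebraMap_eq fun c => by
    rw [IsScalarTower.algebraMap_apply K EΩ.F L, IsScalarTower.algebraMap_apply Ω EΩ.F L,
      ← IsScalarTower.algebraMap_apply K Ω EΩ.F]
  haveI : IsScalarTower Ω₀ Ω L := IsScalarTower.of_algebraMap_eq fun c => by
    rw [IsScalarTower.algebraMap_apply Ω₀ EΩ.F L, IsScalarTower.algebraMap_apply Ω EΩ.F L,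
      ← IsScalarTower.algebraMap_apply Ω₀ Ω EΩ.F]
  letI := G.group L
  letI := G.group Ω
  obtain ⟨E⟩ := nonempty_ext (K := K) (Ω₀ := Ω₀) (F₀ := F₀) (L := L)
  obtain ⟨x₀, -⟩ := exists_notMem (K := Ω₀) (F := F₀) ∅
  obtain ⟨c₀, hc₀, -⟩ := G.exists_spec (resHom x₀) (residual_resHom x₀) φ
  set y := EΩ.gpt L
  set η' := η.map (IsScalarTower.toAlgHom K Ω L)
  set ψ := G.shift φ c₀ y
  obtain ⟨G1, hG1, hv⟩ := Divisor.mem_principal.1 (hL G EΩ E x₀ φ c₀ hc₀ η hη a h)
  have hq0 : G.qpt L φ c₀ η EΩ 0 = η' := by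
    show η' + (0 : ℤ) • ψ = η'
    rw [zero_zsmul, add_zero]
  have hq1 : G.qpt L φ c₀ η EΩ 1 = η' + ψ := by
    show η' + (1 : ℤ) • ψ = η' + ψ
    rw [one_zsmul]
  have hqm : G.qpt L φ c₀ η EΩ (-1) = η' - ψ := by
    show η' + (-1 : ℤ) • ψ = η' - ψ
    rw [neg_one_zsmul, ← sub_eq_add_neg]
  have hdiv : ∀ Q : Place L E.F, Q.ord G1 = 2 * G.pdiv φ E a (G.qpt L φ c₀ η EΩ 0) h Q -
      G.pdiv φ E a (G.qpt L φ c₀ η EΩ 1) h Q - G.pdiv φ E a (G.qpt L φ c₀ η EΩ (-1)) h Q := by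
    intro Q
    rw [← hv Q, hq0, hq1, hqm, Finsupp.sub_apply, Finsupp.sub_apply, Finsupp.smul_apply, smul_eq_mul]
    rfl
  obtain ⟨wy, hwy⟩ := exists_place_values E y
  set w0 := liftPlace E.ι E.hι x₀
  set c' := c₀.map (IsScalarTower.toAlgHom K Ω₀ L)
  have hy : ∀ s : ℤ, Space.IsSpec (resHom wy) (G.curvePt φ E a (G.qpt L φ c₀ η EΩ s))
      ((G.rpt φ c₀ η EΩ (a + s) (-s)).map (IsScalarTower.toAlgHom K EΩ.F L)) := fun s => by
    have := G.isSpec_curvePt φ E a (G.qpt L φ c₀ η EΩ s)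
      (isSpec_map E.ιK (y.restrictScalars K) φ (π := resHom wy) fun x => hwy _)
    rw [G.map_rpt]
    convert this using 1
    show (a + s) • φ.map (y.restrictScalars K) + (η' + (-s) • c') =
      a • φ.map (y.restrictScalars K) + (η' + s • (φ.map (y.restrictScalars K) - c'))
    rw [zsmul_sub, add_zsmul, neg_zsmul]
    abel
  have h0 : ∀ s : ℤ, Space.IsSpec (resHom w0) (G.curvePt φ E a (G.qpt L φ c₀ η EΩ s))
      ((G.rpt φ c₀ η EΩ s (a - s)).map (IsScalarTower.toAlgHom K EΩ.F L)) := fun s => by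
    have := G.isSpec_curvePt φ E a (G.qpt L φ c₀ η EΩ s)
      (isSpec_of_place (y := E.ι) (π := resHom w0) (resHom_liftPlace E x₀) hc₀)
    rw [G.map_rpt]
    convert this using 1
    show s • φ.map (y.restrictScalars K) + (η' + (a - s) • c') =
      a • c' + (η' + s • (φ.map (y.restrictScalars K) - c'))
    rw [zsmul_sub, sub_zsmul]
    abel
  -- the function has no zero or pole at the two places
  have hreg : ∀ (w : Place L E.F) (b j : ℤ → ℤ),
      (∀ s, Space.IsSpec (resHom w) (G.curvePt φ E a (G.qpt L φ c₀ η EΩ s))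
        ((G.rpt φ c₀ η EΩ (b s) (j s)).map (IsScalarTower.toAlgHom K EΩ.F L))) →
      ∃ hm : G1 ∈ w.toValuationSubring, resHom w ⟨G1, hm⟩ ≠ 0 := by
    intro w b j hw
    have hp : ∀ s, G.pdiv φ E a (G.qpt L φ c₀ η EΩ s) h w = 0 := fun s => by
      have hgen : (G.rpt φ c₀ η EΩ (b s) (j s)).q = V.gen := Law.q_rpt hη _ _
      obtain ⟨hm, -⟩ := IsSpec.eval (hw s) (h := h)
        (show h ∈ V.O ((G.rpt φ c₀ η EΩ (b s) (j s)).map _).q from hgen.symm ▸ Space.Pt.mem_O_gen h)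
      rw [Law.pdiv, poleDiv_apply]
      rcases eq_or_ne ((G.curvePt φ E a (G.qpt L φ c₀ η EΩ s)).eval h) 0 with e | e
      · rw [e, Place.ord_zero]; rfl
      · have := (mem_iff_ord_nonneg e).1 hm
        omega
    have hord : w.ord G1 = 0 := by rw [hdiv, hp, hp, hp]; rfl
    refine ⟨(mem_iff_ord_nonneg hG1).2 hord.ge, fun e => ?_⟩
    have h1 : (1 : ℤ) ≤ w.ord G1 := (resHom_eq_zero_iff.1 e).le_ord hG1
    omega
  obtain ⟨gy, hgy⟩ := hreg wy (fun s => a + s) (fun s => -s) hy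
  obtain ⟨g0, hg0⟩ := hreg w0 (fun s => s) (fun s => a - s) h0
  set r : L := resHom wy ⟨G1, gy⟩ / resHom w0 ⟨G1, g0⟩
  let F1 := EΩ.F⟮r⟯
  haveI : FiniteDimensional EΩ.F F1 :=
    adjoin.finiteDimensional (Algebra.IsIntegral.isIntegral r)
  haveI : IsFunctionField Ω F1 := isFunctionField_finite Ω EΩ.F F1
  haveI : IsScalarTower K Ω F1 := IsScalarTower.of_algebraMap_eq fun c =>
    Subtype.ext (IsScalarTower.algebraMap_apply K Ω L c)
  haveI : IsScalarTower Ω F1 L := IsScalarTower.of_algebraMap_eq fun c => rfl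
  haveI : IsScalarTower K F1 L := IsScalarTower.of_algebraMap_eq fun c => rfl
  set r1 : F1 := ⟨r, mem_adjoin_simple_self EΩ.F r⟩
  have hr : algebraMap F1 L r1 * resHom w0 ⟨G1, g0⟩ = resHom wy ⟨G1, gy⟩ :=
    div_mul_cancel₀ _ hg0
  have hr0 : r1 ≠ 0 := fun e => div_ne_zero hgy hg0 (congrArg Subtype.val e)
  have hfin := fun u => Law.diagonal_place (F1 := F1) (G := G) (φ := φ) (c₀ := c₀) (η := η)
    (EΩ := EΩ) (E := E) (a := a) (h := h) hη hG1 hdiv (by' := fun s => a + s) (jy := fun s => -s)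
    (b0' := fun s => s) (j0 := fun s => a - s) hy h0 gy g0 hr0 hr u
  have hD : divOf Ω r1 + G.combo φ c₀ η EΩ F1 (fun s => a + s) (fun s => -s) h -
      G.combo φ c₀ η EΩ F1 (fun s => s) (fun s => a - s) h = 0 := Finsupp.ext fun u => by
    rw [Finsupp.sub_apply, Finsupp.add_apply, divOf_apply]
    exact hfin u
  have hdeg : ∀ b j, Divisor.degree (poleDiv Ω (algebraMap EΩ.F F1 ((G.rpt φ c₀ η EΩ b j).eval h)))
      = (Module.finrank EΩ.F F1 : ℤ) * Divisor.degree (G.pdiv φ EΩ b η h) := fun b j => by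
    rw [degree_poleDiv_algebraMap, ← degree_pdiv_invariant G φ EΩ b h
      (η := η + j • c₀.map (IsScalarTower.toAlgHom K Ω₀ Ω)) (Law.tdim_add_const hη j) hη]
    rfl
  have he := congrArg Divisor.degree hD
  rw [map_zero] at he
  unfold Law.combo at he
  simp only [map_sub] at he
  rw [Divisor.degree.map_add, map_sub, Divisor.degree.map_add, Divisor.degree.map_add, map_zsmul,
    map_zsmul, degree_divOf, hdeg, hdeg, hdeg, hdeg, hdeg, hdeg] at he
  simp only [smul_eq_mul] at he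
  have hN : (Module.finrank EΩ.F F1 : ℤ) ≠ 0 := Int.natCast_ne_zero.2 Module.finrank_pos.ne'
  rw [G.degree_pdiv_zero] at he
  refine mul_left_cancel₀ hN ?_
  simp only [← sub_eq_add_neg, add_zero] at he
  linear_combination he

/-- The degree along a translate is quadratic in the multiplier. -/
theorem targetCube_of (hL : TargetLinear.{u}) : TargetCube.{u} := by
  intro K _ _ g V G Ω₀ Ω F₀ F _ _ _ _ _ _ _ _ _ _ _ _ _ _ _ _ _ _ _ _ _ ι hι φ η hgen h n
  let EΩ : Ext K Ω₀ F₀ Ω := { F := F, ff := inferInstance, ι := ι, hι := hι }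
  have hη : (g : ℕ∞) ≤ tdim Ω₀ η.vals := η.genericOver_iff.1 hgen
  exact quadratic_of_second_difference (fun a => Divisor.degree (G.pdiv φ EΩ a η h))
    (G.degree_second_difference hL φ EΩ hη h) (G.degree_pdiv_zero φ EΩ η h) n

/-- The cube. -/
theorem targetCube : TargetCube.{u} := targetCube_of targetLinear

end FLTAgent.AV
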