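import Fermat.Agent.AV.Curve.Spec

/-!
# Residues of independent elements, moving a function by a constant, principal divisors
-/

set_option autoImplicit false
set_option linter.style.haveILetI false
set_option linter.unusedSectionVars false

noncomputable section

namespace FLTAgent.AV

open AlgebraicCurve FLTAgent.Curves FLTAgent.Jac27.Spread FLTAgent.Specialization IntermediateField

universe u

variable {K : Type u} [Field K] {g : ℕ} {V : Space K g}

/-- Residues of a set span at most its dimension. -/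
theorem tdim_residue_le {B L k : Type u} [Field B] [Field L] [Field k] [Algebra B L] [Algebra B k]
    {A : ValuationSubring L} (π : A →+* k)
    (hπ : ∀ c : B, ∃ h : algebraMap B L c ∈ A, π ⟨_, h⟩ = algebraMap B k c) (S : Set L) :
    tdim B {c : k | ∃ x : L, x ∈ S ∧ ∃ h : x ∈ A, π ⟨x, h⟩ = c} ≤ tdim B S := by
  set R := {c : k | ∃ x : L, x ∈ S ∧ ∃ h : x ∈ A, π ⟨x, h⟩ = c}
  obtain ⟨I, hI⟩ := (AlgebraicIndependent.matroid B k).exists_isBasis R
  rw [show tdim B R = I.encard from hI.eRk_eq_encard]
  have hlift : ∀ c : I, ∃ x : A, (x : L) ∈ S ∧ π x = (c : k) := fun c => by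
    obtain ⟨x, hx, h, he⟩ := hI.subset c.2
    exact ⟨⟨x, h⟩, hx, he⟩
  choose l hlS hl using hlift
  let bA : B →+* A := (algebraMap B L).codRestrict A.toSubring fun c => (hπ c).choose
  have hbA : π.comp bA = algebraMap B k := RingHom.ext fun c => (hπ c).choose_spec
  have hind : AlgebraicIndependent B (fun c : I => ((l c : A) : L)) := by
    rw [algebraicIndependent_iff]
    intro P hP
    let eA : A := MvPolynomial.eval₂ bA l P
    have h1 : (eA : L) = MvPolynomial.aeval (fun c : I => ((l c : A) : L)) P :=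
      MvPolynomial.eval₂_comp_left A.subtype bA l P
    have h2 : π eA = MvPolynomial.aeval (fun c : I => (c : k)) P := by
      rw [MvPolynomial.eval₂_comp_left π bA l P, hbA, show (⇑π ∘ l) = fun c : I => (c : k) from
        funext hl]
      rfl
    rw [hP] at h1
    rw [show eA = 0 from Subtype.ext h1, map_zero] at h2
    exact algebraicIndependent_iff.1 (AlgebraicIndependent.matroid_indep_iff.1 hI.indep) P h2.symm
  refine Matroid.le_eRk_iff.2 ⟨Set.range fun c : I => ((l c : A) : L),
    Set.range_subset_iff.2 hlS, AlgebraicIndependent.matroid_indep_iff.2 hind.to_subtype_range, ?_⟩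
  rw [← Set.image_univ, hind.injective.encard_image, Set.encard_univ]
  exact ENat.card_coe_set_eq I

theorem tdim_spec_le {B L k : Type u} [Field B] [Field L] [Field k] [Algebra K L] [Algebra K k]
    [Algebra B L] [Algebra B k] {A : ValuationSubring L} {π : A →+* k}
    (hπ : ∀ c : B, ∃ h : algebraMap B L c ∈ A, π ⟨_, h⟩ = algebraMap B k c) {p : V.Pt L}
    {r : V.Pt k} (hs : Space.IsSpec π p r) : tdim B r.vals ≤ tdim B p.vals := by
  refine le_trans (tdim_mono B ?_) (tdim_residue_le π hπ p.vals)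
  obtain ⟨z, w⟩ := hs
  rintro _ ⟨x, rfl⟩
  obtain ⟨h, he⟩ := w x
  exact ⟨_, ⟨_, rfl⟩, h, he⟩

/-- Adding a point defined over a small set keeps a point generic. -/
theorem Law.tdim_add_generic (G : Law V) {B L : Type u} [Field B] [Field L] [Algebra K B]
    [Algebra K L] [Algebra B L] [IsScalarTower K B L] {p r : V.Pt L} {S : Set L} {m j : ℕ}
    (h : ((m + j : ℕ) : ℕ∞) ≤ tdim B (p.vals ∪ S)) (hj : tdim B S ≤ j)
    (hr : r.vals ⊆ IntermediateField.adjoin K S) :
    letI := G.group L; (m : ℕ∞) ≤ tdim B (p + r).vals := by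
  letI := G.group L
  have h1 : tdim B (p.vals ∪ S) ≤ tdim B ((p + r).vals ∪ S) := by
    refine le_of_le_of_eq (tdim_mono B (Set.union_subset ?_
      (Set.subset_union_right.trans (IntermediateField.subset_adjoin B _)))) (tdim_adjoin B _)
    have h2 := G.vals_add (p := p + r) (q := -r)
      (E := IntermediateField.adjoin K ((p + r).vals ∪ S))
      (Set.subset_union_left.trans (IntermediateField.subset_adjoin K _))
      (G.vals_neg (hr.trans (IntermediateField.adjoin.mono K _ _ Set.subset_union_right)))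
    rw [add_neg_cancel_right] at h2
    exact h2.trans (Law.subset_adjoin_restrict (K := K) (B := B) _)
  have h3 := h.trans (h1.trans ((tdim_union_le B _ _).trans (add_le_add le_rfl hj)))
  rw [Nat.cast_add] at h3
  exact (ENat.add_le_add_iff_right (ENat.natCast_ne_top j)).1 h3

/-- A translate of `h` by a constant, inverted, is regular at a given point for all but one
constant. -/
theorem exists_bad {L : Type u} [Field L] [Algebra K L] (P : V.Pt L) (h : V.N)
    (hP : h ∈ V.O P.q ∨ h⁻¹ ∈ V.O P.q) :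
    ∃ B : Set K, B.Subsingleton ∧ ∀ lam ∉ B, (h - algebraMap K V.N lam)⁻¹ ∈ V.O P.q := by
  by_cases hh : h ∈ V.O P.q
  · refine ⟨{lam | algebraMap K L lam = P.eval h}, fun a ha b hb =>
      (algebraMap K L).injective (ha.trans hb.symm), fun lam hlam => ?_⟩
    have hm : h - algebraMap K V.N lam ∈ V.O P.q :=
      (V.O P.q).sub_mem hh ((V.O P.q).algebraMap_mem lam)
    refine P.inv_mem_of_eval_ne_zero hm fun e => hlam ?_
    rw [P.eval_of_mem hm, show (⟨h - algebraMap K V.N lam, hm⟩ : V.O P.q) =
      ⟨h, hh⟩ - algebraMap K (V.O P.q) lam from rfl, map_sub, AlgHom.commutes, sub_eq_zero] at e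
    show algebraMap K L lam = P.eval h
    rw [P.eval_of_mem hh]
    exact e.symm
  · refine ⟨∅, Set.subsingleton_empty, fun lam _ => ?_⟩
    have hi := hP.resolve_left hh
    have h0 : h ≠ 0 := fun e => hh (e ▸ (V.O P.q).zero_mem)
    have he : P.eval h⁻¹ = 0 := by
      by_contra e
      exact hh (inv_inv h ▸ P.inv_mem_of_eval_ne_zero hi e)
    have hm : (1 : V.N) - algebraMap K V.N lam * h⁻¹ ∈ V.O P.q :=
      (V.O P.q).sub_mem (V.O P.q).one_mem ((V.O P.q).mul_mem ((V.O P.q).algebraMap_mem lam) hi)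
    have h1 : P.eval ((1 : V.N) - algebraMap K V.N lam * h⁻¹) = 1 := by
      rw [P.eval_of_mem hm, show (⟨_, hm⟩ : V.O P.q) =
        1 - algebraMap K (V.O P.q) lam * ⟨h⁻¹, hi⟩ from rfl, map_sub, map_one, map_mul,
        show P.φ ⟨h⁻¹, hi⟩ = P.eval h⁻¹ from (P.eval_of_mem hi).symm, he, mul_zero, sub_zero]
    have hinv := P.inv_mem_of_eval_ne_zero hm (by rw [h1]; exact one_ne_zero)
    have hid : (h - algebraMap K V.N lam)⁻¹ =
        h⁻¹ * ((1 : V.N) - algebraMap K V.N lam * h⁻¹)⁻¹ := by
      rw [← mul_inv, mul_sub, mul_one, mul_left_comm, mul_inv_cancel₀ h0, mul_one]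
    rw [hid]
    exact (V.O P.q).mul_mem hi hinv

variable {Ω₀ F₀ L k : Type u} [Field Ω₀] [Field F₀] [Field L] [Field k] [Algebra K Ω₀]
  [Algebra K F₀] [Algebra Ω₀ F₀] [IsScalarTower K Ω₀ F₀] [Algebra K L] [Algebra Ω₀ L]
  [IsScalarTower K Ω₀ L] [Algebra K k] [Algebra Ω₀ k] [IsScalarTower K Ω₀ k]
  [IsAlgClosed Ω₀] [IsFunctionField Ω₀ F₀] [IsAlgClosed L] [IsAlgClosed k]

/-- Moving `h` by a constant and inverting changes pole divisors by principal divisors. -/
theorem Law.pdiv_inv_sub (G : Law V) (φ : V.Pt F₀) (E : Ext K Ω₀ F₀ L) (a : ℤ) {q : V.Pt L}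
    (hq : (g : ℕ∞) ≤ tdim Ω₀ q.vals) (h : V.N) {lam : K} (hne : h ≠ algebraMap K V.N lam) :
    G.pdiv φ E a q (h - algebraMap K V.N lam)⁻¹ - G.pdiv φ E a q h ∈ Divisor.principal := by
  have hgen := G.q_curvePt φ E a hq
  set P := G.curvePt φ E a q
  have he : P.eval (h - algebraMap K V.N lam)⁻¹ =
      (P.eval h - algebraMap L E.F (algebraMap K L lam))⁻¹ := by
    rw [← IsScalarTower.algebraMap_apply K L E.F, ← Space.Pt.evalHom_apply P hgen, map_inv₀,
      map_sub, AlgHom.commutes, Space.Pt.evalHom_apply P hgen]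
  have hu : P.eval h - algebraMap L E.F (algebraMap K L lam) ≠ 0 := by
    rw [← IsScalarTower.algebraMap_apply K L E.F, sub_ne_zero, ← Space.Pt.evalHom_apply P hgen,
      ← AlgHom.commutes (P.evalHom hgen) lam]
    exact fun e => hne ((P.evalHom hgen).toRingHom.injective e)
  set x := P.eval h
  set c := algebraMap L E.F (algebraMap K L lam)
  refine Divisor.mem_principal.2 ⟨x - c, hu, fun v => ?_⟩
  show poleDiv L (P.eval (h - algebraMap K V.N lam)⁻¹) v - poleDiv L x v = _
  rw [he, poleDiv_apply, poleDiv_apply, Place.ord_inv]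
  rcases eq_or_ne x 0 with hx | hx
  · rw [hx, zero_sub, ord_neg, ord_algebraMap, Place.ord_zero]; simp
  rcases lt_or_ge (v.ord x) 0 with hlt | hge
  · have hord : v.ord (x - c) = v.ord x := by
      rw [sub_eq_add_neg]
      refine (ord_add_eq_left (v := v) hx (Or.inr ?_)).1
      rw [show v.ord (-c) = 0 from (ord_neg v c).trans (ord_algebraMap v (algebraMap K L lam))]
      exact hlt
    rw [hord]
    omega
  · have h1 : 0 ≤ v.ord (x - c) :=
      ((ordGE_of_le (v := v) hge).sub (ordGE_algebraMap v (algebraMap K L lam))).le_ord hu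
    omega

variable {E : Ext K Ω₀ F₀ L} {Ek : Ext K Ω₀ F₀ k} {A : ValuationSubring L} {π : A →+* k}

/-- Specialisation takes principal divisors to principal divisors. -/
theorem Link.divMap_mem_principal (lk : Link E Ek π) {D : Divisor L E.F}
    (hD : D ∈ Divisor.principal) : Model.divMap lk.smooth D ∈ Divisor.principal := by
  obtain ⟨f, hf, hv⟩ := Divisor.mem_principal.1 hD
  obtain ⟨c, b, hb, hres⟩ := lk.M.scaled f hf
  have hc : c ≠ 0 := fun e => hb (by
    rw [e, zero_smul] at hres; exact hres.unique lk.M.res_zero)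
  have hD' : D = divOf L (c • f) := Finsupp.ext fun v => by
    rw [divOf_apply, Algebra.smul_def, Place.ord_mul _ (by simpa using hc) hf, ord_algebraMap,
      zero_add]
    exact hv v
  rw [hD', Model.divMap_divOf lk.smooth hres hb]
  exact Divisor.mem_principal.2 ⟨b, hb, fun v => rfl⟩

end FLTAgent.AV
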