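import Fermat.Agent.AV.Curve.Basic

/-!
# Values at places and composite residue maps
-/

set_option autoImplicit false
set_option linter.style.haveILetI false
set_option linter.unusedSectionVars false

noncomputable section

namespace FLTAgent.AV

open AlgebraicCurve FLTAgent.Curves IntermediateField

universe u

variable {K : Type u} [Field K] {L F : Type u} [Field L] [Field F] [Algebra L F] [IsAlgClosed L]
  [IsFunctionField L F]

theorem eq_zero_of_ordGE_algebraMap {Q : Place L F} {c : L} (h : OrdGE Q 1 (algebraMap L F c)) :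
    c = 0 := by
  rcases h with h | h
  · simpa using h
  · rw [ord_algebraMap] at h; omega

theorem exists_value (Q : Place L F) {f : F} (hf : f ∈ Q.toValuationSubring) :
    ∃! c : L, OrdGE Q 1 (f - algebraMap L F c) := by
  obtain ⟨π, -, hπ⟩ := exists_uniformizer Q
  obtain ⟨c, hc⟩ := exists_residue_smul Q hπ (k := 0) (ordGE_zero_iff_mem.2 hf)
  refine ⟨c, by simpa [Algebra.smul_def] using hc, fun d hd => ?_⟩
  have h1 : OrdGE Q 1 (f - algebraMap L F c) := by simpa [Algebra.smul_def] using hc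
  have h2 := h1.sub hd
  rw [sub_sub_sub_cancel_left, ← map_sub] at h2
  exact sub_eq_zero.1 (eq_zero_of_ordGE_algebraMap h2)

/-- The value of a function regular at a place. -/
def valueAt (Q : Place L F) (f : Q.toValuationSubring) : L := (exists_value Q f.2).choose

theorem valueAt_spec (Q : Place L F) (f : Q.toValuationSubring) :
    OrdGE Q 1 ((f : F) - algebraMap L F (valueAt Q f)) :=
  (exists_value Q f.2).choose_spec.1

theorem valueAt_eq {Q : Place L F} {f : Q.toValuationSubring} {c : L}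
    (h : OrdGE Q 1 ((f : F) - algebraMap L F c)) : valueAt Q f = c :=
  (exists_value Q f.2).unique (valueAt_spec Q f) h

/-- Evaluation at a place. -/
def resHom (Q : Place L F) : Q.toValuationSubring →+* L where
  toFun := valueAt Q
  map_one' := valueAt_eq (by
    show OrdGE Q 1 ((1 : F) - algebraMap L F 1); rw [map_one, sub_self]; exact ordGE_zero _ _)
  map_zero' := valueAt_eq (by
    show OrdGE Q 1 ((0 : F) - algebraMap L F 0); rw [map_zero, sub_self]; exact ordGE_zero _ _)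
  map_add' a b := valueAt_eq (by
    have := (valueAt_spec Q a).add (valueAt_spec Q b)
    convert this using 1
    show (a : F) + (b : F) - _ = _
    rw [map_add]; ring)
  map_mul' a b := valueAt_eq (by
    have h1 : OrdGE Q 0 (algebraMap L F (valueAt Q b)) := ordGE_algebraMap _ _
    have h2 := (valueAt_spec Q a).mul h1
    have h3 := (ordGE_zero_iff_mem.2 a.2).mul (valueAt_spec Q b)
    have h4 := h3.add (h2.mono (by norm_num))
    rw [zero_add] at h4
    convert h4 using 1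
    show (a : F) * (b : F) - _ = _
    rw [map_mul]; ring)

theorem resHom_eq_iff {Q : Place L F} {f : Q.toValuationSubring} {c : L} :
    resHom Q f = c ↔ OrdGE Q 1 ((f : F) - algebraMap L F c) :=
  ⟨fun h => h ▸ valueAt_spec Q f, valueAt_eq⟩

theorem resHom_algebraMap (Q : Place L F) (c : L) (h : algebraMap L F c ∈ Q.toValuationSubring) :
    resHom Q ⟨_, h⟩ = c :=
  resHom_eq_iff.2 (by rw [sub_self]; exact ordGE_zero _ _)

theorem resHom_surjective (Q : Place L F) : Function.Surjective (resHom Q) := fun c =>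
  ⟨⟨_, Q.algebraMap_mem' c⟩, resHom_algebraMap Q c _⟩

theorem resHom_eq_zero_iff {Q : Place L F} {f : Q.toValuationSubring} :
    resHom Q f = 0 ↔ OrdGE Q 1 (f : F) := by
  rw [resHom_eq_iff, map_zero, sub_zero]

theorem ord_eq_zero_of_resHom_ne {Q : Place L F} {f : Q.toValuationSubring}
    (h : resHom Q f ≠ 0) : Q.ord (f : F) = 0 := by
  have h1 : ¬ (1 : ℤ) ≤ Q.ord (f : F) := fun h1 => h (resHom_eq_zero_iff.2 (ordGE_of_le h1))
  rcases eq_or_ne (f : F) 0 with h0 | h0
  · exact absurd (resHom_eq_zero_iff.2 (Or.inl h0)) h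
  · have := (ordGE_zero_iff_mem.2 f.2).le_ord h0
    omega

theorem isLocalHom_resHom (Q : Place L F) : IsLocalHom (resHom Q) := by
  refine ⟨fun f hf => ?_⟩
  have h0 : (f : F) ≠ 0 := fun h => hf.ne_zero (resHom_eq_zero_iff.2 (Or.inl h))
  have hi : (f : F)⁻¹ ∈ Q.toValuationSubring :=
    (mem_iff_ord_nonneg (inv_ne_zero h0)).2 (by
      rw [Q.ord_inv, ord_eq_zero_of_resHom_ne hf.ne_zero]; simp)
  exact IsUnit.of_mul_eq_one ⟨_, hi⟩ (Subtype.ext (mul_inv_cancel₀ h0))

variable [Algebra K L] [Algebra K F] [IsScalarTower K L F]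

theorem residual_resHom (Q : Place L F) : Residual (K := K) Q.toValuationSubring (resHom Q) := by
  refine ⟨isLocalHom_resHom Q, fun c => ?_⟩
  have h : algebraMap K F c ∈ Q.toValuationSubring := by
    rw [IsScalarTower.algebraMap_apply K L F]; exact Q.algebraMap_mem' _
  refine ⟨h, resHom_eq_iff.2 ?_⟩
  show OrdGE Q 1 (algebraMap K F c - _)
  rw [← IsScalarTower.algebraMap_apply K L F, sub_self]
  exact ordGE_zero _ _

/-! ### Composite residue maps -/

section Comp

variable {E k : Type u} [Field E] [Field k] (O : ValuationSubring E) (ρ : O →+* L)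
  (hρ : IsLocalHom ρ) (A : ValuationSubring L) (π : A →+* k)

/-- The composite of a residue map to `L` with a valuation subring of `L`. -/
def compSubring : ValuationSubring E where
  carrier := {f | ∃ h : f ∈ O, ρ ⟨f, h⟩ ∈ A}
  one_mem' := ⟨O.one_mem, by rw [show (⟨1, O.one_mem⟩ : O) = 1 from rfl, map_one]; exact A.one_mem⟩
  zero_mem' :=
    ⟨O.zero_mem, by rw [show (⟨0, O.zero_mem⟩ : O) = 0 from rfl, map_zero]; exact A.zero_mem⟩
  add_mem' {a b} := fun ⟨ha, ha'⟩ ⟨hb, hb'⟩ => ⟨O.add_mem _ _ ha hb, by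
    rw [show (⟨a + b, O.add_mem _ _ ha hb⟩ : O) = ⟨a, ha⟩ + ⟨b, hb⟩ from rfl, map_add]
    exact A.add_mem _ _ ha' hb'⟩
  mul_mem' {a b} := fun ⟨ha, ha'⟩ ⟨hb, hb'⟩ => ⟨O.mul_mem _ _ ha hb, by
    rw [show (⟨a * b, O.mul_mem _ _ ha hb⟩ : O) = ⟨a, ha⟩ * ⟨b, hb⟩ from rfl, map_mul]
    exact A.mul_mem _ _ ha' hb'⟩
  neg_mem' {a} := fun ⟨ha, ha'⟩ => ⟨O.neg_mem _ ha, by
    rw [show (⟨-a, O.neg_mem _ ha⟩ : O) = -⟨a, ha⟩ from rfl, map_neg]
    exact A.neg_mem _ ha'⟩
  mem_or_inv_mem' f := by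
    by_cases h : ∃ hf : f ∈ O, ρ ⟨f, hf⟩ ∈ A
    · exact Or.inl h
    right
    rcases eq_or_ne f 0 with rfl | hf0
    · refine absurd ⟨O.zero_mem, ?_⟩ h
      rw [show (⟨0, O.zero_mem⟩ : O) = 0 from rfl, map_zero]
      exact A.zero_mem
    rcases O.mem_or_inv_mem f with hf | hf
    · have hne : ρ ⟨f, hf⟩ ≠ 0 := fun h0 => h ⟨hf, by rw [h0]; exact A.zero_mem⟩
      obtain ⟨u, hu⟩ := hρ.map_nonunit _ (isUnit_iff_ne_zero.2 hne)
      have hval : ((u⁻¹ : Oˣ) : O).1 = f⁻¹ := by
        apply eq_inv_of_mul_eq_one_right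
        have := congrArg Subtype.val u.mul_inv
        rw [hu] at this
        exact this
      refine ⟨hval ▸ SetLike.coe_mem _, ?_⟩
      rcases A.mem_or_inv_mem (ρ ⟨f, hf⟩) with ha | ha
      · exact absurd ⟨hf, ha⟩ h
      · convert ha using 1
        refine eq_inv_of_mul_eq_one_right ?_
        rw [← map_mul, ← map_one ρ]
        exact congrArg ρ (Subtype.ext (mul_inv_cancel₀ hf0))
    · refine ⟨hf, ?_⟩
      by_cases h0 : ρ ⟨f⁻¹, hf⟩ = 0
      · rw [h0]; exact A.zero_mem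
      obtain ⟨u, hu⟩ := hρ.map_nonunit _ (isUnit_iff_ne_zero.2 h0)
      have hval : ((u⁻¹ : Oˣ) : O).1 = f := by
        rw [← inv_inv f]
        apply eq_inv_of_mul_eq_one_right
        have := congrArg Subtype.val u.mul_inv
        rw [← show (u : O).1 = f⁻¹ from congrArg Subtype.val hu]
        exact this
      have hfO : f ∈ O := hval ▸ SetLike.coe_mem _
      rcases A.mem_or_inv_mem (ρ ⟨f, hfO⟩) with ha | ha
      · exact absurd ⟨hfO, ha⟩ h
      · convert ha using 1
        refine eq_inv_of_mul_eq_one_right ?_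
        rw [← map_mul, ← map_one ρ]
        exact congrArg ρ (Subtype.ext (mul_inv_cancel₀ hf0))

/-- The composite residue map. -/
def compHom : compSubring O ρ hρ A →+* k where
  toFun f := π ⟨_, f.2.2⟩
  map_one' := by
    rw [← map_one π]; exact congrArg π (Subtype.ext (map_one ρ))
  map_zero' := by
    rw [← map_zero π]; exact congrArg π (Subtype.ext (map_zero ρ))
  map_add' a b := by
    rw [← map_add]; exact congrArg π (Subtype.ext (map_add ρ ⟨_, a.2.1⟩ ⟨_, b.2.1⟩))
  map_mul' a b := by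
    rw [← map_mul]; exact congrArg π (Subtype.ext (map_mul ρ ⟨_, a.2.1⟩ ⟨_, b.2.1⟩))

theorem residual_comp [Algebra K E] [Algebra K k] (h₁ : Residual (K := K) O ρ)
    (h₂ : Residual (K := K) A π) :
    Residual (K := K) (compSubring O ρ h₁.1 A) (compHom O ρ h₁.1 A π) := by
  refine ⟨⟨fun f hf => ?_⟩, fun c => ?_⟩
  · have h' := h₂.1.map_nonunit _ hf
    have h0 : ρ ⟨_, f.2.1⟩ ≠ 0 := fun h0 => h'.ne_zero (Subtype.ext h0)
    obtain ⟨u, hu⟩ := h₁.1.map_nonunit _ (isUnit_iff_ne_zero.2 h0)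
    have hf0 : (f : E) ≠ 0 := fun h => h0 (by
      rw [show (⟨(f : E), f.2.1⟩ : O) = 0 from Subtype.ext h, map_zero])
    have hval : ((u⁻¹ : Oˣ) : O).1 = (f : E)⁻¹ := by
      apply eq_inv_of_mul_eq_one_right
      have := congrArg Subtype.val u.mul_inv
      rw [← show (u : O).1 = (f : E) from congrArg Subtype.val hu]
      exact this
    obtain ⟨v, hv⟩ := h'
    have hi : (f : E)⁻¹ ∈ compSubring O ρ h₁.1 A := by
      refine ⟨hval ▸ SetLike.coe_mem _, ?_⟩
      have h1 : ((v⁻¹ : Aˣ) : A).1 = (ρ ⟨_, f.2.1⟩)⁻¹ := by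
        apply eq_inv_of_mul_eq_one_right
        have := congrArg Subtype.val v.mul_inv
        rw [← show (v : A).1 = ρ ⟨_, f.2.1⟩ from congrArg Subtype.val hv]
        exact this
      have h2 : ρ ⟨(f : E)⁻¹, hval ▸ SetLike.coe_mem _⟩ = (ρ ⟨_, f.2.1⟩)⁻¹ := by
        refine eq_inv_of_mul_eq_one_right ?_
        rw [← map_mul, ← map_one ρ]
        exact congrArg ρ (Subtype.ext (mul_inv_cancel₀ hf0))
      rw [h2, ← h1]
      exact SetLike.coe_mem _
    exact IsUnit.of_mul_eq_one ⟨_, hi⟩ (Subtype.ext (mul_inv_cancel₀ hf0))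
  · obtain ⟨h, he⟩ := h₁.2 c
    obtain ⟨h', he'⟩ := h₂.2 c
    refine ⟨⟨h, by rw [he]; exact h'⟩, ?_⟩
    rw [← he']
    exact congrArg π (Subtype.ext he)

theorem isSpec_comp {g : ℕ} {V : Space K g} [Algebra K E] [Algebra K k] {p : V.Pt E} {q : V.Pt L}
    {r : V.Pt k} (h₁ : Space.IsSpec ρ p q) (h₂ : Space.IsSpec π q r) :
    Space.IsSpec (compHom O ρ hρ A π) p r := by
  obtain ⟨z₁, w₁⟩ := h₁
  obtain ⟨z₂, w₂⟩ := h₂
  refine ⟨V.spz_trans z₁ z₂, fun a => ?_⟩
  obtain ⟨m₁, e₁⟩ := w₁ (Subalgebra.inclusion (V.spz_le z₂) a)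
  obtain ⟨m₂, e₂⟩ := w₂ a
  exact ⟨⟨m₁, (congrArg (fun x => x ∈ A) e₁).mpr m₂⟩, (congrArg π (Subtype.ext e₁)).trans e₂⟩

end Comp

end FLTAgent.AV
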